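import Mathlib
import Fermat.Agent.H41.SS.TubeLoc
import Fermat.Agent.H71.SS.RegPoint

/-!
# P-SS2, row SS2-C4 (helper99), part 2a : the discrete valuation ring `B_𝔪 / π` (abstract)

`B` a noetherian domain, `𝔪` a prime ideal, `π, u ∈ 𝔪` with `𝔪 B_𝔪 = (π, u)`.  Then every
`d ∈ B` which is not in `π B_𝔪` is, modulo `π B_𝔪`, a unit of `B_𝔪` times a power of `u`:
`s d = uⁿ e + π b` with `s, e ∉ 𝔪` (Krull's intersection theorem in `B_𝔪 / π`).
-/

set_option autoImplicit false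
set_option linter.unusedSectionVars false
set_option linter.style.haveILetI false

noncomputable section

namespace Fermat.Agent.H99.SS2

open IsLocalRing

variable {B : Type*} [CommRing B] [IsDomain B] [IsNoetherianRing B]

theorem exists_pow_unit_decomp (𝔪 : Ideal B) [h𝔪 : 𝔪.IsPrime] (π u : B) (hπ : π ∈ 𝔪)
    (hu : u ∈ 𝔪)
    (hreg : ∀ z ∈ 𝔪, ∃ s, s ∉ 𝔪 ∧ ∃ b₁ b₂ : B, s * z = π * b₁ + u * b₂)
    (d : B) (hd : ¬ ∃ s, s ∉ 𝔪 ∧ ∃ b : B, s * d = π * b) :
    ∃ (n : ℕ) (s e b : B), s ∉ 𝔪 ∧ e ∉ 𝔪 ∧ s * d = u ^ n * e + π * b := by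
  classical
  let R := Localization.AtPrime 𝔪
  haveI : IsNoetherianRing R := IsLocalization.isNoetherianRing 𝔪.primeCompl R inferInstance
  have hinj : Function.Injective (algebraMap B R) :=
    IsLocalization.injective R 𝔪.primeCompl_le_nonZeroDivisors
  have hmax : maximalIdeal R = Ideal.span {algebraMap B R π, algebraMap B R u} := by
    rw [← IsLocalization.AtPrime.map_eq_maximalIdeal 𝔪 R]
    apply le_antisymm
    · rw [Ideal.map_le_iff_le_comap]
      intro z hz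
      rw [Ideal.mem_comap]
      obtain ⟨s, hs, b₁, b₂, hsz⟩ := hreg z hz
      have hsu : IsUnit (algebraMap B R s) :=
        IsLocalization.map_units R (⟨s, hs⟩ : 𝔪.primeCompl)
      rw [← Ideal.mul_unit_mem_iff_mem _ hsu, ← map_mul, mul_comm, hsz, map_add, map_mul,
        map_mul]
      exact Ideal.add_mem _
        (Ideal.mul_mem_right _ _ (Ideal.subset_span (by simp)))
        (Ideal.mul_mem_right _ _ (Ideal.subset_span (by simp)))
    · rw [Ideal.span_le]
      rintro x (rfl | rfl)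
      · exact Ideal.mem_map_of_mem _ hπ
      · exact Ideal.mem_map_of_mem _ hu
  set I : Ideal R := Ideal.span {algebraMap B R π} with hI
  have hIle : I ≤ maximalIdeal R := by
    rw [hI, Ideal.span_le, hmax]
    rintro x rfl
    exact Ideal.subset_span (by simp)
  have hItop : I ≠ ⊤ := fun h => (maximalIdeal.isMaximal R).ne_top (top_le_iff.1 (h ▸ hIle))
  haveI : Nontrivial (R ⧸ I) := Ideal.Quotient.nontrivial_iff.2 hItop
  haveI : IsLocalRing (R ⧸ I) :=
    IsLocalRing.of_surjective' (Ideal.Quotient.mk I) Ideal.Quotient.mk_surjective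
  have hmS : maximalIdeal (R ⧸ I) = Ideal.span {Ideal.Quotient.mk I (algebraMap B R u)} :=
    Fermat.Agent.H41.SS.tubeLoc_maximalIdeal_quotient hmax
  have hπ0 : Ideal.Quotient.mk I (algebraMap B R π) = 0 :=
    Ideal.Quotient.eq_zero_iff_mem.2 (Ideal.mem_span_singleton_self _)
  -- the class of `d` is nonzero
  have hx : Ideal.Quotient.mk I (algebraMap B R d) ≠ 0 := by
    intro h0
    rw [Ideal.Quotient.eq_zero_iff_mem, hI, Ideal.mem_span_singleton'] at h0
    obtain ⟨r, hr⟩ := h0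
    obtain ⟨b, ⟨s, hs⟩, rfl⟩ := IsLocalization.exists_mk'_eq 𝔪.primeCompl r
    apply hd
    refine ⟨s, hs, b, hinj ?_⟩
    have hspec := IsLocalization.mk'_spec R b (⟨s, hs⟩ : 𝔪.primeCompl)
    rw [map_mul, map_mul, ← hr, ← hspec]
    ring
  obtain ⟨n, v, hv, hxv⟩ :=
    Fermat.Agent.H71.SS.exists_eq_pow_mul_unit_of_maximalIdeal_eq_span hmS hx
  obtain ⟨r, rfl⟩ := Ideal.Quotient.mk_surjective v
  -- `r` is a unit of `R`
  have hr : IsUnit r := by
    by_contra hru
    have h1 : r ∈ maximalIdeal R := (IsLocalRing.mem_maximalIdeal r).2 hru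
    have h2 : Ideal.Quotient.mk I r ∈ maximalIdeal (R ⧸ I) := by
      rw [hmax, Ideal.mem_span_pair] at h1
      obtain ⟨a, b, rfl⟩ := h1
      rw [hmS, map_add, map_mul, map_mul, hπ0, mul_zero, zero_add]
      exact Ideal.mul_mem_left _ _ (Ideal.mem_span_singleton_self _)
    exact (IsLocalRing.mem_maximalIdeal _).1 h2 hv
  obtain ⟨r', hrr'⟩ := hr.exists_right_inv
  obtain ⟨e, ⟨s, hs⟩, rfl⟩ := IsLocalization.exists_mk'_eq 𝔪.primeCompl r
  obtain ⟨e', ⟨s', hs'⟩, rfl⟩ := IsLocalization.exists_mk'_eq 𝔪.primeCompl r'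
  have hspec := IsLocalization.mk'_spec R e (⟨s, hs⟩ : 𝔪.primeCompl)
  have hspec' := IsLocalization.mk'_spec R e' (⟨s', hs'⟩ : 𝔪.primeCompl)
  have he : e ∉ 𝔪 := by
    intro he
    have h1 : e * e' = s * s' := by
      apply hinj
      rw [map_mul, map_mul, ← hspec, ← hspec']
      calc IsLocalization.mk' R e ⟨s, hs⟩ * algebraMap B R s *
            (IsLocalization.mk' R e' ⟨s', hs'⟩ * algebraMap B R s')
          = (IsLocalization.mk' R e ⟨s, hs⟩ * IsLocalization.mk' R e' ⟨s', hs'⟩) *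
            (algebraMap B R s * algebraMap B R s') := by ring
        _ = algebraMap B R s * algebraMap B R s' := by rw [hrr', one_mul]
    have h2 : s * s' ∈ 𝔪 := h1 ▸ 𝔪.mul_mem_right _ he
    exact (h𝔪.mem_or_mem h2).elim hs hs'
  -- `d - uⁿ r ∈ π R`
  have h2 : algebraMap B R d - algebraMap B R u ^ n * IsLocalization.mk' R e ⟨s, hs⟩ ∈ I := by
    rw [← Ideal.Quotient.eq, hxv, map_mul, map_pow]
  rw [hI, Ideal.mem_span_singleton'] at h2
  obtain ⟨r₁, hr₁⟩ := h2
  obtain ⟨b₁, ⟨s₁, hs₁⟩, rfl⟩ := IsLocalization.exists_mk'_eq 𝔪.primeCompl r₁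
  have hspec₁ := IsLocalization.mk'_spec R b₁ (⟨s₁, hs₁⟩ : 𝔪.primeCompl)
  refine ⟨n, s * s₁, e * s₁, b₁ * s, fun h => (h𝔪.mem_or_mem h).elim hs hs₁,
    fun h => (h𝔪.mem_or_mem h).elim he hs₁, hinj ?_⟩
  have h3 : algebraMap B R d = algebraMap B R u ^ n * IsLocalization.mk' R e ⟨s, hs⟩ +
      IsLocalization.mk' R b₁ ⟨s₁, hs₁⟩ * algebraMap B R π := by
    rw [hr₁]; ring
  simp only [map_mul, map_add, map_pow]
  rw [h3, ← hspec, ← hspec₁]
  ring

end Fermat.Agent.H99.SS2
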