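import Mathlib
import Fermat.Agent.H22.ES.KLSetting
import Fermat.Agent.H34.KL.LemmaT
import Fermat.Agent.H89.KLGauss

/-!
# P-SS2, row SS2-C4 (helper99), part 1 : valuations through a closed point, CLASS

Chart language of `Fermat.Agent.H22.KL` : `A` a discrete valuation ring with uniformiser `ϖ`,
`E ⊇ A` a field, `y : E` a coordinate, `B = chartClosure A E y`, `C = gaussClosure A E ϖ y`,
`𝔪` a maximal ideal of `B` containing `ϖ`.

* `PassesThrough A E y 𝔪 V` : the centre of the valuation subring `V` on `B` lies in `𝔪`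
  (definitionally equal to `Fermat.Agent.H11.SS2.Through`).
* `InLoc A E y 𝔪 z` (`z ∈ B_𝔪`, definitionally equal to `Fermat.Agent.H11.SS2.InLoc`),
  `InLocMax A E y 𝔪 z` (`z ∈ 𝔪 B_𝔪`) : the `b`-local predicates.
* `LiesOverAlong A E' E φ y' y 𝔪' 𝔪` : `φ (B') ⊆ B_𝔪` and `𝔪' = φ⁻¹ (𝔪 B_𝔪)`.
* `UniqueAbove A E' E φ y' y 𝔪' 𝔪` : every valuation subring `V ⊇ B` whose restriction along
  `φ` passes through `𝔪'` passes through `𝔪` (this is what "`𝔪` is the only point above `𝔪'`"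
  is used for); `uniqueAbove_of_cofactor`, `uniqueAbove_of_integral` are two ways to get it.
* `exists_passesThrough` : if `C` is the intersection of finitely many valuation subrings of
  finite ramification index over `ϖ`, at least one of them passes through every prime `𝔪 ∋ ϖ`
  (Lemma T).
* `classThree` : **CLASS**, the classification of the closed points for the table of
  restrictions of row SS2-C2.
-/

set_option autoImplicit false
set_option linter.unusedSectionVars false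
set_option linter.style.haveILetI false

noncomputable section

namespace Fermat.Agent.H99.SS2

open Fermat.Agent.H22.KL
open Fermat.Agent.H67.KLConn (PiDvd)

/-! ## Valuation subrings: elementary facts -/

section Val

variable {E : Type*} [Field E]

theorem mem_nonunits_iff_inv_not_mem (V : ValuationSubring E) {z : E} (hz : z ≠ 0) :
    z ∈ V.nonunits ↔ z⁻¹ ∉ V := by
  rw [ValuationSubring.mem_nonunits_iff, ← V.valuation_le_one_iff, map_inv₀, not_le]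
  have h0 : 0 < V.valuation z :=
    lt_of_le_of_ne zero_le (Ne.symm ((_root_.map_ne_zero _).2 hz))
  exact (one_lt_inv₀ h0).symm

theorem zero_mem_nonunits (V : ValuationSubring E) : (0 : E) ∈ V.nonunits := by
  rw [ValuationSubring.mem_nonunits_iff, map_zero]
  exact zero_lt_one

theorem mem_of_mem_nonunits (V : ValuationSubring E) {z : E} (hz : z ∈ V.nonunits) : z ∈ V := by
  rw [ValuationSubring.mem_nonunits_iff] at hz
  exact (V.valuation_le_one_iff z).1 hz.le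

theorem mul_mem_nonunits_left (V : ValuationSubring E) {a z : E} (ha : a ∈ V)
    (hz : z ∈ V.nonunits) : a * z ∈ V.nonunits := by
  rw [ValuationSubring.mem_nonunits_iff] at hz ⊢
  rw [map_mul]
  have h1 := (V.valuation_le_one_iff a).2 ha
  calc V.valuation a * V.valuation z ≤ 1 * V.valuation z := by gcongr
    _ = V.valuation z := one_mul _
    _ < 1 := hz

theorem mul_mem_nonunits_right (V : ValuationSubring E) {a z : E} (ha : a ∈ V)
    (hz : z ∈ V.nonunits) : z * a ∈ V.nonunits := by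
  rw [mul_comm]; exact mul_mem_nonunits_left V ha hz

theorem add_mem_nonunits (V : ValuationSubring E) {a b : E} (ha : a ∈ V.nonunits)
    (hb : b ∈ V.nonunits) : a + b ∈ V.nonunits := by
  rw [ValuationSubring.mem_nonunits_iff] at ha hb ⊢
  exact lt_of_le_of_lt (V.valuation.map_add a b) (max_lt ha hb)

theorem neg_mem_nonunits (V : ValuationSubring E) {a : E} (ha : a ∈ V.nonunits) :
    -a ∈ V.nonunits := by
  rw [ValuationSubring.mem_nonunits_iff] at ha ⊢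
  rwa [Valuation.map_neg]

theorem sub_mem_nonunits (V : ValuationSubring E) {a b : E} (ha : a ∈ V.nonunits)
    (hb : b ∈ V.nonunits) : a - b ∈ V.nonunits := by
  rw [sub_eq_add_neg]; exact add_mem_nonunits V ha (neg_mem_nonunits V hb)

/-- A factor of a unit... : if `a * b ∉ 𝔪_V` with `a, b ∈ V` then `a ∉ 𝔪_V`. -/
theorem not_mem_nonunits_of_mul {V : ValuationSubring E} {a b : E} (hb : b ∈ V)
    (h : a * b ∉ V.nonunits) : a ∉ V.nonunits :=
  fun ha => h (mul_mem_nonunits_right V hb ha)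

theorem mul_not_mem_nonunits {V : ValuationSubring E} {a b : E} (ha : a ∈ V) (hb : b ∈ V)
    (ha' : a ∉ V.nonunits) (hb' : b ∉ V.nonunits) : a * b ∉ V.nonunits := by
  rw [ValuationSubring.mem_nonunits_iff, not_lt] at ha' hb' ⊢
  have h1 := (V.valuation_le_one_iff a).2 ha
  have h2 := (V.valuation_le_one_iff b).2 hb
  rw [map_mul, le_antisymm h1 ha', le_antisymm h2 hb', one_mul]

theorem pow_not_mem_nonunits {V : ValuationSubring E} {a : E} (ha : a ∈ V)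
    (ha' : a ∉ V.nonunits) (n : ℕ) : a ^ n ∉ V.nonunits := by
  rw [ValuationSubring.mem_nonunits_iff, not_lt] at ha' ⊢
  have h1 := (V.valuation_le_one_iff a).2 ha
  rw [map_pow, le_antisymm h1 ha', one_pow]

theorem inv_mem_of_not_mem_nonunits {V : ValuationSubring E} {a : E}
    (ha' : a ∉ V.nonunits) : a⁻¹ ∈ V := by
  by_cases h0 : a = 0
  · exact absurd (h0 ▸ zero_mem_nonunits V) ha'
  · by_contra h
    exact ha' ((mem_nonunits_iff_inv_not_mem V h0).2 h)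

variable {E' : Type*} [Field E']

theorem mem_nonunits_comap_iff (V : ValuationSubring E) (φ : E' →+* E) (x : E') :
    x ∈ (V.comap φ).nonunits ↔ φ x ∈ V.nonunits := by
  by_cases hx : x = 0
  · subst hx
    rw [map_zero]
    exact ⟨fun _ => zero_mem_nonunits V, fun _ => zero_mem_nonunits _⟩
  · have hφx : φ x ≠ 0 := (_root_.map_ne_zero φ).2 hx
    rw [mem_nonunits_iff_inv_not_mem _ hx, mem_nonunits_iff_inv_not_mem _ hφx,
      ValuationSubring.mem_comap, map_inv₀]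

end Val

/-! ## Definitions -/

section Defs

variable (A : Type) [CommRing A] (E : Type) [Field E] [Algebra A E]

/-- The valuation subring `V` **passes through** `𝔪` : every element of `B(y)` which is a
non-unit of `V` lies in `𝔪` (the centre of `V` on `B(y)` is contained in `𝔪`). -/
def PassesThrough (y : E) (𝔪 : Ideal (chartClosure A E y)) (V : ValuationSubring E) : Prop :=
  ∀ s : chartClosure A E y, (s : E) ∈ V.nonunits → s ∈ 𝔪

/-- `z ∈ B_𝔪` : `b z ∈ B(y)` for some `b ∈ B(y) ∖ 𝔪`. -/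
def InLoc (y : E) (𝔪 : Ideal (chartClosure A E y)) (z : E) : Prop :=
  ∃ b : chartClosure A E y, b ∉ 𝔪 ∧ (b : E) * z ∈ chartClosure A E y

/-- `z ∈ 𝔪 B_𝔪` : `b z ∈ 𝔪` for some `b ∈ B(y) ∖ 𝔪`. -/
def InLocMax (y : E) (𝔪 : Ideal (chartClosure A E y)) (z : E) : Prop :=
  ∃ b : chartClosure A E y, b ∉ 𝔪 ∧ ∃ c : chartClosure A E y, c ∈ 𝔪 ∧ (b : E) * z = c

variable (E' : Type) [Field E'] [Algebra A E']

/-- The point `𝔪'` of the chart `y'` of `E'` is the point **below** `𝔪` along the embedding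
`φ : E' → E` : `φ (B') ⊆ B_𝔪` and `𝔪' = φ⁻¹ (𝔪 B_𝔪)`. -/
def LiesOverAlong (φ : E' →+* E) (y' : E') (y : E) (𝔪' : Ideal (chartClosure A E' y'))
    (𝔪 : Ideal (chartClosure A E y)) : Prop :=
  (∀ s : chartClosure A E' y', InLoc A E y 𝔪 (φ s)) ∧
    ∀ s : chartClosure A E' y', s ∈ 𝔪' ↔ InLocMax A E y 𝔪 (φ s)

/-- **Uniqueness of the point above `𝔪'`**, in the form in which it is used: a valuation
subring `V ⊇ B` of `E` whose restriction along `φ` passes through `𝔪'` passes through `𝔪`. -/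
def UniqueAbove (φ : E' →+* E) (y' : E') (y : E) (𝔪' : Ideal (chartClosure A E' y'))
    (𝔪 : Ideal (chartClosure A E y)) : Prop :=
  ∀ V : ValuationSubring E, (∀ z ∈ chartClosure A E y, z ∈ V) →
    PassesThrough A E' y' 𝔪' (V.comap φ) → PassesThrough A E y 𝔪 V

end Defs

/-! ## The local predicates -/

section Loc

variable {A : Type} [CommRing A] {E : Type} [Field E] [Algebra A E]
variable {y : E} {𝔪 : Ideal (chartClosure A E y)}

theorem coe_ne_zero_of_not_mem {b : chartClosure A E y} (hb : b ∉ 𝔪) : (b : E) ≠ 0 := by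
  intro h
  apply hb
  have : b = 0 := Subtype.ext h
  rw [this]
  exact 𝔪.zero_mem

theorem inLoc_of_mem {z : E} (hz : z ∈ chartClosure A E y) (h1 : (1 : chartClosure A E y) ∉ 𝔪) :
    InLoc A E y 𝔪 z :=
  ⟨1, h1, by simpa using hz⟩

theorem one_not_mem_of_isPrime (h𝔪 : 𝔪.IsPrime) : (1 : chartClosure A E y) ∉ 𝔪 :=
  fun h => h𝔪.ne_top ((Ideal.eq_top_iff_one 𝔪).2 h)

theorem InLoc.of_mem (h𝔪 : 𝔪.IsPrime) {z : E} (hz : z ∈ chartClosure A E y) :
    InLoc A E y 𝔪 z :=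
  inLoc_of_mem hz (one_not_mem_of_isPrime h𝔪)

theorem InLocMax.inLoc {z : E} (hz : InLocMax A E y 𝔪 z) : InLoc A E y 𝔪 z := by
  obtain ⟨b, hb, c, -, hc⟩ := hz
  exact ⟨b, hb, by rw [hc]; exact c.2⟩

theorem InLocMax.of_mem (h𝔪 : 𝔪.IsPrime) {c : chartClosure A E y} (hc : c ∈ 𝔪) :
    InLocMax A E y 𝔪 (c : E) :=
  ⟨1, one_not_mem_of_isPrime h𝔪, c, hc, by simp⟩

theorem InLoc.add (h𝔪 : 𝔪.IsPrime) {z w : E} (hz : InLoc A E y 𝔪 z) (hw : InLoc A E y 𝔪 w) :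
    InLoc A E y 𝔪 (z + w) := by
  obtain ⟨b, hb, hbz⟩ := hz
  obtain ⟨c, hc, hcw⟩ := hw
  refine ⟨b * c, fun h => (h𝔪.mem_or_mem h).elim hb hc, ?_⟩
  have : ((b * c : chartClosure A E y) : E) * (z + w) = (c : E) * ((b : E) * z) +
      (b : E) * ((c : E) * w) := by push_cast; ring
  rw [this]
  exact Subalgebra.add_mem _ (Subalgebra.mul_mem _ c.2 hbz) (Subalgebra.mul_mem _ b.2 hcw)

theorem InLoc.mul (h𝔪 : 𝔪.IsPrime) {z w : E} (hz : InLoc A E y 𝔪 z) (hw : InLoc A E y 𝔪 w) :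
    InLoc A E y 𝔪 (z * w) := by
  obtain ⟨b, hb, hbz⟩ := hz
  obtain ⟨c, hc, hcw⟩ := hw
  refine ⟨b * c, fun h => (h𝔪.mem_or_mem h).elim hb hc, ?_⟩
  have : ((b * c : chartClosure A E y) : E) * (z * w) = ((b : E) * z) * ((c : E) * w) := by
    push_cast; ring
  rw [this]
  exact Subalgebra.mul_mem _ hbz hcw

theorem InLoc.neg {z : E} (hz : InLoc A E y 𝔪 z) : InLoc A E y 𝔪 (-z) := by
  obtain ⟨b, hb, hbz⟩ := hz
  exact ⟨b, hb, by rw [mul_neg]; exact Subalgebra.neg_mem _ hbz⟩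

theorem InLoc.sub (h𝔪 : 𝔪.IsPrime) {z w : E} (hz : InLoc A E y 𝔪 z) (hw : InLoc A E y 𝔪 w) :
    InLoc A E y 𝔪 (z - w) := by
  rw [sub_eq_add_neg]; exact hz.add h𝔪 hw.neg

theorem InLoc.pow (h𝔪 : 𝔪.IsPrime) {z : E} (hz : InLoc A E y 𝔪 z) (n : ℕ) :
    InLoc A E y 𝔪 (z ^ n) := by
  induction n with
  | zero => rw [pow_zero]; exact InLoc.of_mem h𝔪 (Subalgebra.one_mem _)
  | succ k ih => rw [pow_succ]; exact ih.mul h𝔪 hz

theorem InLoc.inv_of_not_mem {b : chartClosure A E y} (hb : b ∉ 𝔪) :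
    InLoc A E y 𝔪 ((b : E)⁻¹) :=
  ⟨b, hb, by rw [mul_inv_cancel₀ (coe_ne_zero_of_not_mem hb)]; exact Subalgebra.one_mem _⟩

theorem InLocMax.add (h𝔪 : 𝔪.IsPrime) {z w : E} (hz : InLocMax A E y 𝔪 z)
    (hw : InLocMax A E y 𝔪 w) : InLocMax A E y 𝔪 (z + w) := by
  obtain ⟨b, hb, b', hb', hbz⟩ := hz
  obtain ⟨c, hc, c', hc', hcw⟩ := hw
  refine ⟨b * c, fun h => (h𝔪.mem_or_mem h).elim hb hc, c * b' + b * c',
    𝔪.add_mem (𝔪.mul_mem_left _ hb') (𝔪.mul_mem_left _ hc'), ?_⟩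
  push_cast
  rw [← hbz, ← hcw]; ring

theorem InLocMax.neg {z : E} (hz : InLocMax A E y 𝔪 z) : InLocMax A E y 𝔪 (-z) := by
  obtain ⟨b, hb, b', hb', hbz⟩ := hz
  exact ⟨b, hb, -b', 𝔪.neg_mem hb', by push_cast; rw [← hbz]; ring⟩

theorem InLocMax.sub (h𝔪 : 𝔪.IsPrime) {z w : E} (hz : InLocMax A E y 𝔪 z)
    (hw : InLocMax A E y 𝔪 w) : InLocMax A E y 𝔪 (z - w) := by
  rw [sub_eq_add_neg]; exact hz.add h𝔪 hw.neg

theorem InLocMax.mul_left (h𝔪 : 𝔪.IsPrime) {z w : E} (hz : InLoc A E y 𝔪 z)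
    (hw : InLocMax A E y 𝔪 w) : InLocMax A E y 𝔪 (z * w) := by
  obtain ⟨b, hb, hbz⟩ := hz
  obtain ⟨c, hc, c', hc', hcw⟩ := hw
  refine ⟨b * c, fun h => (h𝔪.mem_or_mem h).elim hb hc, ⟨(b : E) * z, hbz⟩ * c',
    𝔪.mul_mem_left _ hc', ?_⟩
  push_cast
  rw [← hcw]; ring

theorem InLocMax.mul_right (h𝔪 : 𝔪.IsPrime) {z w : E} (hz : InLoc A E y 𝔪 z)
    (hw : InLocMax A E y 𝔪 w) : InLocMax A E y 𝔪 (w * z) := by
  rw [mul_comm]; exact hw.mul_left h𝔪 hz

/-- `𝔪 B_𝔪 ∩ B = 𝔪`. -/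
theorem mem_of_inLocMax (h𝔪 : 𝔪.IsPrime) {s : chartClosure A E y}
    (hs : InLocMax A E y 𝔪 (s : E)) : s ∈ 𝔪 := by
  obtain ⟨b, hb, c, hc, hbc⟩ := hs
  have h1 : b * s = c := Subtype.ext (by push_cast; exact hbc)
  have h2 : b * s ∈ 𝔪 := h1 ▸ hc
  exact (h𝔪.mem_or_mem h2).resolve_left hb

theorem not_inLocMax_one (h𝔪 : 𝔪.IsPrime) : ¬ InLocMax A E y 𝔪 (1 : E) := by
  intro h
  have : InLocMax A E y 𝔪 ((1 : chartClosure A E y) : E) := by simpa using h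
  exact one_not_mem_of_isPrime h𝔪 (mem_of_inLocMax h𝔪 this)

/-- An element of `B_𝔪` outside `𝔪 B_𝔪` is a unit of `B_𝔪`. -/
theorem InLoc.inv_of_not_inLocMax {z : E} (hz : InLoc A E y 𝔪 z)
    (hz' : ¬ InLocMax A E y 𝔪 z) : InLoc A E y 𝔪 z⁻¹ := by
  obtain ⟨b, hb, hbz⟩ := hz
  have hc : (⟨(b : E) * z, hbz⟩ : chartClosure A E y) ∉ 𝔪 := fun h => hz' ⟨b, hb, _, h, rfl⟩
  have hc0 : (b : E) * z ≠ 0 := coe_ne_zero_of_not_mem hc
  have hz0 : z ≠ 0 := right_ne_zero_of_mul hc0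
  have hb0 : (b : E) ≠ 0 := left_ne_zero_of_mul hc0
  refine ⟨⟨(b : E) * z, hbz⟩, hc, ?_⟩
  have : (b : E) * z * z⁻¹ = b := by field_simp
  show (b : E) * z * z⁻¹ ∈ chartClosure A E y
  rw [this]; exact b.2

/-- `B_𝔪 ⊆ V` when `V ⊇ B` passes through `𝔪`. -/
theorem InLoc.mem_of_passesThrough {V : ValuationSubring E}
    (hBV : ∀ z ∈ chartClosure A E y, z ∈ V) (hV : PassesThrough A E y 𝔪 V) {z : E}
    (hz : InLoc A E y 𝔪 z) : z ∈ V := by
  obtain ⟨b, hb, hbz⟩ := hz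
  have hbV : (b : E) ∉ V.nonunits := fun h => hb (hV b h)
  have h1 : z = (b : E)⁻¹ * ((b : E) * z) := by
    rw [← mul_assoc, inv_mul_cancel₀ (coe_ne_zero_of_not_mem hb), one_mul]
  rw [h1]
  exact V.mul_mem _ _ (inv_mem_of_not_mem_nonunits hbV) (hBV _ hbz)

/-- `𝔪_V ∩ B_𝔪 ⊆ 𝔪 B_𝔪` when `V ⊇ B` passes through `𝔪`. -/
theorem InLoc.inLocMax_of_mem_nonunits {V : ValuationSubring E}
    (hBV : ∀ z ∈ chartClosure A E y, z ∈ V) (hV : PassesThrough A E y 𝔪 V) {z : E}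
    (hz : InLoc A E y 𝔪 z) (hzV : z ∈ V.nonunits) : InLocMax A E y 𝔪 z := by
  obtain ⟨b, hb, hbz⟩ := hz
  refine ⟨b, hb, ⟨(b : E) * z, hbz⟩, hV _ ?_, rfl⟩
  exact mul_mem_nonunits_left V (hBV _ b.2) hzV

/-- `𝔪 B_𝔪 ⊆ 𝔪_V`... is FALSE in general; but `V` passes through `𝔪` iff `B_𝔪 ⊆ V`. -/
theorem passesThrough_of_inLoc {V : ValuationSubring E}
    (h : ∀ z : E, InLoc A E y 𝔪 z → z ∈ V) : PassesThrough A E y 𝔪 V := by
  intro s hs
  by_contra hsm
  have h1 : (s : E)⁻¹ ∈ V := h _ (InLoc.inv_of_not_mem hsm)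
  exact (mem_nonunits_iff_inv_not_mem V (coe_ne_zero_of_not_mem hsm)).1 hs h1

end Loc

/-! ## Restriction along an embedding -/

section Restrict

variable {A : Type} [CommRing A] {E : Type} [Field E] [Algebra A E]
variable {E' : Type} [Field E'] [Algebra A E']
variable {φ : E' →+* E} {y' : E'} {y : E} {𝔪' : Ideal (chartClosure A E' y')}
  {𝔪 : Ideal (chartClosure A E y)}

/-- The global situation `φ (B') ⊆ B`, `𝔪' = φ⁻¹ 𝔪`. -/
theorem liesOverAlong_of_global (h𝔪 : 𝔪.IsPrime)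
    (hφ : ∀ s : chartClosure A E' y', φ s ∈ chartClosure A E y)
    (h𝔪' : ∀ s : chartClosure A E' y', s ∈ 𝔪' ↔ (⟨φ s, hφ s⟩ : chartClosure A E y) ∈ 𝔪) :
    LiesOverAlong A E E' φ y' y 𝔪' 𝔪 := by
  refine ⟨fun s => InLoc.of_mem h𝔪 (hφ s), fun s => ?_⟩
  rw [h𝔪']
  constructor
  · intro h
    exact InLocMax.of_mem h𝔪 h
  · intro h
    exact mem_of_inLocMax h𝔪 h

theorem LiesOverAlong.not_inLocMax (hL : LiesOverAlong A E E' φ y' y 𝔪' 𝔪)
    {s : chartClosure A E' y'} (hs : s ∉ 𝔪') : ¬ InLocMax A E y 𝔪 (φ s) :=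
  fun h => hs ((hL.2 s).2 h)

theorem LiesOverAlong.inv_inLoc (hL : LiesOverAlong A E E' φ y' y 𝔪' 𝔪)
    {s : chartClosure A E' y'} (hs : s ∉ 𝔪') : InLoc A E y 𝔪 (φ s)⁻¹ :=
  (hL.1 s).inv_of_not_inLocMax (hL.not_inLocMax hs)

/-- The restriction of a valuation through `𝔪` passes through the point below. -/
theorem PassesThrough.comap (hL : LiesOverAlong A E E' φ y' y 𝔪' 𝔪)
    {V : ValuationSubring E} (hBV : ∀ z ∈ chartClosure A E y, z ∈ V)
    (hV : PassesThrough A E y 𝔪 V) : PassesThrough A E' y' 𝔪' (V.comap φ) := by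
  intro s hs
  rw [mem_nonunits_comap_iff] at hs
  exact (hL.2 s).2 ((hL.1 s).inLocMax_of_mem_nonunits hBV hV hs)

/-- `B' ⊆ V.comap φ` when `V ⊇ B` passes through `𝔪`. -/
theorem LiesOverAlong.mem_comap (hL : LiesOverAlong A E E' φ y' y 𝔪' 𝔪)
    {V : ValuationSubring E} (hBV : ∀ z ∈ chartClosure A E y, z ∈ V)
    (hV : PassesThrough A E y 𝔪 V) (s : chartClosure A E' y') : (s : E') ∈ V.comap φ :=
  (hL.1 s).mem_of_passesThrough hBV hV

/-- Uniqueness from cofactors: every `b ∈ B ∖ 𝔪` divides in `B` the image of some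
`s' ∈ B' ∖ 𝔪'`. -/
theorem uniqueAbove_of_cofactor
    (h : ∀ b : chartClosure A E y, b ∉ 𝔪 → ∃ c : chartClosure A E y,
      ∃ s' : chartClosure A E' y', s' ∉ 𝔪' ∧ (b : E) * c = φ s') :
    UniqueAbove A E E' φ y' y 𝔪' 𝔪 := by
  intro V hBV hV' b hb
  by_contra hbm
  obtain ⟨c, s', hs', hbc⟩ := h b hbm
  apply hs'
  apply hV'
  rw [mem_nonunits_comap_iff, ← hbc]
  exact mul_mem_nonunits_right V (hBV _ c.2) hb

/-- Uniqueness from integrality: for every `b ∈ B ∖ 𝔪` some `φ s' / b`, `s' ∈ B' ∖ 𝔪'`, is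
integral over `φ (B')` (i.e. `B_𝔪` is integral over `φ (B'_𝔪')`). -/
theorem uniqueAbove_of_integral
    (h : ∀ b : chartClosure A E y, b ∉ 𝔪 → ∃ s' : chartClosure A E' y', s' ∉ 𝔪' ∧
      ∃ p : Polynomial (chartClosure A E' y'), p.Monic ∧
        Polynomial.eval₂ (φ.comp (algebraMap (chartClosure A E' y') E')) (φ s' / (b : E)) p = 0)
    (hB' : ∀ V : ValuationSubring E, (∀ z ∈ chartClosure A E y, z ∈ V) →
      ∀ s : chartClosure A E' y', φ s ∈ V) :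
    UniqueAbove A E E' φ y' y 𝔪' 𝔪 := by
  intro V hBV hV' b hb
  by_contra hbm
  obtain ⟨s', hs', p, hp, hp0⟩ := h b hbm
  have hw : φ s' / (b : E) ∈ V := by
    have hint : IsIntegral V (φ s' / (b : E)) := by
      let g : chartClosure A E' y' →+* V :=
        (φ.comp (algebraMap (chartClosure A E' y') E')).codRestrict V.toSubring
          (fun s => hB' V hBV s)
      refine ⟨p.map g, hp.map g, ?_⟩
      rw [Polynomial.eval₂_map]
      have : (algebraMap V E).comp g = φ.comp (algebraMap (chartClosure A E' y') E') := by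
        ext s; rfl
      rw [this]; exact hp0
    have := (IsIntegrallyClosed.isIntegral_iff (R := V) (K := E)).1 hint
    obtain ⟨v, hv⟩ := this
    rw [← hv]; exact v.2
  apply hs'
  apply hV'
  rw [mem_nonunits_comap_iff]
  have hb0 : (b : E) ≠ 0 := coe_ne_zero_of_not_mem hbm
  have : φ s' = (b : E) * (φ s' / (b : E)) := by field_simp
  rw [this]
  exact mul_mem_nonunits_right V hw hb

end Restrict

/-! ## At least one vertical valuation through every point of the special fibre -/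

section AtLeastOne

variable {A : Type} [CommRing A] [IsDomain A] [IsDiscreteValuationRing A]
variable {E : Type} [Field E] [Algebra A E]

/-- The auxiliary element: if none of the `V ∈ S` passes through `𝔪`, there is `t ∈ B ∖ 𝔪` with
`t / ϖ ∈ V` for all `V ∈ S`. -/
theorem exists_sep_elt (ϖ : A) (y : E) (𝔪 : Ideal (chartClosure A E y)) (h𝔪 : 𝔪.IsPrime)
    (S : Finset (ValuationSubring E))
    (hB : ∀ V ∈ S, ∀ z ∈ chartClosure A E y, z ∈ V)
    (hN : ∀ V ∈ S, ∃ N : ℕ, ∀ s ∈ V.nonunits, s ^ N / algebraMap A E ϖ ∈ V)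
    (hnot : ∀ V ∈ S, ¬ PassesThrough A E y 𝔪 V) :
    ∃ t : chartClosure A E y, t ∉ 𝔪 ∧ ∀ V ∈ S, (t : E) / algebraMap A E ϖ ∈ V := by
  classical
  induction S using Finset.induction_on with
  | empty => exact ⟨1, one_not_mem_of_isPrime h𝔪, fun V hV => absurd hV (Finset.notMem_empty V)⟩
  | insert V S hVS ih =>
    obtain ⟨t, ht, htS⟩ := ih (fun W hW => hB W (Finset.mem_insert_of_mem hW))
      (fun W hW => hN W (Finset.mem_insert_of_mem hW))
      (fun W hW => hnot W (Finset.mem_insert_of_mem hW))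
    obtain ⟨N, hNV⟩ := hN V (Finset.mem_insert_self V S)
    have hV := hnot V (Finset.mem_insert_self V S)
    unfold PassesThrough at hV
    push Not at hV
    obtain ⟨s, hsV, hs𝔪⟩ := hV
    refine ⟨t * s ^ N, fun h => (h𝔪.mem_or_mem h).elim ht
      (fun h' => hs𝔪 (h𝔪.mem_of_pow_mem N h')), fun W hW => ?_⟩
    rw [Finset.mem_insert] at hW
    rcases hW with rfl | hW
    · have : ((t * s ^ N : chartClosure A E y) : E) / algebraMap A E ϖ =
          (t : E) * ((s : E) ^ N / algebraMap A E ϖ) := by push_cast; ring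
      rw [this]
      exact W.mul_mem _ _ (hB W (Finset.mem_insert_self W S) _ t.2) (hNV _ hsV)
    · have : ((t * s ^ N : chartClosure A E y) : E) / algebraMap A E ϖ =
          ((t : E) / algebraMap A E ϖ) * (s : E) ^ N := by push_cast; ring
      rw [this]
      exact W.mul_mem _ _ (htS W hW)
        (W.pow_mem (hB W (Finset.mem_insert_of_mem hW) _ s.2) N)

/-- **At least one branch.**  If the Gauss closure contains the intersection of the finitely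
many valuation subrings `V ∈ S` (each containing `B` and of finite ramification index over
`ϖ`), then at least one of them passes through every prime ideal `𝔪 ∋ ϖ` of `B`. -/
theorem exists_passesThrough (hinj : Function.Injective (algebraMap A E))
    {ϖ : A} (hϖ : Irreducible ϖ) {y : E} (hy : Transcendental A y)
    (S : Finset (ValuationSubring E))
    (hC : ∀ z : E, (∀ V ∈ S, z ∈ V) → z ∈ gaussClosure A E ϖ y)
    (hB : ∀ V ∈ S, ∀ z ∈ chartClosure A E y, z ∈ V)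
    (hN : ∀ V ∈ S, ∃ N : ℕ, ∀ s ∈ V.nonunits, s ^ N / algebraMap A E ϖ ∈ V)
    (𝔪 : Ideal (chartClosure A E y)) (h𝔪 : 𝔪.IsPrime)
    (hϖ𝔪 : algebraMap A (chartClosure A E y) ϖ ∈ 𝔪) :
    ∃ V ∈ S, PassesThrough A E y 𝔪 V := by
  by_contra hcon
  push Not at hcon
  obtain ⟨t, ht, htS⟩ := exists_sep_elt ϖ y 𝔪 h𝔪 S hB hN hcon
  have hϖ0 : algebraMap A E ϖ ≠ 0 := fun h0 => hϖ.ne_zero (hinj (by rw [h0, map_zero]))
  have hmem : (t : E) / algebraMap A E ϖ ∈ gaussClosure A E ϖ y := by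
    apply hC
    intro V hV
    exact htS V hV
  have hdvd : PiDvdSet A E ϖ (gaussClosure A E ϖ y) (t : E) :=
    ⟨_, hmem, by field_simp⟩
  obtain ⟨r, hr, htr⟩ := Fermat.Agent.H34.lemmaT A E hinj ϖ hϖ y hy (t : E) t.2 hdvd
  apply ht
  have h1 : t = algebraMap A (chartClosure A E y) ϖ * ⟨r, hr⟩ := by
    apply Subtype.ext
    rw [htr, pow_one, Algebra.smul_def]
    rfl
  rw [h1]
  exact 𝔪.mul_mem_right _ hϖ𝔪

end AtLeastOne

/-! ## CLASS -/

section Class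

/-- The propositional skeleton of CLASS. -/
theorem class_prop {P20 P11 P02 a10 a01 b10 b01 : Prop}
    (h1 : P20 → a10) (h2 : P11 → a10) (h3 : P02 → a01)
    (h4 : P20 → b10) (h5 : P11 → b01) (h6 : P02 → b01)
    (ua : a10 → a01 → P20 ∧ P11 ∧ P02) (ub : b10 → b01 → P20 ∧ P11 ∧ P02)
    (hex : P20 ∨ P11 ∨ P02) :
    (P20 ∧ P11 ∧ P02 ∧ a10 ∧ a01 ∧ b10 ∧ b01) ∨
    (P20 ∧ ¬ P11 ∧ ¬ P02 ∧ a10 ∧ ¬ a01 ∧ b10 ∧ ¬ b01) ∨
    (¬ P20 ∧ P11 ∧ ¬ P02 ∧ a10 ∧ ¬ a01 ∧ b01 ∧ ¬ b10) ∨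
    (¬ P20 ∧ ¬ P11 ∧ P02 ∧ a01 ∧ ¬ a10 ∧ b01 ∧ ¬ b10) := by
  by_cases p20 : P20 <;> by_cases p11 : P11 <;> by_cases p02 : P02 <;>
    by_cases q1 : a01 <;> by_cases q2 : a10 <;> by_cases q3 : b01 <;> by_cases q4 : b10 <;>
    simp_all

variable {A : Type} [CommRing A] {E : Type} [Field E] [Algebra A E]
variable {E' : Type} [Field E'] [Algebra A E']

/-- **CLASS** (row SS2-C4 (1)).  Level `L` field `E'` with its two vertical valuations
`V₁₀, V₀₁`, level `L q` field `E` with `V₂₀, V₁₁, V₀₂`, the two embeddings `α, β : E' → E` and the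
table of restrictions of row SS2-C2; `𝔪` a point of the chart `y` of `E` and `𝔪α`, `𝔪β` the
points below it along `α`, `β`.  INPUT: at least one of the three passes through `𝔪`
(`exists_passesThrough`), and above a point of level `L` lying on both `C₁₀` and `C₀₁`
(a supersingular point) there is only one point (`UniqueAbove`, rows SS2-C3 + SS2-C6 (1)).
OUTPUT: either all three pass through `𝔪`, and `𝔪α`, `𝔪β` lie on both components; or exactly
one passes through `𝔪`, and `𝔪α`, `𝔪β` lie on exactly one component (the one given by the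
table). -/
theorem classThree (α β : E' →+* E) (y' : E') (y : E)
    (V₁₀ V₀₁ : ValuationSubring E') (V₂₀ V₁₁ V₀₂ : ValuationSubring E)
    (hα20 : V₂₀.comap α = V₁₀) (hα11 : V₁₁.comap α = V₁₀) (hα02 : V₀₂.comap α = V₀₁)
    (hβ20 : V₂₀.comap β = V₁₀) (hβ11 : V₁₁.comap β = V₀₁) (hβ02 : V₀₂.comap β = V₀₁)
    (hB20 : ∀ z ∈ chartClosure A E y, z ∈ V₂₀) (hB11 : ∀ z ∈ chartClosure A E y, z ∈ V₁₁)
    (hB02 : ∀ z ∈ chartClosure A E y, z ∈ V₀₂)
    (𝔪 : Ideal (chartClosure A E y)) (𝔪α 𝔪β : Ideal (chartClosure A E' y'))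
    (hLα : LiesOverAlong A E E' α y' y 𝔪α 𝔪) (hLβ : LiesOverAlong A E E' β y' y 𝔪β 𝔪)
    (hex : PassesThrough A E y 𝔪 V₂₀ ∨ PassesThrough A E y 𝔪 V₁₁ ∨ PassesThrough A E y 𝔪 V₀₂)
    (hUα : PassesThrough A E' y' 𝔪α V₁₀ → PassesThrough A E' y' 𝔪α V₀₁ →
      UniqueAbove A E E' α y' y 𝔪α 𝔪)
    (hUβ : PassesThrough A E' y' 𝔪β V₁₀ → PassesThrough A E' y' 𝔪β V₀₁ →
      UniqueAbove A E E' β y' y 𝔪β 𝔪) :
    (PassesThrough A E y 𝔪 V₂₀ ∧ PassesThrough A E y 𝔪 V₁₁ ∧ PassesThrough A E y 𝔪 V₀₂ ∧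
      PassesThrough A E' y' 𝔪α V₁₀ ∧ PassesThrough A E' y' 𝔪α V₀₁ ∧
      PassesThrough A E' y' 𝔪β V₁₀ ∧ PassesThrough A E' y' 𝔪β V₀₁) ∨
    (PassesThrough A E y 𝔪 V₂₀ ∧ ¬ PassesThrough A E y 𝔪 V₁₁ ∧ ¬ PassesThrough A E y 𝔪 V₀₂ ∧
      PassesThrough A E' y' 𝔪α V₁₀ ∧ ¬ PassesThrough A E' y' 𝔪α V₀₁ ∧
      PassesThrough A E' y' 𝔪β V₁₀ ∧ ¬ PassesThrough A E' y' 𝔪β V₀₁) ∨
    (¬ PassesThrough A E y 𝔪 V₂₀ ∧ PassesThrough A E y 𝔪 V₁₁ ∧ ¬ PassesThrough A E y 𝔪 V₀₂ ∧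
      PassesThrough A E' y' 𝔪α V₁₀ ∧ ¬ PassesThrough A E' y' 𝔪α V₀₁ ∧
      PassesThrough A E' y' 𝔪β V₀₁ ∧ ¬ PassesThrough A E' y' 𝔪β V₁₀) ∨
    (¬ PassesThrough A E y 𝔪 V₂₀ ∧ ¬ PassesThrough A E y 𝔪 V₁₁ ∧ PassesThrough A E y 𝔪 V₀₂ ∧
      PassesThrough A E' y' 𝔪α V₀₁ ∧ ¬ PassesThrough A E' y' 𝔪α V₁₀ ∧
      PassesThrough A E' y' 𝔪β V₀₁ ∧ ¬ PassesThrough A E' y' 𝔪β V₁₀) := by
  refine class_prop
    (fun h => hα20 ▸ PassesThrough.comap hLα hB20 h)
    (fun h => hα11 ▸ PassesThrough.comap hLα hB11 h)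
    (fun h => hα02 ▸ PassesThrough.comap hLα hB02 h)
    (fun h => hβ20 ▸ PassesThrough.comap hLβ hB20 h)
    (fun h => hβ11 ▸ PassesThrough.comap hLβ hB11 h)
    (fun h => hβ02 ▸ PassesThrough.comap hLβ hB02 h)
    (fun h10 h01 => ⟨hUα h10 h01 V₂₀ hB20 (hα20 ▸ h10), hUα h10 h01 V₁₁ hB11 (hα11 ▸ h10),
      hUα h10 h01 V₀₂ hB02 (hα02 ▸ h01)⟩)
    (fun h10 h01 => ⟨hUβ h10 h01 V₂₀ hB20 (hβ20 ▸ h10), hUβ h10 h01 V₁₁ hB11 (hβ11 ▸ h01),
      hUβ h10 h01 V₀₂ hB02 (hβ02 ▸ h01)⟩)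
    hex

end Class

end Fermat.Agent.H99.SS2
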