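import Mathlib
import Fermat.Agent.H99.SS2.Through
import Fermat.Agent.H99.SS2.RegSmAbs
import Fermat.Agent.H11.SS2.Defs
import Fermat.Agent.H41.SS.TubeChart

/-!
# P-SS2, row SS2-C4 (helper99), part 2 : REGSM

Chart language of `Fermat.Agent.H11.SS2.Defs`.  Two levels: `E'` (level `L`) with chart `y'`,
`E` (level `L q`) with chart `y`, an embedding `φ : E' → E` (`α` or `β`), a point `𝔪` of `B(y)`
and the point `𝔪'` of `B'(y')` below it (`LiesOverAlong`).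

* `prin_of_lemmaT` : clause (p) of `IsRegPoint` for `x₁ = ϖ` at a point through which only ONE
  vertical valuation `V` passes (`ϖ` a uniformiser of `V`), from Lemma T.
* `decomp_of_isRegPoint` : at a regular point `(ϖ, U')` of level `L`, every `d ∈ B'` which is a
  unit of `V'` is, modulo `ϖ`, a power of `U'` times a unit of `B'_𝔪'`.
* `regsm` : **REGSM**.  If only `V` passes through `𝔪`, `ϖ` is a uniformiser of `V`, the
  restriction `V' = V ∩ E'` has the same residue field (`f = 1`) and `𝔪'` is a regular point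
  `(ϖ, U')` on `V'`, then `𝔪` is a regular point `(ϖ, U)`, `U = b₀ φ(U')` with `b₀ ∈ B ∖ 𝔪`
  (`b₀ = 1` if `φ(U') ∈ B`, `regsm_of_mem`).
-/

set_option autoImplicit false
set_option linter.unusedSectionVars false
set_option linter.style.haveILetI false

noncomputable section

namespace Fermat.Agent.H99.SS2

open Fermat.Agent.H22.KL
open Fermat.Agent.H67.KLConn (PiDvd)

section Prin

variable {A : Type} [CommRing A] [IsDomain A] [IsDiscreteValuationRing A]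
variable {E : Type} [Field E] [Algebra A E]

/-- Clause (p) for `x₁ = ϖ` : if `V` and the `W ∈ S` cut out the Gauss closure, `ϖ` is a
uniformiser of `V` and no `W ∈ S` passes through `𝔪`, then `𝔭_V B_𝔪 = ϖ B_𝔪`. -/
theorem prin_of_lemmaT (hinj : Function.Injective (algebraMap A E))
    {ϖ : A} (hϖ : Irreducible ϖ) {y : E} (hy : Transcendental A y)
    (V : ValuationSubring E) (hBV : ∀ z ∈ chartClosure A E y, z ∈ V)
    (hunif : IsUniformiser E V (algebraMap A E ϖ))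
    (S : Finset (ValuationSubring E))
    (hC : ∀ z : E, z ∈ V → (∀ W ∈ S, z ∈ W) → z ∈ gaussClosure A E ϖ y)
    (hSB : ∀ W ∈ S, ∀ z ∈ chartClosure A E y, z ∈ W)
    (hSN : ∀ W ∈ S, ∃ N : ℕ, ∀ s ∈ W.nonunits, s ^ N / algebraMap A E ϖ ∈ W)
    (𝔪 : Ideal (chartClosure A E y)) (h𝔪 : 𝔪.IsPrime)
    (hSaway : ∀ W ∈ S, ¬ PassesThrough A E y 𝔪 W)
    (s : chartClosure A E y) (hs : (s : E) ∈ V.nonunits) :
    InLoc A E y 𝔪 ((s : E) / algebraMap A E ϖ) := by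
  obtain ⟨t, ht, htS⟩ := exists_sep_elt ϖ y 𝔪 h𝔪 S hSB hSN hSaway
  have hϖ0 : algebraMap A E ϖ ≠ 0 := fun h0 => hϖ.ne_zero (hinj (by rw [h0, map_zero]))
  have hmem : (t : E) * (s : E) / algebraMap A E ϖ ∈ gaussClosure A E ϖ y := by
    apply hC
    · rw [mul_div_assoc]
      exact V.mul_mem _ _ (hBV _ t.2) (hunif.2.2 _ hs)
    · intro W hW
      have : (t : E) * (s : E) / algebraMap A E ϖ = (t : E) / algebraMap A E ϖ * (s : E) := by
        ring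
      rw [this]
      exact W.mul_mem _ _ (htS W hW) (hSB W hW _ s.2)
  have hdvd : PiDvdSet A E ϖ (gaussClosure A E ϖ y) ((t : E) * (s : E)) :=
    ⟨_, hmem, by field_simp⟩
  obtain ⟨r, hr, htr⟩ := Fermat.Agent.H34.lemmaT A E hinj ϖ hϖ y hy ((t : E) * (s : E))
    (Subalgebra.mul_mem _ t.2 s.2) hdvd
  refine ⟨t, ht, ?_⟩
  have : (t : E) * ((s : E) / algebraMap A E ϖ) = r := by
    rw [pow_one, Algebra.smul_def] at htr
    rw [← mul_div_assoc, htr]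
    field_simp
  rw [this]
  exact hr

end Prin

section Decomp

variable {A : Type} [CommRing A] [IsDomain A] [IsDiscreteValuationRing A]
variable {E' : Type} [Field E'] [Algebra A E'] [CharZero E']

/-- **The branch at a regular point is a discrete valuation ring.**  At a regular point
`(ϖ, U')` on the branch `V'`, every `d ∈ B'` which is a unit of `V'` satisfies
`s d = U'ⁿ e + ϖ b` with `s, e ∈ B' ∖ 𝔪'`, `b ∈ B'`. -/
theorem decomp_of_isRegPoint (hinj' : Function.Injective (algebraMap A E'))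
    {ϖ : A} (hϖ : Irreducible ϖ) {y' : E'} (hy' : Transcendental A y')
    (hfd' : ∃ n : ℕ, Nonempty (Module.Basis (Fin n) (chartField A E' y') E'))
    (𝔪' : Ideal (chartClosure A E' y')) (h𝔪' : 𝔪'.IsPrime)
    (V' : ValuationSubring E') (U' : E')
    (hreg' : Fermat.Agent.H11.SS2.IsRegPoint A E' ϖ y' 𝔪' V' (algebraMap A E' ϖ) U')
    (d : chartClosure A E' y') (hd : (d : E') ∉ V'.nonunits) :
    ∃ (n : ℕ) (s e b : chartClosure A E' y'), s ∉ 𝔪' ∧ e ∉ 𝔪' ∧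
      (s : E') * d = U' ^ n * e + algebraMap A E' ϖ * b := by
  haveI := Fermat.Agent.H41.SS.chartClosure_isNoetherianRing A E' hinj' ϖ hϖ y' hy' hfd'
  have hB'V' : ∀ z ∈ chartClosure A E' y', z ∈ V' := fun z hz =>
    hreg'.vert.2.2.1 z (Fermat.Agent.H89.klg_chartClosure_le_gaussClosure hϖ hy' hz)
  have hϖV' : algebraMap A E' ϖ ∈ V'.nonunits := hreg'.vert.2.2.2
  have hϖ𝔪' : algebraMap A (chartClosure A E' y') ϖ ∈ 𝔪' := hreg'.thru _ hϖV'
  have hregB : ∀ z ∈ 𝔪', ∃ s, s ∉ 𝔪' ∧ ∃ b₁ b₂ : chartClosure A E' y',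
      s * z = algebraMap A (chartClosure A E' y') ϖ * b₁ + ⟨U', hreg'.mem₂⟩ * b₂ := by
    intro z hz
    obtain ⟨c₁, c₂, ⟨s₁, hs₁, h₁⟩, ⟨s₂, hs₂, h₂⟩, hzc⟩ := hreg'.gen z hz
    refine ⟨s₁ * s₂, fun h => (h𝔪'.mem_or_mem h).elim hs₁ hs₂,
      ⟨_, h₁⟩ * s₂, ⟨_, h₂⟩ * s₁, Subtype.ext ?_⟩
    push_cast
    rw [hzc]
    show (s₁ : E') * (s₂ : E') * (c₁ * algebraMap A E' ϖ + c₂ * U') =
      algebraMap A E' ϖ * ((s₁ : E') * c₁ * (s₂ : E')) + U' * ((s₂ : E') * c₂ * (s₁ : E'))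
    ring
  have hdB : ¬ ∃ s, s ∉ 𝔪' ∧ ∃ b : chartClosure A E' y',
      s * d = algebraMap A (chartClosure A E' y') ϖ * b := by
    rintro ⟨s, hs, b, hsd⟩
    have h1 : (s : E') * (d : E') = algebraMap A E' ϖ * (b : E') := congrArg Subtype.val hsd
    have h2 : (s : E') * (d : E') ∈ V'.nonunits := by
      rw [h1]; exact mul_mem_nonunits_right V' (hB'V' _ b.2) hϖV'
    have h3 : (s : E') ∉ V'.nonunits := fun h => hs (hreg'.thru s h)
    exact mul_not_mem_nonunits (hB'V' _ s.2) (hB'V' _ d.2) h3 hd h2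
  obtain ⟨n, s, e, b, hs, he, hsd⟩ := exists_pow_unit_decomp 𝔪'
    (algebraMap A (chartClosure A E' y') ϖ) ⟨U', hreg'.mem₂⟩ hϖ𝔪'
    (hreg'.mem_max₂ hreg'.mem₂) hregB d hdB
  refine ⟨n, s, e, b, hs, he, ?_⟩
  have := congrArg Subtype.val hsd
  push_cast at this
  rw [this]

end Decomp

section Main

variable {A : Type} [CommRing A] [IsDomain A] [IsDiscreteValuationRing A]
variable {E' : Type} [Field E'] [Algebra A E'] [CharZero E']
variable {E : Type} [Field E] [Algebra A E]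

/-- **REGSM** (row SS2-C4 (2)), general form with a local denominator `b₀`. -/
theorem regsm (hinj' : Function.Injective (algebraMap A E'))
    (hinj : Function.Injective (algebraMap A E))
    {ϖ : A} (hϖ : Irreducible ϖ) {y' : E'} (hy' : Transcendental A y')
    (hfd' : ∃ n : ℕ, Nonempty (Module.Basis (Fin n) (chartField A E' y') E'))
    {y : E} (hy : Transcendental A y)
    (φ : E' →+* E) (hφ : ∀ a : A, φ (algebraMap A E' a) = algebraMap A E a)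
    (𝔪 : Ideal (chartClosure A E y)) (h𝔪 : 𝔪.IsPrime)
    (𝔪' : Ideal (chartClosure A E' y')) (h𝔪' : 𝔪'.IsPrime)
    (hL : LiesOverAlong A E E' φ y' y 𝔪' 𝔪)
    (V : ValuationSubring E) (hV : Fermat.Agent.H11.SS2.IsVertical A E ϖ y V)
    (hthru : Fermat.Agent.H11.SS2.Through A E y 𝔪 V)
    (hunif : IsUniformiser E V (algebraMap A E ϖ))
    (S : Finset (ValuationSubring E))
    (hC : ∀ z : E, z ∈ V → (∀ W ∈ S, z ∈ W) → z ∈ gaussClosure A E ϖ y)
    (hSB : ∀ W ∈ S, ∀ z ∈ chartClosure A E y, z ∈ W)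
    (hSN : ∀ W ∈ S, ∃ N : ℕ, ∀ s ∈ W.nonunits, s ^ N / algebraMap A E ϖ ∈ W)
    (hSaway : ∀ W ∈ S, ¬ Fermat.Agent.H11.SS2.Through A E y 𝔪 W)
    (V' : ValuationSubring E') (hVV' : V.comap φ = V')
    (hres : ∀ z ∈ V, ∃ z' ∈ V', z - φ z' ∈ V.nonunits)
    (hfrac : ∀ z' ∈ V', ∃ d₁ d₂ : chartClosure A E' y',
      (d₂ : E') ∉ V'.nonunits ∧ z' * (d₂ : E') = d₁)
    (U' : E')
    (hreg' : Fermat.Agent.H11.SS2.IsRegPoint A E' ϖ y' 𝔪' V' (algebraMap A E' ϖ) U')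
    (b₀ : chartClosure A E y) (hb₀ : b₀ ∉ 𝔪) (hb₀U : (b₀ : E) * φ U' ∈ chartClosure A E y) :
    Fermat.Agent.H11.SS2.IsRegPoint A E ϖ y 𝔪 V (algebraMap A E ϖ) ((b₀ : E) * φ U') := by
  classical
  have hBV : ∀ z ∈ chartClosure A E y, z ∈ V := fun z hz =>
    hV.2.2.1 z (Fermat.Agent.H89.klg_chartClosure_le_gaussClosure hϖ hy hz)
  have hϖV : algebraMap A E ϖ ∈ V.nonunits := hV.2.2.2
  have hϖ0 : algebraMap A E ϖ ≠ 0 := fun h0 => hϖ.ne_zero (hinj (by rw [h0, map_zero]))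
  have hB'V' : ∀ z ∈ chartClosure A E' y', z ∈ V' := fun z hz =>
    hreg'.vert.2.2.1 z (Fermat.Agent.H89.klg_chartClosure_le_gaussClosure hϖ hy' hz)
  have hthru' : PassesThrough A E y 𝔪 V := hthru
  have hlocV : ∀ z, InLoc A E y 𝔪 z → z ∈ V := fun z hz =>
    hz.mem_of_passesThrough hBV hthru'
  have hlocMax : ∀ z, InLoc A E y 𝔪 z → z ∈ V.nonunits → InLocMax A E y 𝔪 z :=
    fun z hz hzV => hz.inLocMax_of_mem_nonunits hBV hthru' hzV
  have hprin : ∀ s : chartClosure A E y, (s : E) ∈ V.nonunits →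
      InLoc A E y 𝔪 ((s : E) / algebraMap A E ϖ) :=
    prin_of_lemmaT hinj hϖ hy V hBV hunif S hC hSB hSN 𝔪 h𝔪 hSaway
  have hprinLoc : ∀ w, InLoc A E y 𝔪 w → w ∈ V.nonunits →
      InLoc A E y 𝔪 (w / algebraMap A E ϖ) := by
    rintro w ⟨b, hb, hbw⟩ hwV
    have h1 : ((⟨(b : E) * w, hbw⟩ : chartClosure A E y) : E) ∈ V.nonunits :=
      mul_mem_nonunits_left V (hBV _ b.2) hwV
    have h2 := hprin ⟨_, hbw⟩ h1
    have hb0 : (b : E) ≠ 0 := coe_ne_zero_of_not_mem hb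
    have h3 : w / algebraMap A E ϖ = (b : E)⁻¹ * ((b : E) * w / algebraMap A E ϖ) := by
      field_simp
    rw [h3]
    exact (InLoc.inv_of_not_mem hb).mul h𝔪 h2
  have hφnon : ∀ x : E', x ∈ V'.nonunits ↔ φ x ∈ V.nonunits := fun x => by
    rw [← hVV', mem_nonunits_comap_iff]
  have huLoc : InLoc A E y 𝔪 (φ U') := hL.1 ⟨U', hreg'.mem₂⟩
  have huMax : InLocMax A E y 𝔪 (φ U') :=
    (hL.2 ⟨U', hreg'.mem₂⟩).1 (hreg'.mem_max₂ hreg'.mem₂)
  have hb₀0 : (b₀ : E) ≠ 0 := coe_ne_zero_of_not_mem hb₀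
  have hφV : ∀ x : chartClosure A E' y', φ x ∈ V := fun x => hlocV _ (hL.1 x)
  have hφnz : ∀ x : chartClosure A E' y', x ∉ 𝔪' → φ x ≠ 0 := fun x hx =>
    (_root_.map_ne_zero φ).2 (coe_ne_zero_of_not_mem hx)
  have hφunit : ∀ x : chartClosure A E' y', x ∉ 𝔪' → φ x ∉ V.nonunits := fun x hx h =>
    hx (hreg'.thru x ((hφnon _).2 h))
  refine
    { vert := hV
      thru := hthru
      mem₁ := Subalgebra.algebraMap_mem _ ϖ
      mem₂ := hb₀U
      mem_max₂ := ?_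
      unif := hunif
      prin := hprin
      gen := ?_ }
  · intro h
    apply mem_of_inLocMax h𝔪
    exact InLocMax.mul_left h𝔪 (InLoc.of_mem h𝔪 b₀.2) huMax
  · intro s hs
    by_cases hsV : (s : E) ∈ V.nonunits
    · refine ⟨(s : E) / algebraMap A E ϖ, 0, hprin s hsV,
        InLoc.of_mem h𝔪 (Subalgebra.zero_mem _), ?_⟩
      field_simp
      ring
    · obtain ⟨z', hz'V', hz'⟩ := hres (s : E) (hBV _ s.2)
      obtain ⟨d₁, d₂, hd₂, hzd⟩ := hfrac z' hz'V'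
      have hz'u : z' ∉ V'.nonunits := by
        intro h
        apply hsV
        have : (s : E) = ((s : E) - φ z') + φ z' := by ring
        rw [this]
        exact add_mem_nonunits V hz' ((hφnon z').1 h)
      have hd₁ : (d₁ : E') ∉ V'.nonunits := by
        rw [← hzd]
        exact mul_not_mem_nonunits hz'V' (hB'V' _ d₂.2) hz'u hd₂
      obtain ⟨n₁, s₁, e₁, b₁, hs₁, he₁, h₁⟩ :=
        decomp_of_isRegPoint hinj' hϖ hy' hfd' 𝔪' h𝔪' V' U' hreg' d₁ hd₁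
      obtain ⟨n₂, s₂, e₂, b₂, hs₂, he₂, h₂⟩ :=
        decomp_of_isRegPoint hinj' hϖ hy' hfd' 𝔪' h𝔪' V' U' hreg' d₂ hd₂
      have H₁ : φ s₁ * φ d₁ = φ U' ^ n₁ * φ e₁ + algebraMap A E ϖ * φ b₁ := by
        rw [← map_mul, h₁, map_add, map_mul, map_mul, map_pow, hφ]
      have H₂ : φ s₂ * φ d₂ = φ U' ^ n₂ * φ e₂ + algebraMap A E ϖ * φ b₂ := by
        rw [← map_mul, h₂, map_add, map_mul, map_mul, map_pow, hφ]
      have Hz : φ z' * φ d₂ = φ d₁ := by rw [← map_mul, hzd]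
      have huV : φ U' ∈ V := hlocV _ huLoc
      -- the key congruence
      have hX : (s : E) * φ s₁ * φ U' ^ n₂ * φ e₂ - φ s₂ * φ U' ^ n₁ * φ e₁ ∈ V.nonunits := by
        have e1 : (s : E) * φ s₁ * φ U' ^ n₂ * φ e₂ - φ s₂ * φ U' ^ n₁ * φ e₁ =
            φ s₁ * φ s₂ * φ d₂ * ((s : E) - φ z') -
              algebraMap A E ϖ * ((s : E) * φ s₁ * φ b₂ - φ s₂ * φ b₁) := by
          linear_combination (-((s : E) * φ s₁)) * H₂ + (φ s₂ * φ s₁) * Hz + φ s₂ * H₁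
        rw [e1]
        refine sub_mem_nonunits V ?_ ?_
        · exact mul_mem_nonunits_left V
            (V.mul_mem _ _ (V.mul_mem _ _ (hφV s₁) (hφV s₂)) (hφV d₂)) hz'
        · refine mul_mem_nonunits_right V ?_ hϖV
          exact sub_mem (V.mul_mem _ _ (V.mul_mem _ _ (hBV _ s.2) (hφV s₁)) (hφV b₂))
            (V.mul_mem _ _ (hφV s₂) (hφV b₁))
      have hpow : ∀ (n : ℕ) (si di ei bi : chartClosure A E' y'), si ∉ 𝔪' →
          (di : E') ∉ V'.nonunits →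
          φ si * φ di = φ U' ^ n * φ ei + algebraMap A E ϖ * φ bi →
          φ U' ^ n ∉ V.nonunits := by
        intro n si di ei bi hsi hdi H hcon
        have h1 : φ si * φ di ∉ V.nonunits :=
          mul_not_mem_nonunits (hφV si) (hφV di) (hφunit si hsi) (fun h => hdi ((hφnon _).2 h))
        apply h1
        rw [H]
        exact add_mem_nonunits V (mul_mem_nonunits_right V (hφV ei) hcon)
          (mul_mem_nonunits_right V (hφV bi) hϖV)
      have hu₁ := hpow n₁ s₁ d₁ e₁ b₁ hs₁ hd₁ H₁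
      have hu₂ := hpow n₂ s₂ d₂ e₂ b₂ hs₂ hd₂ H₂
      have hsMax : InLocMax A E y 𝔪 (s : E) := InLocMax.of_mem h𝔪 hs
      rcases Nat.lt_or_ge n₂ n₁ with hlt | hge
      · -- `n₂ < n₁` : the decomposition
        obtain ⟨k, rfl⟩ : ∃ k, n₁ = n₂ + (k + 1) := ⟨n₁ - n₂ - 1, by omega⟩
        set Y : E := (s : E) * φ s₁ * φ e₂ - φ s₂ * φ U' ^ (k + 1) * φ e₁ with hY
        have hXY : (s : E) * φ s₁ * φ U' ^ n₂ * φ e₂ - φ s₂ * φ U' ^ (n₂ + (k + 1)) * φ e₁ =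
            φ U' ^ n₂ * Y := by rw [hY]; ring
        have hYV : Y ∈ V.nonunits := by
          have h0 : φ U' ^ n₂ ≠ 0 := fun h0 => hu₂ (h0 ▸ zero_mem_nonunits V)
          have : Y = (φ U' ^ n₂)⁻¹ * (φ U' ^ n₂ * Y) := by field_simp
          rw [this, ← hXY]
          exact mul_mem_nonunits_left V (inv_mem_of_not_mem_nonunits hu₂) hX
        have hYloc : InLoc A E y 𝔪 Y :=
          (((InLoc.of_mem h𝔪 s.2).mul h𝔪 (hL.1 s₁)).mul h𝔪 (hL.1 e₂)).sub h𝔪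
            (((hL.1 s₂).mul h𝔪 (huLoc.pow h𝔪 (k + 1))).mul h𝔪 (hL.1 e₁))
        have hYϖ := hprinLoc Y hYloc hYV
        have hs₁0 := hφnz s₁ hs₁
        have he₂0 := hφnz e₂ he₂
        refine ⟨(φ s₁)⁻¹ * (φ e₂)⁻¹ * (Y / algebraMap A E ϖ),
          (φ s₁)⁻¹ * (φ e₂)⁻¹ * (φ s₂ * φ e₁ * φ U' ^ k * (b₀ : E)⁻¹), ?_, ?_, ?_⟩
        · exact ((hL.inv_inLoc hs₁).mul h𝔪 (hL.inv_inLoc he₂)).mul h𝔪 hYϖ
        · exact ((hL.inv_inLoc hs₁).mul h𝔪 (hL.inv_inLoc he₂)).mul h𝔪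
            ((((hL.1 s₂).mul h𝔪 (hL.1 e₁)).mul h𝔪 (huLoc.pow h𝔪 k)).mul h𝔪
              (InLoc.inv_of_not_mem hb₀))
        · rw [hY]
          field_simp
          ring
      · -- `n₁ ≤ n₂` : impossible
        exfalso
        obtain ⟨k, rfl⟩ : ∃ k, n₂ = n₁ + k := ⟨n₂ - n₁, by omega⟩
        set Y : E := (s : E) * φ s₁ * φ U' ^ k * φ e₂ - φ s₂ * φ e₁ with hY
        have hXY : (s : E) * φ s₁ * φ U' ^ (n₁ + k) * φ e₂ - φ s₂ * φ U' ^ n₁ * φ e₁ =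
            φ U' ^ n₁ * Y := by rw [hY]; ring
        have hYV : Y ∈ V.nonunits := by
          have h0 : φ U' ^ n₁ ≠ 0 := fun h0 => hu₁ (h0 ▸ zero_mem_nonunits V)
          have : Y = (φ U' ^ n₁)⁻¹ * (φ U' ^ n₁ * Y) := by field_simp
          rw [this, ← hXY]
          exact mul_mem_nonunits_left V (inv_mem_of_not_mem_nonunits hu₁) hX
        have hT : InLocMax A E y 𝔪 ((s : E) * φ s₁ * φ U' ^ k * φ e₂) := by
          have : (s : E) * φ s₁ * φ U' ^ k * φ e₂ = (φ s₁ * φ U' ^ k * φ e₂) * (s : E) := by ring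
          rw [this]
          exact InLocMax.mul_left h𝔪 (((hL.1 s₁).mul h𝔪 (huLoc.pow h𝔪 k)).mul h𝔪 (hL.1 e₂)) hsMax
        have hYloc : InLoc A E y 𝔪 Y := hT.inLoc.sub h𝔪 ((hL.1 s₂).mul h𝔪 (hL.1 e₁))
        have hYMax := hlocMax Y hYloc hYV
        have h5 : InLocMax A E y 𝔪 (φ s₂ * φ e₁) := by
          have : φ s₂ * φ e₁ = (s : E) * φ s₁ * φ U' ^ k * φ e₂ - Y := by rw [hY]; ring
          rw [this]
          exact hT.sub h𝔪 hYMax
        have h6 : s₂ * e₁ ∉ 𝔪' := fun h => (h𝔪'.mem_or_mem h).elim hs₂ he₁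
        apply hL.not_inLocMax h6
        have : φ ((s₂ * e₁ : chartClosure A E' y') : E') = φ s₂ * φ e₁ := by
          push_cast; rw [map_mul]
        rw [this]
        exact h5

/-- **REGSM** in the global situation `φ(U') ∈ B(y)` : `𝔪` is a regular point with parameters
`(ϖ, φ(U'))`. -/
theorem regsm_of_mem (hinj' : Function.Injective (algebraMap A E'))
    (hinj : Function.Injective (algebraMap A E))
    {ϖ : A} (hϖ : Irreducible ϖ) {y' : E'} (hy' : Transcendental A y')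
    (hfd' : ∃ n : ℕ, Nonempty (Module.Basis (Fin n) (chartField A E' y') E'))
    {y : E} (hy : Transcendental A y)
    (φ : E' →+* E) (hφ : ∀ a : A, φ (algebraMap A E' a) = algebraMap A E a)
    (𝔪 : Ideal (chartClosure A E y)) (h𝔪 : 𝔪.IsPrime)
    (𝔪' : Ideal (chartClosure A E' y')) (h𝔪' : 𝔪'.IsPrime)
    (hL : LiesOverAlong A E E' φ y' y 𝔪' 𝔪)
    (V : ValuationSubring E) (hV : Fermat.Agent.H11.SS2.IsVertical A E ϖ y V)
    (hthru : Fermat.Agent.H11.SS2.Through A E y 𝔪 V)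
    (hunif : IsUniformiser E V (algebraMap A E ϖ))
    (S : Finset (ValuationSubring E))
    (hC : ∀ z : E, z ∈ V → (∀ W ∈ S, z ∈ W) → z ∈ gaussClosure A E ϖ y)
    (hSB : ∀ W ∈ S, ∀ z ∈ chartClosure A E y, z ∈ W)
    (hSN : ∀ W ∈ S, ∃ N : ℕ, ∀ s ∈ W.nonunits, s ^ N / algebraMap A E ϖ ∈ W)
    (hSaway : ∀ W ∈ S, ¬ Fermat.Agent.H11.SS2.Through A E y 𝔪 W)
    (V' : ValuationSubring E') (hVV' : V.comap φ = V')
    (hres : ∀ z ∈ V, ∃ z' ∈ V', z - φ z' ∈ V.nonunits)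
    (hfrac : ∀ z' ∈ V', ∃ d₁ d₂ : chartClosure A E' y',
      (d₂ : E') ∉ V'.nonunits ∧ z' * (d₂ : E') = d₁)
    (U' : E')
    (hreg' : Fermat.Agent.H11.SS2.IsRegPoint A E' ϖ y' 𝔪' V' (algebraMap A E' ϖ) U')
    (hU : φ U' ∈ chartClosure A E y) :
    Fermat.Agent.H11.SS2.IsRegPoint A E ϖ y 𝔪 V (algebraMap A E ϖ) (φ U') := by
  have h := regsm hinj' hinj hϖ hy' hfd' hy φ hφ 𝔪 h𝔪 𝔪' h𝔪' hL V hV hthru hunif S hC hSB hSN
    hSaway V' hVV' hres hfrac U' hreg' 1 (one_not_mem_of_isPrime h𝔪)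
    (by simpa using hU)
  simpa using h

/-- **REGSM**, existence form (no assumption on `φ(U')`). -/
theorem regsm_exists (hinj' : Function.Injective (algebraMap A E'))
    (hinj : Function.Injective (algebraMap A E))
    {ϖ : A} (hϖ : Irreducible ϖ) {y' : E'} (hy' : Transcendental A y')
    (hfd' : ∃ n : ℕ, Nonempty (Module.Basis (Fin n) (chartField A E' y') E'))
    {y : E} (hy : Transcendental A y)
    (φ : E' →+* E) (hφ : ∀ a : A, φ (algebraMap A E' a) = algebraMap A E a)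
    (𝔪 : Ideal (chartClosure A E y)) (h𝔪 : 𝔪.IsPrime)
    (𝔪' : Ideal (chartClosure A E' y')) (h𝔪' : 𝔪'.IsPrime)
    (hL : LiesOverAlong A E E' φ y' y 𝔪' 𝔪)
    (V : ValuationSubring E) (hV : Fermat.Agent.H11.SS2.IsVertical A E ϖ y V)
    (hthru : Fermat.Agent.H11.SS2.Through A E y 𝔪 V)
    (hunif : IsUniformiser E V (algebraMap A E ϖ))
    (S : Finset (ValuationSubring E))
    (hC : ∀ z : E, z ∈ V → (∀ W ∈ S, z ∈ W) → z ∈ gaussClosure A E ϖ y)
    (hSB : ∀ W ∈ S, ∀ z ∈ chartClosure A E y, z ∈ W)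
    (hSN : ∀ W ∈ S, ∃ N : ℕ, ∀ s ∈ W.nonunits, s ^ N / algebraMap A E ϖ ∈ W)
    (hSaway : ∀ W ∈ S, ¬ Fermat.Agent.H11.SS2.Through A E y 𝔪 W)
    (V' : ValuationSubring E') (hVV' : V.comap φ = V')
    (hres : ∀ z ∈ V, ∃ z' ∈ V', z - φ z' ∈ V.nonunits)
    (hfrac : ∀ z' ∈ V', ∃ d₁ d₂ : chartClosure A E' y',
      (d₂ : E') ∉ V'.nonunits ∧ z' * (d₂ : E') = d₁)
    (U' : E')
    (hreg' : Fermat.Agent.H11.SS2.IsRegPoint A E' ϖ y' 𝔪' V' (algebraMap A E' ϖ) U') :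
    ∃ U : E, Fermat.Agent.H11.SS2.IsRegPoint A E ϖ y 𝔪 V (algebraMap A E ϖ) U := by
  obtain ⟨b₀, hb₀, hb₀U⟩ := hL.1 ⟨U', hreg'.mem₂⟩
  exact ⟨_, regsm hinj' hinj hϖ hy' hfd' hy φ hφ 𝔪 h𝔪 𝔪' h𝔪' hL V hV hthru hunif S hC hSB hSN
    hSaway V' hVV' hres hfrac U' hreg' b₀ hb₀ hb₀U⟩

end Main

end Fermat.Agent.H99.SS2
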