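import Mathlib
import Fermat.Agent.H99.SS2.RegSm

/-!
# P-SS2, row SS2-C4 (helper99), part 3 : adapters and the combined statement CLASS + REGSM

* `exists_frac_of_sep` : the hypothesis `hfrac` of `regsm` (`V = B_{𝔭_V}` : every element of
  `V` is a quotient of elements of `B` with denominator a unit of `V`) from separating elements
  for the other vertical valuations.
* `pointBelow` : the ideal `φ⁻¹ (𝔪 B_𝔪)` of `B'`, a prime ideal with `LiesOverAlong`.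
* `classRegSm` : **CLASS + REGSM** for the three vertical valuations `V₂₀, V₁₁, V₀₂` of level
  `L q` over the two vertical valuations `V₁₀, V₀₁` of level `L` : at every point `𝔪` of the
  special fibre either all three pass through `𝔪` (and the points below are on both `V₁₀`,
  `V₀₁`), or only `V₂₀` passes and `𝔪` is regular with parameters `(ϖ, U)`, or only `V₁₁`
  passes (and the points below along `α`, `β` are on `V₁₀` only resp. `V₀₁` only), or only `V₀₂`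
  passes and `𝔪` is regular with parameters `(ϖ, U)`.  "Does not pass" is given in the form
  `∃ s ∈ B, s ∈ 𝔪_W, s ∉ 𝔪` (`KcAway` of `Fermat.Agent.H19.SS2`).
-/

set_option autoImplicit false
set_option linter.unusedSectionVars false
set_option linter.style.haveILetI false

noncomputable section

namespace Fermat.Agent.H99.SS2

open Fermat.Agent.H22.KL
open Fermat.Agent.H67.KLConn (PiDvd)

section Away

variable {A : Type} [CommRing A] {E : Type} [Field E] [Algebra A E]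

/-- `¬ Through` is `KcAway`. -/
theorem not_passesThrough_iff {y : E} {𝔪 : Ideal (chartClosure A E y)} {W : ValuationSubring E} :
    ¬ PassesThrough A E y 𝔪 W ↔ ∃ s : chartClosure A E y, (s : E) ∈ W.nonunits ∧ s ∉ 𝔪 := by
  unfold PassesThrough
  push Not
  rfl

end Away

section Frac

variable {A : Type} [CommRing A] [IsDomain A] [IsDiscreteValuationRing A]
variable {E : Type} [Field E] [Algebra A E]

/-- A common multiplier: `T ∈ B`, a unit of `V`, with `T z ∈ W` for all `W ∈ S`. -/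
theorem exists_sep_mul (y : E) (V : ValuationSubring E)
    (hBV : ∀ z ∈ chartClosure A E y, z ∈ V)
    (S : Finset (ValuationSubring E))
    (hSB : ∀ W ∈ S, ∀ z ∈ chartClosure A E y, z ∈ W)
    (hsep : ∀ W ∈ S, ∃ t ∈ chartClosure A E y, t ∉ V.nonunits ∧ ∀ c : E, ∃ N : ℕ, t ^ N * c ∈ W)
    (z : E) :
    ∃ T : chartClosure A E y, (T : E) ∉ V.nonunits ∧ ∀ W ∈ S, (T : E) * z ∈ W := by
  classical
  induction S using Finset.induction_on with
  | empty =>
    refine ⟨1, ?_, fun W hW => absurd hW (Finset.notMem_empty W)⟩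
    rw [ValuationSubring.mem_nonunits_iff]
    simp
  | insert W S hWS ih =>
    obtain ⟨T, hT, hTS⟩ := ih (fun W' hW' => hSB W' (Finset.mem_insert_of_mem hW'))
      (fun W' hW' => hsep W' (Finset.mem_insert_of_mem hW'))
    obtain ⟨t, ht, htV, htW⟩ := hsep W (Finset.mem_insert_self W S)
    obtain ⟨N, hN⟩ := htW ((T : E) * z)
    refine ⟨⟨t, ht⟩ ^ N * T, ?_, fun W' hW' => ?_⟩
    · push_cast
      exact mul_not_mem_nonunits (V.pow_mem (hBV _ ht) N) (hBV _ T.2)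
        (pow_not_mem_nonunits (hBV _ ht) htV N) hT
    · rw [Finset.mem_insert] at hW'
      push_cast
      rcases hW' with rfl | hW'
      · rw [mul_assoc]; exact hN
      · rw [mul_assoc]
        exact W'.mul_mem _ _ (W'.pow_mem (hSB W' (Finset.mem_insert_of_mem hW') _ ht) N)
          (hTS W' hW')

/-- **`V = B_{𝔭_V}`** : if `V` and the `W ∈ S` cut out the Gauss closure and every `W ∈ S` has a
separating element `t ∈ B` (a unit of `V`, with `tᴺ c ∈ W` for `N ≫ 0`), every element of `V` is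
a quotient `d₁ / d₂` of elements of `B` with `d₂` a unit of `V`. -/
theorem exists_frac_of_sep {ϖ : A} (hϖ : Irreducible ϖ) {y : E} (hy : Transcendental A y)
    (V : ValuationSubring E) (hCV : ∀ z ∈ gaussClosure A E ϖ y, z ∈ V)
    (S : Finset (ValuationSubring E))
    (hC : ∀ z : E, z ∈ V → (∀ W ∈ S, z ∈ W) → z ∈ gaussClosure A E ϖ y)
    (hSB : ∀ W ∈ S, ∀ z ∈ chartClosure A E y, z ∈ W)
    (hsep : ∀ W ∈ S, ∃ t ∈ chartClosure A E y, t ∉ V.nonunits ∧ ∀ c : E, ∃ N : ℕ, t ^ N * c ∈ W)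
    (z : E) (hz : z ∈ V) :
    ∃ d₁ d₂ : chartClosure A E y, (d₂ : E) ∉ V.nonunits ∧ z * (d₂ : E) = d₁ := by
  have hBV : ∀ z ∈ chartClosure A E y, z ∈ V := fun z hz =>
    hCV z (Fermat.Agent.H89.klg_chartClosure_le_gaussClosure hϖ hy hz)
  obtain ⟨T, hT, hTS⟩ := exists_sep_mul y V hBV S hSB hsep z
  have hTz : (T : E) * z ∈ gaussClosure A E ϖ y := hC _ (V.mul_mem _ _ (hBV _ T.2) hz) hTS
  obtain ⟨h, hh, hnd, hhB⟩ := hTz
  have hhB' : h ∈ chartClosure A E y := Fermat.Agent.H89.klg_chartRing_le_chartClosure y hh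
  have hh0 : h ≠ 0 := by
    rintro rfl
    exact hnd ⟨0, Subalgebra.zero_mem _, by simp⟩
  have hhV : h ∉ V.nonunits := by
    rw [mem_nonunits_iff_inv_not_mem V hh0, not_not]
    apply hCV
    exact ⟨h, hh, hnd, by rw [mul_inv_cancel₀ hh0]; exact Subalgebra.one_mem _⟩
  refine ⟨⟨h * ((T : E) * z), hhB⟩, ⟨h, hhB'⟩ * T, ?_, ?_⟩
  · push_cast
    exact mul_not_mem_nonunits (hBV _ hhB') (hBV _ T.2) hhV hT
  · push_cast
    ring

end Frac

section Below

variable {A : Type} [CommRing A] {E : Type} [Field E] [Algebra A E]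
variable {E' : Type} [Field E'] [Algebra A E']

/-- **The point below `𝔪`** along `φ` : the ideal `φ⁻¹ (𝔪 B_𝔪)` of `B'`. -/
def pointBelow (φ : E' →+* E) (y' : E') (y : E) (𝔪 : Ideal (chartClosure A E y))
    (h𝔪 : 𝔪.IsPrime) (hφ : ∀ s : chartClosure A E' y', InLoc A E y 𝔪 (φ s)) :
    Ideal (chartClosure A E' y') where
  carrier := {s | InLocMax A E y 𝔪 (φ s)}
  add_mem' := by
    intro a b ha hb
    show InLocMax A E y 𝔪 (φ ((a + b : chartClosure A E' y') : E'))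
    push_cast
    rw [map_add]
    exact InLocMax.add h𝔪 ha hb
  zero_mem' := by
    show InLocMax A E y 𝔪 (φ ((0 : chartClosure A E' y') : E'))
    push_cast
    rw [map_zero]
    have := InLocMax.of_mem h𝔪 (𝔪.zero_mem)
    simpa using this
  smul_mem' := by
    intro c x hx
    show InLocMax A E y 𝔪 (φ ((c • x : chartClosure A E' y') : E'))
    rw [smul_eq_mul]
    push_cast
    rw [map_mul]
    exact InLocMax.mul_left h𝔪 (hφ c) hx

theorem mem_pointBelow {φ : E' →+* E} {y' : E'} {y : E} {𝔪 : Ideal (chartClosure A E y)}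
    {h𝔪 : 𝔪.IsPrime} {hφ : ∀ s : chartClosure A E' y', InLoc A E y 𝔪 (φ s)}
    {s : chartClosure A E' y'} :
    s ∈ pointBelow φ y' y 𝔪 h𝔪 hφ ↔ InLocMax A E y 𝔪 (φ s) := Iff.rfl

theorem liesOverAlong_pointBelow (φ : E' →+* E) (y' : E') (y : E)
    (𝔪 : Ideal (chartClosure A E y)) (h𝔪 : 𝔪.IsPrime)
    (hφ : ∀ s : chartClosure A E' y', InLoc A E y 𝔪 (φ s)) :
    LiesOverAlong A E E' φ y' y (pointBelow φ y' y 𝔪 h𝔪 hφ) 𝔪 :=
  ⟨hφ, fun _ => Iff.rfl⟩

/-- `𝔪 B_𝔪` is a prime ideal of `B_𝔪`. -/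
theorem InLocMax.mul_cases {y : E} {𝔪 : Ideal (chartClosure A E y)} (h𝔪 : 𝔪.IsPrime) {z w : E}
    (hz : InLoc A E y 𝔪 z) (hw : InLoc A E y 𝔪 w) (h : InLocMax A E y 𝔪 (z * w)) :
    InLocMax A E y 𝔪 z ∨ InLocMax A E y 𝔪 w := by
  obtain ⟨b, hb, hbz⟩ := hz
  obtain ⟨c, hc, hcw⟩ := hw
  have h1 : InLocMax A E y 𝔪 (((⟨_, hbz⟩ * ⟨_, hcw⟩ : chartClosure A E y) : E)) := by
    have : ((⟨_, hbz⟩ * ⟨_, hcw⟩ : chartClosure A E y) : E) = ((b : E) * (c : E)) * (z * w) := by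
      push_cast; ring
    rw [this]
    exact InLocMax.mul_left h𝔪 (InLoc.of_mem h𝔪 (Subalgebra.mul_mem _ b.2 c.2)) h
  rcases h𝔪.mem_or_mem (mem_of_inLocMax h𝔪 h1) with h2 | h2
  · exact Or.inl ⟨b, hb, _, h2, rfl⟩
  · exact Or.inr ⟨c, hc, _, h2, rfl⟩

theorem pointBelow_isPrime (φ : E' →+* E) (y' : E') (y : E)
    (𝔪 : Ideal (chartClosure A E y)) (h𝔪 : 𝔪.IsPrime)
    (hφ : ∀ s : chartClosure A E' y', InLoc A E y 𝔪 (φ s)) :
    (pointBelow φ y' y 𝔪 h𝔪 hφ).IsPrime := by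
  refine ⟨?_, ?_⟩
  · intro htop
    have h1 : (1 : chartClosure A E' y') ∈ pointBelow φ y' y 𝔪 h𝔪 hφ := by
      rw [htop]; exact Submodule.mem_top
    rw [mem_pointBelow] at h1
    apply not_inLocMax_one h𝔪
    simpa using h1
  · intro a b hab
    rw [mem_pointBelow] at hab ⊢
    rw [mem_pointBelow]
    have : φ ((a * b : chartClosure A E' y') : E') = φ a * φ b := by push_cast; rw [map_mul]
    rw [this] at hab
    exact InLocMax.mul_cases h𝔪 (hφ a) (hφ b) hab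

end Below

section Combined

variable {A : Type} [CommRing A] [IsDomain A] [IsDiscreteValuationRing A]
variable {E' : Type} [Field E'] [Algebra A E'] [CharZero E']
variable {E : Type} [Field E] [Algebra A E]

theorem pow_div_mem_of_isUniformiser {V : ValuationSubring E} {t : E}
    (h : IsUniformiser E V t) : ∃ N : ℕ, ∀ s ∈ V.nonunits, s ^ N / t ∈ V :=
  ⟨1, fun s hs => by rw [pow_one]; exact h.2.2 s hs⟩

/-- **CLASS + REGSM** (row SS2-C4).  See the module docstring.  INPUTS: the three vertical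
valuations of level `L q` with `C = V₂₀ ∩ V₁₁ ∩ V₀₂`, `ϖ` a uniformiser of `V₂₀` and `V₀₂`,
finite ramification of `V₁₁`; the table of restrictions along `α`, `β` (row SS2-C2), with
residue degree one for `V₂₀ / V₁₀` along `α` and `V₀₂ / V₀₁` along `β`; `V₁₀`, `V₀₁` are
localisations of `B'` (`exists_frac_of_sep`); the points `𝔪α`, `𝔪β` below `𝔪`; at level `L`
the smooth points are regular with parameters `(ϖ, U')` (row SS2-C3) and above a point on both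
`V₁₀` and `V₀₁` there is only one point (row SS2-C6 (1)). -/
theorem classRegSm (hinj' : Function.Injective (algebraMap A E'))
    (hinj : Function.Injective (algebraMap A E))
    {ϖ : A} (hϖ : Irreducible ϖ) {y' : E'} (hy' : Transcendental A y')
    (hfd' : ∃ n : ℕ, Nonempty (Module.Basis (Fin n) (chartField A E' y') E'))
    {y : E} (hy : Transcendental A y)
    (α β : E' →+* E) (hα : ∀ a : A, α (algebraMap A E' a) = algebraMap A E a)
    (hβ : ∀ a : A, β (algebraMap A E' a) = algebraMap A E a)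
    (V₁₀ V₀₁ : ValuationSubring E') (V₂₀ V₁₁ V₀₂ : ValuationSubring E)
    (hV20 : Fermat.Agent.H11.SS2.IsVertical A E ϖ y V₂₀)
    (hV11 : Fermat.Agent.H11.SS2.IsVertical A E ϖ y V₁₁)
    (hV02 : Fermat.Agent.H11.SS2.IsVertical A E ϖ y V₀₂)
    (hC : ∀ z : E, z ∈ V₂₀ → z ∈ V₁₁ → z ∈ V₀₂ → z ∈ gaussClosure A E ϖ y)
    (hu20 : IsUniformiser E V₂₀ (algebraMap A E ϖ))
    (hu02 : IsUniformiser E V₀₂ (algebraMap A E ϖ))
    (hN11 : ∃ N : ℕ, ∀ s ∈ V₁₁.nonunits, s ^ N / algebraMap A E ϖ ∈ V₁₁)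
    (hα20 : V₂₀.comap α = V₁₀) (hα11 : V₁₁.comap α = V₁₀) (hα02 : V₀₂.comap α = V₀₁)
    (hβ20 : V₂₀.comap β = V₁₀) (hβ11 : V₁₁.comap β = V₀₁) (hβ02 : V₀₂.comap β = V₀₁)
    (hres20 : ∀ z ∈ V₂₀, ∃ z' ∈ V₁₀, z - α z' ∈ V₂₀.nonunits)
    (hres02 : ∀ z ∈ V₀₂, ∃ z' ∈ V₀₁, z - β z' ∈ V₀₂.nonunits)
    (hfrac10 : ∀ z' ∈ V₁₀, ∃ d₁ d₂ : chartClosure A E' y',
      (d₂ : E') ∉ V₁₀.nonunits ∧ z' * (d₂ : E') = d₁)
    (hfrac01 : ∀ z' ∈ V₀₁, ∃ d₁ d₂ : chartClosure A E' y',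
      (d₂ : E') ∉ V₀₁.nonunits ∧ z' * (d₂ : E') = d₁)
    (𝔪 : Ideal (chartClosure A E y)) (h𝔪 : 𝔪.IsPrime)
    (hϖ𝔪 : algebraMap A (chartClosure A E y) ϖ ∈ 𝔪)
    (𝔪α 𝔪β : Ideal (chartClosure A E' y')) (h𝔪α : 𝔪α.IsPrime) (h𝔪β : 𝔪β.IsPrime)
    (hLα : LiesOverAlong A E E' α y' y 𝔪α 𝔪) (hLβ : LiesOverAlong A E E' β y' y 𝔪β 𝔪)
    (hsm10 : Fermat.Agent.H11.SS2.Through A E' y' 𝔪α V₁₀ →
      ¬ Fermat.Agent.H11.SS2.Through A E' y' 𝔪α V₀₁ →
      ∃ U' : E', Fermat.Agent.H11.SS2.IsRegPoint A E' ϖ y' 𝔪α V₁₀ (algebraMap A E' ϖ) U')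
    (hsm01 : Fermat.Agent.H11.SS2.Through A E' y' 𝔪β V₀₁ →
      ¬ Fermat.Agent.H11.SS2.Through A E' y' 𝔪β V₁₀ →
      ∃ U' : E', Fermat.Agent.H11.SS2.IsRegPoint A E' ϖ y' 𝔪β V₀₁ (algebraMap A E' ϖ) U')
    (hUα : Fermat.Agent.H11.SS2.Through A E' y' 𝔪α V₁₀ →
      Fermat.Agent.H11.SS2.Through A E' y' 𝔪α V₀₁ → UniqueAbove A E E' α y' y 𝔪α 𝔪)
    (hUβ : Fermat.Agent.H11.SS2.Through A E' y' 𝔪β V₁₀ →
      Fermat.Agent.H11.SS2.Through A E' y' 𝔪β V₀₁ → UniqueAbove A E E' β y' y 𝔪β 𝔪) :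
    (Fermat.Agent.H11.SS2.Through A E y 𝔪 V₂₀ ∧ Fermat.Agent.H11.SS2.Through A E y 𝔪 V₁₁ ∧
      Fermat.Agent.H11.SS2.Through A E y 𝔪 V₀₂ ∧
      Fermat.Agent.H11.SS2.Through A E' y' 𝔪α V₁₀ ∧
      Fermat.Agent.H11.SS2.Through A E' y' 𝔪α V₀₁ ∧
      Fermat.Agent.H11.SS2.Through A E' y' 𝔪β V₁₀ ∧
      Fermat.Agent.H11.SS2.Through A E' y' 𝔪β V₀₁) ∨
    (Fermat.Agent.H11.SS2.Through A E y 𝔪 V₂₀ ∧
      (∃ s : chartClosure A E y, (s : E) ∈ V₁₁.nonunits ∧ s ∉ 𝔪) ∧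
      (∃ s : chartClosure A E y, (s : E) ∈ V₀₂.nonunits ∧ s ∉ 𝔪) ∧
      ∃ U : E, Fermat.Agent.H11.SS2.IsRegPoint A E ϖ y 𝔪 V₂₀ (algebraMap A E ϖ) U) ∨
    (Fermat.Agent.H11.SS2.Through A E y 𝔪 V₁₁ ∧
      (∃ s : chartClosure A E y, (s : E) ∈ V₂₀.nonunits ∧ s ∉ 𝔪) ∧
      (∃ s : chartClosure A E y, (s : E) ∈ V₀₂.nonunits ∧ s ∉ 𝔪) ∧
      Fermat.Agent.H11.SS2.Through A E' y' 𝔪α V₁₀ ∧
      ¬ Fermat.Agent.H11.SS2.Through A E' y' 𝔪α V₀₁ ∧
      Fermat.Agent.H11.SS2.Through A E' y' 𝔪β V₀₁ ∧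
      ¬ Fermat.Agent.H11.SS2.Through A E' y' 𝔪β V₁₀) ∨
    (Fermat.Agent.H11.SS2.Through A E y 𝔪 V₀₂ ∧
      (∃ s : chartClosure A E y, (s : E) ∈ V₂₀.nonunits ∧ s ∉ 𝔪) ∧
      (∃ s : chartClosure A E y, (s : E) ∈ V₁₁.nonunits ∧ s ∉ 𝔪) ∧
      ∃ U : E, Fermat.Agent.H11.SS2.IsRegPoint A E ϖ y 𝔪 V₀₂ (algebraMap A E ϖ) U) := by
  classical
  have hB : ∀ V : ValuationSubring E, Fermat.Agent.H11.SS2.IsVertical A E ϖ y V →
      ∀ z ∈ chartClosure A E y, z ∈ V := fun V hV z hz =>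
    hV.2.2.1 z (Fermat.Agent.H89.klg_chartClosure_le_gaussClosure hϖ hy hz)
  have hB20 := hB V₂₀ hV20
  have hB11 := hB V₁₁ hV11
  have hB02 := hB V₀₂ hV02
  have hN20 := pow_div_mem_of_isUniformiser hu20
  have hN02 := pow_div_mem_of_isUniformiser hu02
  -- at least one branch
  have hex : PassesThrough A E y 𝔪 V₂₀ ∨ PassesThrough A E y 𝔪 V₁₁ ∨
      PassesThrough A E y 𝔪 V₀₂ := by
    obtain ⟨V, hVS, hV⟩ := exists_passesThrough hinj hϖ hy ({V₂₀, V₁₁, V₀₂} : Finset _)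
      (fun z hz => hC z (hz _ (by simp)) (hz _ (by simp)) (hz _ (by simp)))
      (by
        intro V hV
        simp only [Finset.mem_insert, Finset.mem_singleton] at hV
        rcases hV with rfl | rfl | rfl
        exacts [hB20, hB11, hB02])
      (by
        intro V hV
        simp only [Finset.mem_insert, Finset.mem_singleton] at hV
        rcases hV with rfl | rfl | rfl
        exacts [hN20, hN11, hN02])
      𝔪 h𝔪 hϖ𝔪
    simp only [Finset.mem_insert, Finset.mem_singleton] at hVS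
    rcases hVS with rfl | rfl | rfl
    · exact Or.inl hV
    · exact Or.inr (Or.inl hV)
    · exact Or.inr (Or.inr hV)
  rcases classThree α β y' y V₁₀ V₀₁ V₂₀ V₁₁ V₀₂ hα20 hα11 hα02 hβ20 hβ11 hβ02 hB20 hB11 hB02
    𝔪 𝔪α 𝔪β hLα hLβ hex hUα hUβ with h | h | h | h
  · exact Or.inl h
  · obtain ⟨h20, h11, h02, ha10, ha01, -, -⟩ := h
    obtain ⟨U', hreg'⟩ := hsm10 ha10 ha01
    refine Or.inr (Or.inl ⟨h20, not_passesThrough_iff.1 h11, not_passesThrough_iff.1 h02, ?_⟩)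
    refine regsm_exists hinj' hinj hϖ hy' hfd' hy α hα 𝔪 h𝔪 𝔪α h𝔪α hLα V₂₀ hV20 h20 hu20
      ({V₁₁, V₀₂} : Finset _) ?_ ?_ ?_ ?_ V₁₀ hα20 hres20 hfrac10 U' hreg'
    · exact fun z hz hS => hC z hz (hS _ (by simp)) (hS _ (by simp))
    · intro V hV
      simp only [Finset.mem_insert, Finset.mem_singleton] at hV
      rcases hV with rfl | rfl
      exacts [hB11, hB02]
    · intro V hV
      simp only [Finset.mem_insert, Finset.mem_singleton] at hV
      rcases hV with rfl | rfl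
      exacts [hN11, hN02]
    · intro V hV
      simp only [Finset.mem_insert, Finset.mem_singleton] at hV
      rcases hV with rfl | rfl
      exacts [h11, h02]
  · obtain ⟨h20, h11, h02, ha10, ha01, hb01, hb10⟩ := h
    exact Or.inr (Or.inr (Or.inl ⟨h11, not_passesThrough_iff.1 h20,
      not_passesThrough_iff.1 h02, ha10, ha01, hb01, hb10⟩))
  · obtain ⟨h20, h11, h02, -, -, hb01, hb10⟩ := h
    obtain ⟨U', hreg'⟩ := hsm01 hb01 hb10
    refine Or.inr (Or.inr (Or.inr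
      ⟨h02, not_passesThrough_iff.1 h20, not_passesThrough_iff.1 h11, ?_⟩))
    refine regsm_exists hinj' hinj hϖ hy' hfd' hy β hβ 𝔪 h𝔪 𝔪β h𝔪β hLβ V₀₂ hV02 h02 hu02
      ({V₂₀, V₁₁} : Finset _) ?_ ?_ ?_ ?_ V₀₁ hβ02 hres02 hfrac01 U' hreg'
    · exact fun z hz hS => hC z (hS _ (by simp)) (hS _ (by simp)) hz
    · intro V hV
      simp only [Finset.mem_insert, Finset.mem_singleton] at hV
      rcases hV with rfl | rfl
      exacts [hB20, hB11]
    · intro V hV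
      simp only [Finset.mem_insert, Finset.mem_singleton] at hV
      rcases hV with rfl | rfl
      exacts [hN20, hN11]
    · intro V hV
      simp only [Finset.mem_insert, Finset.mem_singleton] at hV
      rcases hV with rfl | rfl
      exacts [h20, h11]

end Combined

end Fermat.Agent.H99.SS2
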