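import Mathlib
import Fermat.Agent.H99.SS2.ClassRegSm
import Fermat.Agent.H11.SS2.Val3Defs
import Fermat.Agent.H7.SS2.RegLDefs

/-!
# P-SS2, row SS2-C4 (helper99), part 6 : CLASS + REGSM from `Val3Data` and `RegLAt`

The combined statement `classRegSm` with its valuation-theoretic hypotheses taken from the
keystone interface `Fermat.Agent.H11.SS2.Val3Data` (helper11) and its level-`L` hypotheses taken
from `Fermat.Agent.H7.SS2.RegLAt` (helper7) at the two points below.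

USED FIELDS of `Val3Data` : the six `comap`, `unif₂₀`, `unif₀₂`, `unif₁₁`, `ram₁₁`, `res₂₀α`,
`res₀₂β`.  NOT in `Val3Data` (other inputs): `IsVertical` for the three valuations and `hgauss`
(GAUSS-TOWER), `hfrac` for `O₁`, `O₂` (level `L`; see `exists_frac_of_sep`), `UniqueAbove` at the
nodes (helper93's `regss_val3_alpha/beta` + `uniqueAbove_of_subsingleton`).
-/

set_option autoImplicit false
set_option linter.unusedSectionVars false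
set_option linter.style.haveILetI false

noncomputable section

namespace Fermat.Agent.H99.SS2

open Fermat.Agent.H22.KL Fermat.Agent.H11.SS2 Fermat.Agent.H7.SS2

section Val3

variable {A : Type} [CommRing A] [IsDomain A] [IsDiscreteValuationRing A]
variable {E' : Type} [Field E'] [Algebra A E'] [CharZero E']
variable {E : Type} [Field E] [Algebra A E]

/-- Finite ramification of `V₁₁` from the table. -/
theorem pow_div_mem_of_ram {V : ValuationSubring E} {Z : E} {q : ℕ}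
    (hu : DKUnif V Z) (hr : VUnit V ((q : E) / Z ^ (q - 1))) :
    ∃ N : ℕ, ∀ s ∈ V.nonunits, s ^ N / (q : E) ∈ V := by
  refine ⟨q - 1, fun s hs => ?_⟩
  have hZ0 : Z ≠ 0 := hu.1
  have h1 : s / Z ∈ V := hu.2.2 s hs
  by_cases hq0 : (q : E) = 0
  · rw [hq0, div_zero]; exact V.zero_mem
  have h2 : s ^ (q - 1) / (q : E) = (s / Z) ^ (q - 1) * ((q : E) / Z ^ (q - 1))⁻¹ := by
    have hZp : Z ^ (q - 1) ≠ 0 := pow_ne_zero _ hZ0
    rw [div_pow, inv_div, div_mul_div_comm, mul_comm (s ^ (q - 1)) (Z ^ (q - 1)),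
      mul_div_mul_left _ _ hZp]
  rw [h2]
  exact V.mul_mem _ _ (V.pow_mem h1 _) hr.2

/-- A smooth point on `O₁` only, from `RegLAt`. -/
theorem regLAt_smooth₁ {ϖ : A} {y' : E'} {𝔪' : Ideal (chartClosure A E' y')}
    {O₁ O₂ : ValuationSubring E'} {X Y : E'} (h : RegLAt A E' ϖ y' 𝔪' O₁ O₂ X Y)
    (h1 : Through A E' y' 𝔪' O₁) (h2 : ¬ Through A E' y' 𝔪' O₂) :
    ∃ U : E', IsRegPoint A E' ϖ y' 𝔪' O₁ (algebraMap A E' ϖ) U := by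
  rcases h with ⟨-, h⟩ | ⟨h, -⟩ | ⟨e, -, -, h, -⟩
  · exact h
  · exact absurd h1 h
  · exact absurd h.thru h2

/-- A smooth point on `O₂` only, from `RegLAt`. -/
theorem regLAt_smooth₂ {ϖ : A} {y' : E'} {𝔪' : Ideal (chartClosure A E' y')}
    {O₁ O₂ : ValuationSubring E'} {X Y : E'} (h : RegLAt A E' ϖ y' 𝔪' O₁ O₂ X Y)
    (h2 : Through A E' y' 𝔪' O₂) (h1 : ¬ Through A E' y' 𝔪' O₁) :
    ∃ U : E', IsRegPoint A E' ϖ y' 𝔪' O₂ (algebraMap A E' ϖ) U := by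
  rcases h with ⟨h, -⟩ | ⟨-, h⟩ | ⟨e, -, h, -, -⟩
  · exact absurd h2 h
  · exact h
  · exact absurd h.thru h1

/-- **CLASS + REGSM from `Val3Data` and `RegLAt`** (unramified base: the uniformiser is the
prime number `q`). -/
theorem classRegSm_val3 (hinj' : Function.Injective (algebraMap A E'))
    (hinj : Function.Injective (algebraMap A E))
    (q : ℕ) (hq : Irreducible ((q : ℕ) : A)) {y' : E'} (hy' : Transcendental A y')
    (hfd' : ∃ n : ℕ, Nonempty (Module.Basis (Fin n) (chartField A E' y') E'))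
    {y : E} (hy : Transcendental A y)
    (α β : E' →+* E) (hα : ∀ a : A, α (algebraMap A E' a) = algebraMap A E a)
    (hβ : ∀ a : A, β (algebraMap A E' a) = algebraMap A E a)
    (O₁ O₂ : ValuationSubring E') (V₂₀ V₁₁ V₀₂ : ValuationSubring E) (Y₁ : E') (Z : E)
    (hval : Val3Data α β O₁ O₂ V₂₀ V₁₁ V₀₂ q Y₁ Z)
    (hV20 : IsVertical A E ((q : ℕ) : A) y V₂₀) (hV11 : IsVertical A E ((q : ℕ) : A) y V₁₁)
    (hV02 : IsVertical A E ((q : ℕ) : A) y V₀₂)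
    (hgauss : ∀ z : E, z ∈ V₂₀ → z ∈ V₁₁ → z ∈ V₀₂ → z ∈ gaussClosure A E ((q : ℕ) : A) y)
    (hfrac10 : ∀ z' ∈ O₁, ∃ d₁ d₂ : chartClosure A E' y',
      (d₂ : E') ∉ O₁.nonunits ∧ z' * (d₂ : E') = d₁)
    (hfrac01 : ∀ z' ∈ O₂, ∃ d₁ d₂ : chartClosure A E' y',
      (d₂ : E') ∉ O₂.nonunits ∧ z' * (d₂ : E') = d₁)
    (𝔪 : Ideal (chartClosure A E y)) (h𝔪 : 𝔪.IsPrime)
    (hϖ𝔪 : algebraMap A (chartClosure A E y) ((q : ℕ) : A) ∈ 𝔪)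
    (𝔪α 𝔪β : Ideal (chartClosure A E' y')) (h𝔪α : 𝔪α.IsPrime) (h𝔪β : 𝔪β.IsPrime)
    (hLα : LiesOverAlong A E E' α y' y 𝔪α 𝔪) (hLβ : LiesOverAlong A E E' β y' y 𝔪β 𝔪)
    (X Y : E') (hregα : RegLAt A E' ((q : ℕ) : A) y' 𝔪α O₁ O₂ X Y)
    (hregβ : RegLAt A E' ((q : ℕ) : A) y' 𝔪β O₁ O₂ X Y)
    (hUα : Through A E' y' 𝔪α O₁ → Through A E' y' 𝔪α O₂ → UniqueAbove A E E' α y' y 𝔪α 𝔪)
    (hUβ : Through A E' y' 𝔪β O₁ → Through A E' y' 𝔪β O₂ → UniqueAbove A E E' β y' y 𝔪β 𝔪) :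
    (Through A E y 𝔪 V₂₀ ∧ Through A E y 𝔪 V₁₁ ∧ Through A E y 𝔪 V₀₂ ∧
      Through A E' y' 𝔪α O₁ ∧ Through A E' y' 𝔪α O₂ ∧
      Through A E' y' 𝔪β O₁ ∧ Through A E' y' 𝔪β O₂) ∨
    (Through A E y 𝔪 V₂₀ ∧
      (∃ s : chartClosure A E y, (s : E) ∈ V₁₁.nonunits ∧ s ∉ 𝔪) ∧
      (∃ s : chartClosure A E y, (s : E) ∈ V₀₂.nonunits ∧ s ∉ 𝔪) ∧
      ∃ U : E, IsRegPoint A E ((q : ℕ) : A) y 𝔪 V₂₀ (algebraMap A E ((q : ℕ) : A)) U) ∨
    (Through A E y 𝔪 V₁₁ ∧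
      (∃ s : chartClosure A E y, (s : E) ∈ V₂₀.nonunits ∧ s ∉ 𝔪) ∧
      (∃ s : chartClosure A E y, (s : E) ∈ V₀₂.nonunits ∧ s ∉ 𝔪) ∧
      Through A E' y' 𝔪α O₁ ∧ ¬ Through A E' y' 𝔪α O₂ ∧
      Through A E' y' 𝔪β O₂ ∧ ¬ Through A E' y' 𝔪β O₁) ∨
    (Through A E y 𝔪 V₀₂ ∧
      (∃ s : chartClosure A E y, (s : E) ∈ V₂₀.nonunits ∧ s ∉ 𝔪) ∧
      (∃ s : chartClosure A E y, (s : E) ∈ V₁₁.nonunits ∧ s ∉ 𝔪) ∧
      ∃ U : E, IsRegPoint A E ((q : ℕ) : A) y 𝔪 V₀₂ (algebraMap A E ((q : ℕ) : A)) U) := by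
  have hcast : algebraMap A E ((q : ℕ) : A) = (q : E) := map_natCast _ q
  have hu20 : IsUniformiser E V₂₀ (algebraMap A E ((q : ℕ) : A)) := by
    rw [hcast]; exact hval.unif₂₀
  have hu02 : IsUniformiser E V₀₂ (algebraMap A E ((q : ℕ) : A)) := by
    rw [hcast]; exact hval.unif₀₂
  have hN11 : ∃ N : ℕ, ∀ s ∈ V₁₁.nonunits, s ^ N / algebraMap A E ((q : ℕ) : A) ∈ V₁₁ := by
    rw [hcast]; exact pow_div_mem_of_ram hval.unif₁₁ hval.ram₁₁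
  exact classRegSm hinj' hinj hq hy' hfd' hy α β hα hβ O₁ O₂ V₂₀ V₁₁ V₀₂ hV20 hV11 hV02 hgauss
    hu20 hu02 hN11 hval.comap₂₀α hval.comap₁₁α hval.comap₀₂α hval.comap₂₀β hval.comap₁₁β
    hval.comap₀₂β hval.res₂₀α hval.res₀₂β hfrac10 hfrac01 𝔪 h𝔪 hϖ𝔪 𝔪α 𝔪β h𝔪α h𝔪β hLα hLβ
    (regLAt_smooth₁ hregα) (regLAt_smooth₂ hregβ) hUα hUβ

end Val3

end Fermat.Agent.H99.SS2
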