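import Mathlib
import Fermat.Agent.H99.SS2.ClassRegSm
import Fermat.Agent.H41.SS.TubeChart

/-!
# P-SS2, row SS2-C4 (helper99), part 5 : the point below a closed point is a closed point

* `chartClosure_finiteType` : `B(y)` is an `A`-algebra of finite type.
* `quotient_isIntegral` : for a maximal ideal `𝔪 ∋ ϖ` of `B(y)`, the residue field `B / 𝔪` is
  integral over `A` (Zariski's lemma over the residue field of `A`).
* `pointBelow_isMaximal` : the point `φ⁻¹ (𝔪 B_𝔪)` below a maximal ideal `𝔪 ∋ ϖ` is a maximal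
  ideal of `B'` (LOCAL situation: only `φ (B') ⊆ B_𝔪` is assumed), and contains `ϖ`.
-/

set_option autoImplicit false
set_option linter.unusedSectionVars false
set_option linter.style.haveILetI false

noncomputable section

namespace Fermat.Agent.H99.SS2

open Fermat.Agent.H22.KL Polynomial

section FiniteType

variable (A : Type) [CommRing A] [IsDomain A] [IsDiscreteValuationRing A]
variable (E : Type) [Field E] [Algebra A E] [CharZero E]

/-- `B(y)` is an `A`-algebra of finite type. -/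
theorem chartClosure_finiteType (hinj : Function.Injective (algebraMap A E))
    (ϖ : A) (hϖ : Irreducible ϖ) (y : E) (hy : Transcendental A y)
    (hfd : ∃ n : ℕ, Nonempty (Module.Basis (Fin n) (chartField A E y) E)) :
    Algebra.FiniteType A ↥(chartClosure A E y) := by
  classical
  obtain ⟨⟨s, hs, hspan⟩, -, -, -⟩ := Fermat.Agent.H85.chartBasics A E hinj ϖ hϖ y hy hfd
  have hyB : y ∈ chartClosure A E y := by
    apply Fermat.Agent.H89.klg_chartRing_le_chartClosure y
    exact Algebra.subset_adjoin (Set.mem_singleton y)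
  have hfg : (chartClosure A E y).FG := by
    refine ⟨insert y s, le_antisymm ?_ ?_⟩
    · refine Algebra.adjoin_le ?_
      intro z hz
      rw [Finset.coe_insert, Set.mem_insert_iff] at hz
      rcases hz with rfl | hz
      · exact hyB
      · exact hs z hz
    · intro r hr
      obtain ⟨p, rfl⟩ := hspan r hr
      refine Subalgebra.sum_mem _ fun b hb => Subalgebra.mul_mem _ ?_ ?_
      · have h1 : aeval y (p b) ∈ Algebra.adjoin A ({y} : Set E) := by
          rw [Algebra.adjoin_singleton_eq_range_aeval]; exact ⟨p b, rfl⟩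
        exact Algebra.adjoin_mono (by simp) h1
      · exact Algebra.subset_adjoin (by simp [hb])
  exact (Subalgebra.fg_iff_finiteType _).1 hfg

variable {A E}

/-- The residue field of a closed point of the special fibre is integral over `A`. -/
theorem quotient_isIntegral (hinj : Function.Injective (algebraMap A E))
    {ϖ : A} (hϖ : Irreducible ϖ) {y : E} (hy : Transcendental A y)
    (hfd : ∃ n : ℕ, Nonempty (Module.Basis (Fin n) (chartField A E y) E))
    (𝔪 : Ideal (chartClosure A E y)) (h𝔪 : 𝔪.IsMaximal)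
    (hϖ𝔪 : algebraMap A (chartClosure A E y) ϖ ∈ 𝔪) :
    Algebra.IsIntegral A (chartClosure A E y ⧸ 𝔪) := by
  haveI := chartClosure_finiteType A E hinj ϖ hϖ y hy hfd
  haveI := h𝔪
  letI := Ideal.Quotient.field 𝔪
  set p : Ideal A := 𝔪.comap (algebraMap A (chartClosure A E y)) with hp
  have hpmax : p.IsMaximal := by
    have h1 : IsLocalRing.maximalIdeal A ≤ p := by
      rw [(IsDiscreteValuationRing.irreducible_iff_uniformizer ϖ).1 hϖ, Ideal.span_le]
      rintro x rfl
      exact hϖ𝔪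
    have h2 : p ≠ ⊤ := by
      intro htop
      have : (1 : A) ∈ p := by rw [htop]; exact Submodule.mem_top
      rw [hp, Ideal.mem_comap, map_one] at this
      exact h𝔪.ne_top ((Ideal.eq_top_iff_one 𝔪).2 this)
    rw [← (IsLocalRing.maximalIdeal.isMaximal A).eq_of_le h2 h1]
    exact IsLocalRing.maximalIdeal.isMaximal A
  haveI := hpmax
  letI := Ideal.Quotient.field p
  haveI : Algebra.FiniteType A (chartClosure A E y ⧸ 𝔪) :=
    Algebra.FiniteType.of_surjective (Ideal.Quotient.mkₐ A 𝔪) Ideal.Quotient.mk_surjective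
  haveI : Algebra.FiniteType (A ⧸ p) (chartClosure A E y ⧸ 𝔪) :=
    Algebra.FiniteType.of_restrictScalars_finiteType A (A ⧸ p) (chartClosure A E y ⧸ 𝔪)
  haveI : Module.Finite (A ⧸ p) (chartClosure A E y ⧸ 𝔪) :=
    finite_of_finite_type_of_isJacobsonRing (A ⧸ p) (chartClosure A E y ⧸ 𝔪)
  haveI : Algebra.IsIntegral (A ⧸ p) (chartClosure A E y ⧸ 𝔪) :=
    Algebra.IsIntegral.of_finite _ _
  haveI : Algebra.IsIntegral A (A ⧸ p) :=
    Algebra.IsIntegral.of_surjective (Algebra.ofId A (A ⧸ p)) Ideal.Quotient.mk_surjective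
  exact Algebra.IsIntegral.trans (A ⧸ p)

end FiniteType

section Max

variable {A : Type} [CommRing A] [IsDomain A] [IsDiscreteValuationRing A]
variable {E : Type} [Field E] [Algebra A E] [CharZero E]
variable {E' : Type} [Field E'] [Algebra A E']

/-- `ϖ` lies in the point below. -/
theorem pi_mem_pointBelow (φ : E' →+* E)
    (hφA : ∀ a : A, φ (algebraMap A E' a) = algebraMap A E a) (y' : E') (y : E)
    (𝔪 : Ideal (chartClosure A E y)) (h𝔪 : 𝔪.IsPrime)
    (hφ : ∀ s : chartClosure A E' y', InLoc A E y 𝔪 (φ s)) {ϖ : A}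
    (hϖ𝔪 : algebraMap A (chartClosure A E y) ϖ ∈ 𝔪) :
    algebraMap A (chartClosure A E' y') ϖ ∈ pointBelow φ y' y 𝔪 h𝔪 hφ := by
  rw [mem_pointBelow]
  have h1 : φ ((algebraMap A (chartClosure A E' y') ϖ : chartClosure A E' y') : E') =
      ((algebraMap A (chartClosure A E y) ϖ : chartClosure A E y) : E) := by
    show φ (algebraMap A E' ϖ) = algebraMap A E ϖ
    exact hφA ϖ
  rw [h1]
  exact InLocMax.of_mem h𝔪 hϖ𝔪

/-- **The point below a closed point is closed.** -/
theorem pointBelow_isMaximal (hinj : Function.Injective (algebraMap A E))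
    {ϖ : A} (hϖ : Irreducible ϖ) {y : E} (hy : Transcendental A y)
    (hfd : ∃ n : ℕ, Nonempty (Module.Basis (Fin n) (chartField A E y) E))
    (φ : E' →+* E) (hφA : ∀ a : A, φ (algebraMap A E' a) = algebraMap A E a) (y' : E')
    (𝔪 : Ideal (chartClosure A E y)) (h𝔪 : 𝔪.IsMaximal)
    (hϖ𝔪 : algebraMap A (chartClosure A E y) ϖ ∈ 𝔪)
    (hφ : ∀ s : chartClosure A E' y', InLoc A E y 𝔪 (φ s)) :
    (pointBelow φ y' y 𝔪 h𝔪.isPrime hφ).IsMaximal := by
  classical
  set 𝔪' := pointBelow φ y' y 𝔪 h𝔪.isPrime hφ with h𝔪'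
  haveI h𝔪'p : 𝔪'.IsPrime := pointBelow_isPrime φ y' y 𝔪 h𝔪.isPrime hφ
  haveI := h𝔪
  letI := Ideal.Quotient.field 𝔪
  have hκ := quotient_isIntegral hinj hϖ hy hfd 𝔪 h𝔪 hϖ𝔪
  -- the structure map `A → B' / 𝔪'`
  let f : A →+* (chartClosure A E' y' ⧸ 𝔪') := algebraMap A (chartClosure A E' y' ⧸ 𝔪')
  -- every element of `B' / 𝔪'` is integral over `A`
  have hfint : f.IsIntegral := by
    intro x
    obtain ⟨s', rfl⟩ := Ideal.Quotient.mk_surjective x
    obtain ⟨b, hb, hbc⟩ := hφ s'
    set c : chartClosure A E y := ⟨(b : E) * φ s', hbc⟩ with hc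
    have hb0 : Ideal.Quotient.mk 𝔪 b ≠ 0 := fun h => hb (Ideal.Quotient.eq_zero_iff_mem.1 h)
    obtain ⟨P, hP, hP0⟩ := hκ.isIntegral (Ideal.Quotient.mk 𝔪 c * (Ideal.Quotient.mk 𝔪 b)⁻¹)
    refine ⟨P, hP, ?_⟩
    -- homogenise
    have hhom : (∑ i ∈ Finset.range (P.natDegree + 1),
        algebraMap A (chartClosure A E y) (P.coeff i) * c ^ i * b ^ (P.natDegree - i)) ∈ 𝔪 := by
      rw [← Ideal.Quotient.eq_zero_iff_mem, map_sum]
      have h1 : (Ideal.Quotient.mk 𝔪 b) ^ P.natDegree *
          eval₂ (algebraMap A (chartClosure A E y ⧸ 𝔪))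
            (Ideal.Quotient.mk 𝔪 c * (Ideal.Quotient.mk 𝔪 b)⁻¹) P = 0 := by
        rw [hP0, mul_zero]
      rw [eval₂_eq_sum_range, Finset.mul_sum] at h1
      rw [← h1]
      refine Finset.sum_congr rfl fun i hi => ?_
      have hi' : i ≤ P.natDegree := Nat.lt_succ_iff.1 (Finset.mem_range.1 hi)
      rw [map_mul, map_mul, map_pow, map_pow, mul_pow, inv_pow]
      have h2 : (Ideal.Quotient.mk 𝔪 b) ^ P.natDegree =
          (Ideal.Quotient.mk 𝔪 b) ^ (P.natDegree - i) * (Ideal.Quotient.mk 𝔪 b) ^ i := by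
        rw [← pow_add, Nat.sub_add_cancel hi']
      rw [h2]
      have h3 : (Ideal.Quotient.mk 𝔪 b) ^ i ≠ 0 := pow_ne_zero _ hb0
      have h4 : Ideal.Quotient.mk 𝔪 (algebraMap A (chartClosure A E y) (P.coeff i)) =
          algebraMap A (chartClosure A E y ⧸ 𝔪) (P.coeff i) := rfl
      rw [h4]
      field_simp
    -- the value of `P` at `s'` lies in `𝔪'`
    have hval : eval₂ (algebraMap A (chartClosure A E' y')) s' P ∈ 𝔪' := by
      rw [h𝔪', mem_pointBelow]
      refine ⟨b ^ P.natDegree, fun h => hb (h𝔪.isPrime.mem_of_pow_mem _ h), _, hhom, ?_⟩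
      have e1 : ((eval₂ (algebraMap A (chartClosure A E' y')) s' P : chartClosure A E' y') : E') =
          eval₂ (algebraMap A E') (s' : E') P := by
        have := Polynomial.hom_eval₂ P (algebraMap A (chartClosure A E' y'))
          (algebraMap (chartClosure A E' y') E') s'
        exact this
      have e2 : φ (eval₂ (algebraMap A E') (s' : E') P) = eval₂ (algebraMap A E) (φ s') P := by
        rw [Polynomial.hom_eval₂]
        congr 1
        ext a
        exact hφA a
      rw [e1, e2, eval₂_eq_sum_range, Finset.mul_sum]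
      push_cast
      refine Finset.sum_congr rfl fun i hi => ?_
      have hi' : i ≤ P.natDegree := Nat.lt_succ_iff.1 (Finset.mem_range.1 hi)
      show (b : E) ^ P.natDegree * (algebraMap A E (P.coeff i) * φ s' ^ i) =
        algebraMap A E (P.coeff i) * ((b : E) * φ s') ^ i * (b : E) ^ (P.natDegree - i)
      have h6 : (b : E) ^ P.natDegree = (b : E) ^ (P.natDegree - i) * (b : E) ^ i := by
        rw [← pow_add, Nat.sub_add_cancel hi']
      rw [h6]
      ring
    have := Polynomial.hom_eval₂ P (algebraMap A (chartClosure A E' y'))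
      (Ideal.Quotient.mk 𝔪') s'
    have hcomp : (Ideal.Quotient.mk 𝔪').comp (algebraMap A (chartClosure A E' y')) = f := rfl
    rw [hcomp] at this
    rw [← this]
    exact Ideal.Quotient.eq_zero_iff_mem.2 hval
  -- the kernel of `A → B' / 𝔪'` is the maximal ideal of `A`
  haveI hnt : Nontrivial (chartClosure A E' y' ⧸ 𝔪') :=
    Ideal.Quotient.nontrivial_iff.2 h𝔪'p.ne_top
  haveI hdom : IsDomain (chartClosure A E' y' ⧸ 𝔪') := Ideal.Quotient.isDomain 𝔪'
  haveI hnzd : NoZeroDivisors (chartClosure A E' y' ⧸ 𝔪') :=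
    @IsDomain.to_noZeroDivisors _ _ hdom
  haveI hbotp : (⊥ : Ideal (chartClosure A E' y' ⧸ 𝔪')).IsPrime :=
    @Ideal.isPrime_bot _ _ hnt hnzd
  have hcomap : ((⊥ : Ideal (chartClosure A E' y' ⧸ 𝔪')).comap f).IsMaximal := by
    have h1 : IsLocalRing.maximalIdeal A ≤ (⊥ : Ideal (chartClosure A E' y' ⧸ 𝔪')).comap f := by
      rw [(IsDiscreteValuationRing.irreducible_iff_uniformizer ϖ).1 hϖ, Ideal.span_le]
      intro x hx
      rw [Set.mem_singleton_iff.1 hx]
      show f ϖ ∈ (⊥ : Ideal _)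
      rw [Ideal.mem_bot]
      exact Ideal.Quotient.eq_zero_iff_mem.2
        (pi_mem_pointBelow φ hφA y' y 𝔪 h𝔪.isPrime hφ hϖ𝔪)
    have h2 : (⊥ : Ideal (chartClosure A E' y' ⧸ 𝔪')).comap f ≠ ⊤ := by
      intro htop
      have : (1 : A) ∈ (⊥ : Ideal (chartClosure A E' y' ⧸ 𝔪')).comap f := by
        rw [htop]; exact Submodule.mem_top
      rw [Ideal.mem_comap, map_one, Ideal.mem_bot] at this
      exact one_ne_zero this
    rw [← (IsLocalRing.maximalIdeal.isMaximal A).eq_of_le h2 h1]
    exact IsLocalRing.maximalIdeal.isMaximal A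
  have hbot : (⊥ : Ideal (chartClosure A E' y' ⧸ 𝔪')).IsMaximal :=
    Ideal.isMaximal_of_isIntegral_of_isMaximal_comap' f hfint ⊥ hcomap
  exact (Ideal.bot_quotient_isMaximal_iff 𝔪').1 hbot

end Max

end Fermat.Agent.H99.SS2
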