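import Mathlib
import Fermat.Agent.H99.SS2.Through

/-!
# P-SS2, row SS2-C4 (helper99), part 4 : `UniqueAbove` from set-theoretic uniqueness (going-up)

Global situation `φ (B') ⊆ B` with `B` integral over `φ (B')`.

* `centreIdeal y V hBV` : the centre `B ∩ 𝔪_V` of a valuation subring `V ⊇ B`, a prime ideal.
* `uniqueAbove_of_subsingleton` : if `𝔪` is the only maximal ideal of `B` containing `φ (𝔪')`
  (`𝔪'` maximal) and `B` is integral over `φ (B')`, then `UniqueAbove` holds (going-up).
* `integral_of_map_chart` : `B` is integral over `φ (B')` when `φ y' = y`.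
-/

set_option autoImplicit false
set_option linter.unusedSectionVars false
set_option linter.style.haveILetI false

noncomputable section

namespace Fermat.Agent.H99.SS2

open Fermat.Agent.H22.KL

section Centre

variable {A : Type} [CommRing A] {E : Type} [Field E] [Algebra A E]

/-- The centre of `V ⊇ B(y)` on `B(y)`. -/
def centreIdeal (y : E) (V : ValuationSubring E) (hBV : ∀ z ∈ chartClosure A E y, z ∈ V) :
    Ideal (chartClosure A E y) where
  carrier := {b | (b : E) ∈ V.nonunits}
  add_mem' := fun ha hb => by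
    show ((_ + _ : chartClosure A E y) : E) ∈ V.nonunits
    push_cast
    exact add_mem_nonunits V ha hb
  zero_mem' := by
    show ((0 : chartClosure A E y) : E) ∈ V.nonunits
    push_cast
    exact zero_mem_nonunits V
  smul_mem' := fun c x hx => by
    show ((c • x : chartClosure A E y) : E) ∈ V.nonunits
    rw [smul_eq_mul]
    push_cast
    exact mul_mem_nonunits_left V (hBV _ c.2) hx

theorem mem_centreIdeal {y : E} {V : ValuationSubring E}
    {hBV : ∀ z ∈ chartClosure A E y, z ∈ V} {b : chartClosure A E y} :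
    b ∈ centreIdeal y V hBV ↔ (b : E) ∈ V.nonunits := Iff.rfl

theorem centreIdeal_isPrime (y : E) (V : ValuationSubring E)
    (hBV : ∀ z ∈ chartClosure A E y, z ∈ V) : (centreIdeal y V hBV).IsPrime := by
  refine ⟨?_, ?_⟩
  · intro htop
    have h1 : (1 : chartClosure A E y) ∈ centreIdeal y V hBV := by
      rw [htop]; exact Submodule.mem_top
    rw [mem_centreIdeal, ValuationSubring.mem_nonunits_iff] at h1
    simp at h1
  · intro a b hab
    rw [mem_centreIdeal] at hab
    by_contra hcon
    push Not at hcon
    apply mul_not_mem_nonunits (hBV _ a.2) (hBV _ b.2) hcon.1 hcon.2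
    simpa using hab

theorem passesThrough_iff_centreIdeal_le {y : E} {𝔪 : Ideal (chartClosure A E y)}
    {V : ValuationSubring E} (hBV : ∀ z ∈ chartClosure A E y, z ∈ V) :
    PassesThrough A E y 𝔪 V ↔ centreIdeal y V hBV ≤ 𝔪 :=
  Iff.rfl

end Centre

section GoingUp

variable {A : Type} [CommRing A] {E : Type} [Field E] [Algebra A E]
variable {E' : Type} [Field E'] [Algebra A E']
variable {φ : E' →+* E} {y' : E'} {y : E} {𝔪' : Ideal (chartClosure A E' y')}
  {𝔪 : Ideal (chartClosure A E y)}

/-- The restriction of `φ` to the charts. -/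
def chartMap (φ : E' →+* E) (y' : E') (y : E)
    (hφB : ∀ s : chartClosure A E' y', φ s ∈ chartClosure A E y) :
    chartClosure A E' y' →+* chartClosure A E y :=
  (φ.comp (algebraMap (chartClosure A E' y') E')).codRestrict (chartClosure A E y) hφB

theorem coe_chartMap (hφB : ∀ s : chartClosure A E' y', φ s ∈ chartClosure A E y)
    (s : chartClosure A E' y') : ((chartMap φ y' y hφB s : chartClosure A E y) : E) = φ s :=
  rfl

/-- **`UniqueAbove` by going-up.**  `φ (B') ⊆ B`, `B` integral over `φ (B')`, `𝔪'` maximal, and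
`𝔪` is the only maximal ideal of `B` containing `φ (𝔪')`. -/
theorem uniqueAbove_of_subsingleton
    (hφB : ∀ s : chartClosure A E' y', φ s ∈ chartClosure A E y)
    (hint : ∀ z ∈ chartClosure A E y, ∃ p : Polynomial (chartClosure A E' y'), p.Monic ∧
      Polynomial.eval₂ (φ.comp (algebraMap (chartClosure A E' y') E')) z p = 0)
    (h𝔪' : 𝔪'.IsMaximal)
    (huniq : ∀ 𝔫 : Ideal (chartClosure A E y), 𝔫.IsMaximal →
      (∀ s : chartClosure A E' y', s ∈ 𝔪' → (⟨φ s, hφB s⟩ : chartClosure A E y) ∈ 𝔫) → 𝔫 = 𝔪) :
    UniqueAbove A E E' φ y' y 𝔪' 𝔪 := by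
  intro V hBV hV'
  set f := chartMap φ y' y hφB with hf
  letI : Algebra (chartClosure A E' y') (chartClosure A E y) := f.toAlgebra
  have hfint : f.IsIntegral := by
    intro b
    obtain ⟨p, hp, hp0⟩ := hint (b : E) b.2
    refine ⟨p, hp, Subtype.ext ?_⟩
    have h1 := Polynomial.hom_eval₂ p f (algebraMap (chartClosure A E y) E) b
    have h2 : (algebraMap (chartClosure A E y) E).comp f =
        φ.comp (algebraMap (chartClosure A E' y') E') := by
      ext s; rfl
    rw [h2] at h1
    have h3 : algebraMap (chartClosure A E y) E b = (b : E) := rfl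
    rw [h3, hp0] at h1
    exact h1
  haveI : Algebra.IsIntegral (chartClosure A E' y') (chartClosure A E y) :=
    Algebra.isIntegral_def.mpr hfint
  haveI := h𝔪'.isPrime
  have hle : (centreIdeal y V hBV).comap (algebraMap (chartClosure A E' y')
      (chartClosure A E y)) ≤ 𝔪' := by
    intro s hs
    apply hV'
    rw [mem_nonunits_comap_iff]
    exact hs
  obtain ⟨Q, hQge, hQp, hQc⟩ :=
    Ideal.exists_ideal_over_prime_of_isIntegral 𝔪' (centreIdeal y V hBV) hle
  have hQmax : Q.IsMaximal :=
    Ideal.isMaximal_of_isIntegral_of_isMaximal_comap Q (hQc.symm ▸ h𝔪')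
  have hQ𝔪 : Q = 𝔪 := by
    apply huniq Q hQmax
    intro s hs
    have : s ∈ Q.comap (algebraMap (chartClosure A E' y') (chartClosure A E y)) := by
      rw [hQc]; exact hs
    exact this
  intro b hb
  rw [← hQ𝔪]
  exact hQge hb

end GoingUp

section Integral

variable {A : Type} [CommRing A] {E : Type} [Field E] [Algebra A E]
variable {E' : Type} [Field E'] [Algebra A E']

/-- `B(y)` is integral over `φ (B'(y'))` when `φ y' = y` (the case of `α`). -/
theorem integral_of_map_chart (φ : E' →+* E)
    (hφ : ∀ a : A, φ (algebraMap A E' a) = algebraMap A E a) {y' : E'} {y : E}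
    (hy : φ y' = y) (z : E) (hz : z ∈ chartClosure A E y) :
    ∃ p : Polynomial (chartClosure A E' y'), p.Monic ∧
      Polynomial.eval₂ (φ.comp (algebraMap (chartClosure A E' y') E')) z p = 0 := by
  classical
  -- `z` is integral over `A[y]`
  have hz' : IsIntegral (chartRing A E y) z := hz
  obtain ⟨P, hP, hP0⟩ := hz'
  -- every element of `A[y]` is the image of an element of `B'`
  have hlift : ∀ c : chartRing A E y, ∃ c' : chartClosure A E' y', φ c' = (c : E) := by
    rintro ⟨c, hc⟩
    have hc' : c ∈ Algebra.adjoin A ({y} : Set E) := hc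
    rw [Algebra.adjoin_singleton_eq_range_aeval] at hc'
    obtain ⟨p, rfl⟩ := hc'
    have hmem : Polynomial.aeval y' p ∈ chartClosure A E' y' := by
      apply Fermat.Agent.H89.klg_chartRing_le_chartClosure y'
      show Polynomial.aeval y' p ∈ Algebra.adjoin A ({y'} : Set E')
      rw [Algebra.adjoin_singleton_eq_range_aeval]
      exact ⟨p, rfl⟩
    refine ⟨⟨_, hmem⟩, ?_⟩
    show φ (Polynomial.aeval y' p) = Polynomial.aeval y p
    rw [Polynomial.aeval_def, Polynomial.aeval_def, Polynomial.hom_eval₂, hy]
    congr 1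
    ext a
    exact hφ a
  choose g hg using hlift
  -- lift the polynomial coefficientwise
  let Q : Polynomial (chartClosure A E' y') :=
    Polynomial.X ^ P.natDegree +
      ∑ i ∈ Finset.range P.natDegree, Polynomial.C (g (P.coeff i)) * Polynomial.X ^ i
  have hdeg : (∑ i ∈ Finset.range P.natDegree,
      Polynomial.C (g (P.coeff i)) * Polynomial.X ^ i).degree < (P.natDegree : WithBot ℕ) := by
    refine lt_of_le_of_lt (Polynomial.degree_sum_le _ _) ?_
    rw [Finset.sup_lt_iff (WithBot.bot_lt_coe _)]
    intro i hi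
    refine lt_of_le_of_lt (Polynomial.degree_C_mul_X_pow_le _ _) ?_
    exact_mod_cast Finset.mem_range.1 hi
  have hQ : Q.Monic := Polynomial.monic_X_pow_add hdeg
  refine ⟨Q, hQ, ?_⟩
  have hPeq : Polynomial.eval₂ (algebraMap (chartRing A E y) E) z P = 0 := hP0
  rw [Polynomial.eval₂_eq_sum_range] at hPeq
  rw [Finset.sum_range_succ, hP.coeff_natDegree, map_one, one_mul] at hPeq
  simp only [Q, Polynomial.eval₂_add, Polynomial.eval₂_pow, Polynomial.eval₂_X,
    Polynomial.eval₂_finsetSum, Polynomial.eval₂_mul, Polynomial.eval₂_C]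
  rw [add_comm]
  rw [← hPeq]
  congr 1
  refine Finset.sum_congr rfl fun i _ => ?_
  congr 1
  exact hg (P.coeff i)

end Integral

end Fermat.Agent.H99.SS2
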