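import Mathlib
import Fermat.Agent.H99.SS2.ClassRegSmVal3
import Fermat.Agent.H99.SS2.UniqueAdapters
import Fermat.Agent.H99.SS2.PointBelow
import Fermat.Agent.H19.SS2.AsmCoreDefs
import Fermat.Agent.H93.SS2.RegSSVal3

/-!
# P-SS2 (helper99) : the abstract per-point theorem `AsmPt`

The hypothesis `Fermat.Agent.H19.SS2.AsmPt` of ASM-CORE (helper19) at ONE closed point `𝔪` of the
special fibre, from

* the keystone interface `Fermat.Agent.H11.SS2.Val3Data` (helper11),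
* the level-`L` regularity `Fermat.Agent.H7.SS2.RegLAtOne` / `RegLAt` (helper7) at the two points
  `𝔪α`, `𝔪β` below `𝔪`,
* the Kronecker relations (inputs of `regss_val3_alpha`, `regss_val3_beta` of helper93),
* the regularity at the points lying on `V₁₁` only (REG11 / CUSP11), as a hypothesis.

Main statements:

* `map_mem_chartClosure_self` : `φ (B'(y')) ⊆ B(φ y')`.
* `above_of_liesOverAlong` : `LiesOverAlong` gives `φ (𝔪') ⊆ 𝔪`.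
* `asmOne_of_sep`, `asmBelow_of_unique` : the two constructors.
* `asmPt_of_class` : `AsmPt` from the four cases of `classRegSm`.
* `asmPt_val3` : **the per-point theorem** in a chart with nodes (`e = 1`).
* `asmPt_val3_smooth` : the per-point theorem at a point whose points below are not nodes
  (e.g. the cusps, in the chart `y⁻¹`).
-/

set_option autoImplicit false
set_option linter.unusedSectionVars false
set_option linter.unusedVariables false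
set_option linter.style.haveILetI false

noncomputable section

namespace Fermat.Agent.H99.SS2

open Fermat.Agent.H22.KL Fermat.Agent.H11.SS2 Fermat.Agent.H7.SS2 Fermat.Agent.H19.SS2

section Maps

variable {A : Type} [CommRing A] {E' : Type} [Field E'] [Algebra A E']
variable {E : Type} [Field E] [Algebra A E]

/-- `φ` maps `A[y']` into `A[φ y']`. -/
theorem map_mem_chartRing_self (φ : E' →+* E)
    (hφ : ∀ a : A, φ (algebraMap A E' a) = algebraMap A E a) {y' c : E'}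
    (hc : c ∈ chartRing A E' y') : φ c ∈ chartRing A E (φ y') := by
  have hc' : c ∈ Algebra.adjoin A ({y'} : Set E') := hc
  rw [Algebra.adjoin_singleton_eq_range_aeval] at hc'
  obtain ⟨p, rfl⟩ := hc'
  show φ (Polynomial.aeval y' p) ∈ Algebra.adjoin A ({φ y'} : Set E)
  rw [Algebra.adjoin_singleton_eq_range_aeval]
  refine ⟨p, ?_⟩
  show Polynomial.aeval (φ y') p = φ (Polynomial.aeval y' p)
  rw [Polynomial.aeval_def, Polynomial.aeval_def, Polynomial.hom_eval₂]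
  congr 1
  ext a
  exact (hφ a).symm

/-- `φ` maps `B'(y')` into `B(φ y')`. -/
theorem map_mem_chartClosure_self (φ : E' →+* E)
    (hφ : ∀ a : A, φ (algebraMap A E' a) = algebraMap A E a) {y' s : E'}
    (hs : s ∈ chartClosure A E' y') : φ s ∈ chartClosure A E (φ y') := by
  have hs' : IsIntegral (chartRing A E' y') s := hs
  show IsIntegral (chartRing A E (φ y')) (φ s)
  let ψ : chartRing A E' y' →+* chartRing A E (φ y') :=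
    { toFun := fun c => ⟨φ (c : E'), map_mem_chartRing_self φ hφ c.2⟩
      map_one' := Subtype.ext (map_one φ)
      map_mul' := fun _ _ => Subtype.ext (map_mul φ _ _)
      map_zero' := Subtype.ext (map_zero φ)
      map_add' := fun _ _ => Subtype.ext (map_add φ _ _) }
  exact IsIntegral.map_of_comp_eq ψ φ (by ext c; rfl) hs'

/-- `φ` maps `B'(y')` into `B(y)` when `B(φ y') = B(y)`. -/
theorem map_mem_chartClosure_of_eq (φ : E' →+* E)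
    (hφ : ∀ a : A, φ (algebraMap A E' a) = algebraMap A E a) {y' : E'} {y : E}
    (hch : chartClosure A E (φ y') = chartClosure A E y) :
    ∀ z ∈ chartClosure A E' y', φ z ∈ chartClosure A E y := fun z hz => by
  rw [← hch]
  exact map_mem_chartClosure_self φ hφ hz

/-- `B(y)` is integral over `φ (B'(y'))` when `B(φ y') = B(y)`. -/
theorem integral_of_chart_eq (φ : E' →+* E)
    (hφ : ∀ a : A, φ (algebraMap A E' a) = algebraMap A E a) {y' : E'} {y : E}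
    (hch : chartClosure A E (φ y') = chartClosure A E y) (z : E)
    (hz : z ∈ chartClosure A E y) :
    ∃ p : Polynomial (chartClosure A E' y'), p.Monic ∧
      Polynomial.eval₂ (φ.comp (algebraMap (chartClosure A E' y') E')) z p = 0 := by
  rw [← hch] at hz
  exact integral_of_map_chart φ hφ rfl z hz

/-- `LiesOverAlong` gives `φ (𝔪') ⊆ 𝔪`. -/
theorem above_of_liesOverAlong {φ : E' →+* E} {y' : E'} {y : E}
    {𝔪' : Ideal (chartClosure A E' y')} {𝔪 : Ideal (chartClosure A E y)} (h𝔪 : 𝔪.IsPrime)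
    (hL : LiesOverAlong A E E' φ y' y 𝔪' 𝔪)
    (hφB : ∀ z ∈ chartClosure A E' y', φ z ∈ chartClosure A E y)
    (s : chartClosure A E' y') (hs : s ∈ 𝔪') :
    (⟨φ s, hφB s s.2⟩ : chartClosure A E y) ∈ 𝔪 := by
  obtain ⟨b, hb, c, hc, hbc⟩ := (hL.2 s).1 hs
  have h1 : b * (⟨φ s, hφB s s.2⟩ : chartClosure A E y) = c := Subtype.ext hbc
  have h2 : b * (⟨φ s, hφB s s.2⟩ : chartClosure A E y) ∈ 𝔪 := by
    rw [h1]; exact hc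
  exact (h𝔪.mem_or_mem h2).resolve_left hb

end Maps

section Constructors

variable {A : Type} [CommRing A] {E' : Type} [Field E'] [Algebra A E']
variable {E : Type} [Field E] [Algebra A E]

/-- `AsmOne` from separating elements and a regular system of parameters. -/
theorem asmOne_of_sep {q : ℕ} {V W₁ W₂ : ValuationSubring E} {y : E}
    {𝔪 : Ideal (chartClosure A E y)}
    (h1 : ∃ s : chartClosure A E y, (s : E) ∈ W₁.nonunits ∧ s ∉ 𝔪)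
    (h2 : ∃ s : chartClosure A E y, (s : E) ∈ W₂.nonunits ∧ s ∉ 𝔪)
    (h : ∃ x₁ x₂ : E, IsRegPoint A E ((q : ℕ) : A) y 𝔪 V x₁ x₂) :
    AsmOne A E q V W₁ W₂ y 𝔪 := by
  obtain ⟨s₁, hs₁, hs₁'⟩ := h1
  obtain ⟨s₂, hs₂, hs₂'⟩ := h2
  exact ⟨fun hT => hs₁' (hT s₁ hs₁), fun hT => hs₂' (hT s₂ hs₂), h⟩

/-- `AsmBelow` from the uniqueness of the point above `𝔪'` in the form of `regss_val3_alpha`,
`regss_val3_beta`. -/
theorem asmBelow_of_unique (φ : E' →+* E) (O₁ O₂ : ValuationSubring E') {y' : E'} {y : E}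
    (hch : chartClosure A E (φ y') = chartClosure A E y)
    (hφB : ∀ z ∈ chartClosure A E' y', φ z ∈ chartClosure A E y)
    (𝔪' : Ideal (chartClosure A E' y')) (h𝔪' : 𝔪'.IsMaximal)
    (hB₁ : ∀ s ∈ chartClosure A E' y', s ∈ O₁) (hB₂ : ∀ s ∈ chartClosure A E' y', s ∈ O₂)
    (hT₁ : Through A E' y' 𝔪' O₁) (hT₂ : Through A E' y' 𝔪' O₂)
    (𝔪 : Ideal (chartClosure A E y)) (h𝔪 : 𝔪.IsMaximal)
    (habove : ∀ s : chartClosure A E' y', s ∈ 𝔪' →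
      (⟨φ s, hφB s s.2⟩ : chartClosure A E y) ∈ 𝔪)
    (huniq : ∀ 𝔪₁ 𝔪₂ : Ideal (chartClosure A E y), 𝔪₁.IsMaximal → 𝔪₂.IsMaximal →
      (∀ s : chartClosure A E' y', s ∈ 𝔪' →
        (⟨φ s, hφB s s.2⟩ : chartClosure A E y) ∈ 𝔪₁) →
      (∀ s : chartClosure A E' y', s ∈ 𝔪' →
        (⟨φ s, hφB s s.2⟩ : chartClosure A E y) ∈ 𝔪₂) → 𝔪₁ = 𝔪₂) :
    AsmBelow A E' E φ O₁ O₂ y 𝔪 :=
  ⟨y', 𝔪', hch, h𝔪', hB₁, hB₂, hT₁, hT₂, fun 𝔫 h𝔫 h =>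
    huniq 𝔫 𝔪 h𝔫 h𝔪 (fun s hs => h s hs _ rfl) habove⟩

/-- **`AsmPt` from the four cases of `classRegSm`.** -/
theorem asmPt_of_class {q : ℕ} {α β : E' →+* E} {O₁ O₂ : ValuationSubring E'}
    {V₂₀ V₁₁ V₀₂ : ValuationSubring E} {y' : E'} {y : E} {𝔪 : Ideal (chartClosure A E y)}
    {𝔪α 𝔪β : Ideal (chartClosure A E' y')}
    (hclass : (Through A E y 𝔪 V₂₀ ∧ Through A E y 𝔪 V₁₁ ∧ Through A E y 𝔪 V₀₂ ∧
        Through A E' y' 𝔪α O₁ ∧ Through A E' y' 𝔪α O₂ ∧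
        Through A E' y' 𝔪β O₁ ∧ Through A E' y' 𝔪β O₂) ∨
      (Through A E y 𝔪 V₂₀ ∧
        (∃ s : chartClosure A E y, (s : E) ∈ V₁₁.nonunits ∧ s ∉ 𝔪) ∧
        (∃ s : chartClosure A E y, (s : E) ∈ V₀₂.nonunits ∧ s ∉ 𝔪) ∧
        ∃ U : E, IsRegPoint A E ((q : ℕ) : A) y 𝔪 V₂₀ (algebraMap A E ((q : ℕ) : A)) U) ∨
      (Through A E y 𝔪 V₁₁ ∧
        (∃ s : chartClosure A E y, (s : E) ∈ V₂₀.nonunits ∧ s ∉ 𝔪) ∧
        (∃ s : chartClosure A E y, (s : E) ∈ V₀₂.nonunits ∧ s ∉ 𝔪) ∧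
        Through A E' y' 𝔪α O₁ ∧ ¬ Through A E' y' 𝔪α O₂ ∧
        Through A E' y' 𝔪β O₂ ∧ ¬ Through A E' y' 𝔪β O₁) ∨
      (Through A E y 𝔪 V₀₂ ∧
        (∃ s : chartClosure A E y, (s : E) ∈ V₂₀.nonunits ∧ s ∉ 𝔪) ∧
        (∃ s : chartClosure A E y, (s : E) ∈ V₁₁.nonunits ∧ s ∉ 𝔪) ∧
        ∃ U : E, IsRegPoint A E ((q : ℕ) : A) y 𝔪 V₀₂ (algebraMap A E ((q : ℕ) : A)) U))
    (h3 : Through A E y 𝔪 V₂₀ → Through A E y 𝔪 V₁₁ → Through A E y 𝔪 V₀₂ →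
      Through A E' y' 𝔪α O₁ → Through A E' y' 𝔪α O₂ →
      Through A E' y' 𝔪β O₁ → Through A E' y' 𝔪β O₂ →
      AsmThree A E' E q α β O₁ O₂ V₂₀ V₁₁ V₀₂ y 𝔪)
    (h11 : Through A E y 𝔪 V₁₁ → ¬ Through A E y 𝔪 V₂₀ → ¬ Through A E y 𝔪 V₀₂ →
      Through A E' y' 𝔪α O₁ → ¬ Through A E' y' 𝔪α O₂ →
      Through A E' y' 𝔪β O₂ → ¬ Through A E' y' 𝔪β O₁ →
      ∃ x₁ x₂ : E, IsRegPoint A E ((q : ℕ) : A) y 𝔪 V₁₁ x₁ x₂) :
    AsmPt A E' E q α β O₁ O₂ V₂₀ V₁₁ V₀₂ y 𝔪 := by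
  rcases hclass with ⟨a, b, c, d, e, f, g⟩ | ⟨-, s1, s2, U, hU⟩ | ⟨t, s1, s2, a, b, c, d⟩ |
    ⟨-, s1, s2, U, hU⟩
  · exact Or.inl (h3 a b c d e f g)
  · exact Or.inr (Or.inl (asmOne_of_sep s1 s2 ⟨_, U, hU⟩))
  · refine Or.inr (Or.inr (Or.inl (asmOne_of_sep s1 s2 ?_)))
    obtain ⟨u₁, hu₁, hu₁'⟩ := s1
    obtain ⟨u₂, hu₂, hu₂'⟩ := s2
    exact h11 t (fun hT => hu₁' (hT u₁ hu₁)) (fun hT => hu₂' (hT u₂ hu₂)) a b c d
  · exact Or.inr (Or.inr (Or.inr (asmOne_of_sep s1 s2 ⟨_, U, hU⟩)))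

end Constructors

section Main

variable {A : Type} [CommRing A] [IsDomain A] [IsDiscreteValuationRing A]
variable {E' : Type} [Field E'] [Algebra A E'] [CharZero E']
variable {E : Type} [Field E] [Algebra A E] [CharZero E]

/-- The node relation `X Y = ϖ ψ` from `IsLocUnit (X Y / ϖ)`. -/
theorem node_rel_of_div (hinj' : Function.Injective (algebraMap A E')) {ϖ : A}
    (hϖ : Irreducible ϖ) (X Y : E') :
    X * Y = algebraMap A E' ϖ * (X * Y / algebraMap A E' ϖ) := by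
  have h0 : algebraMap A E' ϖ ≠ 0 := fun h => hϖ.ne_zero (hinj' (by rw [h, map_zero]))
  rw [mul_div_cancel₀ _ h0]

/-- **The per-point theorem** (chart with nodes, `e = 1`): the hypothesis `AsmPt` of ASM-CORE at
a closed point `𝔪` of the special fibre, from `Val3Data`, `RegLAtOne` at the two points below,
the two Kronecker relations and REG11. -/
theorem asmPt_val3 (hH : Fermat.Agent.H45.LocalHartogsStatement)
    (hinj' : Function.Injective (algebraMap A E'))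
    (hinj : Function.Injective (algebraMap A E))
    (q : ℕ) (hq2 : 2 ≤ q) (hq : Irreducible ((q : ℕ) : A))
    {y' : E'} (hy' : Transcendental A y')
    (hfd' : ∃ n : ℕ, Nonempty (Module.Basis (Fin n) (chartField A E' y') E'))
    {y : E} (hy : Transcendental A y)
    (hfd : ∃ n : ℕ, Nonempty (Module.Basis (Fin n) (chartField A E y) E))
    (α β : E' →+* E) (hα : ∀ a : A, α (algebraMap A E' a) = algebraMap A E a)
    (hβ : ∀ a : A, β (algebraMap A E' a) = algebraMap A E a)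
    (hcα : chartClosure A E (α y') = chartClosure A E y)
    (hcβ : chartClosure A E (β y') = chartClosure A E y)
    (O₁ O₂ : ValuationSubring E') (V₂₀ V₁₁ V₀₂ : ValuationSubring E) (X₁ Y₁ : E') (Z : E)
    (hval : Val3Data α β O₁ O₂ V₂₀ V₁₁ V₀₂ q Y₁ Z)
    (hV20 : IsVertical A E ((q : ℕ) : A) y V₂₀) (hV11 : IsVertical A E ((q : ℕ) : A) y V₁₁)
    (hV02 : IsVertical A E ((q : ℕ) : A) y V₀₂)
    (hgauss : ∀ z : E, z ∈ V₂₀ → z ∈ V₁₁ → z ∈ V₀₂ → z ∈ gaussClosure A E ((q : ℕ) : A) y)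
    (hfrac10 : ∀ z' ∈ O₁, ∃ d₁ d₂ : chartClosure A E' y',
      (d₂ : E') ∉ O₁.nonunits ∧ z' * (d₂ : E') = d₁)
    (hfrac01 : ∀ z' ∈ O₂, ∃ d₁ d₂ : chartClosure A E' y',
      (d₂ : E') ∉ O₂.nonunits ∧ z' * (d₂ : E') = d₁)
    -- the Kronecker relations
    (hX₂ : β X₁ = Z + α Y₁) (hZ : Z ∈ chartClosure A E y)
    (𝔪 : Ideal (chartClosure A E y)) (h𝔪 : 𝔪.IsMaximal)
    (hq𝔪 : algebraMap A (chartClosure A E y) ((q : ℕ) : A) ∈ 𝔪)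
    (𝔪α 𝔪β : Ideal (chartClosure A E' y')) (h𝔪α : 𝔪α.IsMaximal) (h𝔪β : 𝔪β.IsMaximal)
    (hq𝔪α : algebraMap A (chartClosure A E' y') ((q : ℕ) : A) ∈ 𝔪α)
    (hq𝔪β : algebraMap A (chartClosure A E' y') ((q : ℕ) : A) ∈ 𝔪β)
    (hLα : LiesOverAlong A E E' α y' y 𝔪α 𝔪) (hLβ : LiesOverAlong A E E' β y' y 𝔪β 𝔪)
    (hregα : RegLAtOne A E' ((q : ℕ) : A) y' 𝔪α O₁ O₂ X₁ Y₁)
    (hregβ : RegLAtOne A E' ((q : ℕ) : A) y' 𝔪β O₁ O₂ X₁ Y₁)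
    (Gα Gβ : E)
    (hGα : ∀ 𝔫 : Ideal (chartClosure A E y), 𝔫.IsMaximal →
      (∀ s : chartClosure A E' y', s ∈ 𝔪α →
        (⟨α s, map_mem_chartClosure_of_eq α hα hcα s s.2⟩ : chartClosure A E y) ∈ 𝔫) →
      Fermat.Agent.H11.SS2.InLoc A E y 𝔫 Gα)
    (hrelα : Z ^ (q - 1) * (Z + α Y₁) - α X₁ + algebraMap A E ((q : ℕ) : A) * Gα = 0)
    (hGβ : ∀ 𝔫 : Ideal (chartClosure A E y), 𝔫.IsMaximal →
      (∀ s : chartClosure A E' y', s ∈ 𝔪β →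
        (⟨β s, map_mem_chartClosure_of_eq β hβ hcβ s s.2⟩ : chartClosure A E y) ∈ 𝔫) →
      Fermat.Agent.H11.SS2.InLoc A E y 𝔫 Gβ)
    (hrelβ : (-Z) ^ (q - 1) * (-Z + β X₁) - β Y₁ + algebraMap A E ((q : ℕ) : A) * Gβ = 0)
    -- REG11 / CUSP11
    (h11 : Through A E y 𝔪 V₁₁ → ¬ Through A E y 𝔪 V₂₀ → ¬ Through A E y 𝔪 V₀₂ →
      Through A E' y' 𝔪α O₁ → ¬ Through A E' y' 𝔪α O₂ →
      Through A E' y' 𝔪β O₂ → ¬ Through A E' y' 𝔪β O₁ →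
      ∃ x₁ x₂ : E, IsRegPoint A E ((q : ℕ) : A) y 𝔪 V₁₁ x₁ x₂) :
    AsmPt A E' E q α β O₁ O₂ V₂₀ V₁₁ V₀₂ y 𝔪 := by
  classical
  have h𝔪p : 𝔪.IsPrime := h𝔪.isPrime
  have hαB := map_mem_chartClosure_of_eq α hα hcα
  have hβB := map_mem_chartClosure_of_eq β hβ hcβ
  have habα := above_of_liesOverAlong h𝔪p hLα hαB
  have habβ := above_of_liesOverAlong h𝔪p hLβ hβB
  -- the nodes below
  have hnodeα : Through A E' y' 𝔪α O₁ → Through A E' y' 𝔪α O₂ →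
      IsRegPoint A E' ((q : ℕ) : A) y' 𝔪α O₁ X₁ Y₁ ∧
        IsRegPoint A E' ((q : ℕ) : A) y' 𝔪α O₂ Y₁ X₁ ∧
        IsLocUnit A E' y' 𝔪α (X₁ * Y₁ / algebraMap A E' ((q : ℕ) : A)) := by
    intro h1 h2
    rcases hregα with ⟨h, -⟩ | ⟨h, -⟩ | h
    · exact absurd h2 h
    · exact absurd h1 h
    · exact h
  have hnodeβ : Through A E' y' 𝔪β O₁ → Through A E' y' 𝔪β O₂ →
      IsRegPoint A E' ((q : ℕ) : A) y' 𝔪β O₁ X₁ Y₁ ∧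
        IsRegPoint A E' ((q : ℕ) : A) y' 𝔪β O₂ Y₁ X₁ ∧
        IsLocUnit A E' y' 𝔪β (X₁ * Y₁ / algebraMap A E' ((q : ℕ) : A)) := by
    intro h1 h2
    rcases hregβ with ⟨h, -⟩ | ⟨h, -⟩ | h
    · exact absurd h2 h
    · exact absurd h1 h
    · exact h
  have hssα := fun (h1 : Through A E' y' 𝔪α O₁) (h2 : Through A E' y' 𝔪α O₂) =>
    Fermat.Agent.H93.SS2.regss_val3_alpha A E' E hH ((q : ℕ) : A) hq hinj' y' hy' hfd' 𝔪α h𝔪α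
      hq𝔪α O₁ O₂ X₁ Y₁ (X₁ * Y₁ / algebraMap A E' ((q : ℕ) : A)) (hnodeα h1 h2).2.1
      (hnodeα h1 h2).2.2 (node_rel_of_div hinj' hq X₁ Y₁) hinj y hy hfd α β hα hαB q hq2
      V₂₀ V₁₁ V₀₂ Z hval hV20 hV11 hV02 hgauss Gα hZ hGα hrelα
  have hssβ := fun (h1 : Through A E' y' 𝔪β O₁) (h2 : Through A E' y' 𝔪β O₂) =>
    Fermat.Agent.H93.SS2.regss_val3_beta A E' E hH ((q : ℕ) : A) hq hinj' y' hy' hfd' 𝔪β h𝔪β
      hq𝔪β O₁ O₂ X₁ Y₁ (X₁ * Y₁ / algebraMap A E' ((q : ℕ) : A)) (hnodeβ h1 h2).1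
      (hnodeβ h1 h2).2.2 (node_rel_of_div hinj' hq X₁ Y₁) hinj y hy hfd α β hβ hβB q hq2
      V₂₀ V₁₁ V₀₂ Z hval hX₂ hV20 hV11 hV02 hgauss Gβ hZ hGβ hrelβ
  have hUα : Through A E' y' 𝔪α O₁ → Through A E' y' 𝔪α O₂ →
      UniqueAbove A E E' α y' y 𝔪α 𝔪 := fun h1 h2 =>
    uniqueAbove_of_subsingleton (fun s => hαB s s.2) (integral_of_chart_eq α hα hcα) h𝔪α
      (fun 𝔫 h𝔫 h => (hssα h1 h2).2 𝔫 𝔪 h𝔫 h𝔪 h habα)
  have hUβ : Through A E' y' 𝔪β O₁ → Through A E' y' 𝔪β O₂ →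
      UniqueAbove A E E' β y' y 𝔪β 𝔪 := fun h1 h2 =>
    uniqueAbove_of_subsingleton (fun s => hβB s s.2) (integral_of_chart_eq β hβ hcβ) h𝔪β
      (fun 𝔫 h𝔫 h => (hssβ h1 h2).2 𝔫 𝔪 h𝔫 h𝔪 h habβ)
  have hclass := classRegSm_val3 hinj' hinj q hq hy' hfd' hy α β hα hβ O₁ O₂ V₂₀ V₁₁ V₀₂ Y₁ Z
    hval hV20 hV11 hV02 hgauss hfrac10 hfrac01 𝔪 h𝔪p hq𝔪 𝔪α 𝔪β h𝔪α.isPrime h𝔪β.isPrime hLα hLβ
    X₁ Y₁ (hregα.regLAt h𝔪α.ne_top) (hregβ.regLAt h𝔪β.ne_top) hUα hUβ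
  refine asmPt_of_class hclass ?_ h11
  intro _ _ _ a1 a2 b1 b2
  have hB : ∀ (O : ValuationSubring E'), IsVertical A E' ((q : ℕ) : A) y' O →
      ∀ s ∈ chartClosure A E' y', s ∈ O := fun O hO s hs =>
    hO.2.2.1 s (Fermat.Agent.H89.klg_chartClosure_le_gaussClosure hq hy' hs)
  have hB₁ := hB O₁ (hnodeα a1 a2).1.vert
  have hB₂ := hB O₂ (hnodeα a1 a2).2.1.vert
  refine ⟨Or.inl ⟨α Y₁, Z, (hssα a1 a2).1 𝔪 h𝔪 habα⟩, ?_, ?_⟩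
  · exact asmBelow_of_unique α O₁ O₂ hcα hαB 𝔪α h𝔪α hB₁ hB₂ a1 a2 𝔪 h𝔪 habα (hssα a1 a2).2
  · exact asmBelow_of_unique β O₁ O₂ hcβ hβB 𝔪β h𝔪β hB₁ hB₂ b1 b2 𝔪 h𝔪 habβ (hssβ b1 b2).2

/-- **The per-point theorem at a point whose points below are not nodes** (the cusps, in the
chart `y⁻¹`): no chart equality, no Kronecker relation. -/
theorem asmPt_val3_smooth (hinj' : Function.Injective (algebraMap A E'))
    (hinj : Function.Injective (algebraMap A E))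
    (q : ℕ) (hq : Irreducible ((q : ℕ) : A))
    {y' : E'} (hy' : Transcendental A y')
    (hfd' : ∃ n : ℕ, Nonempty (Module.Basis (Fin n) (chartField A E' y') E'))
    {y : E} (hy : Transcendental A y)
    (α β : E' →+* E) (hα : ∀ a : A, α (algebraMap A E' a) = algebraMap A E a)
    (hβ : ∀ a : A, β (algebraMap A E' a) = algebraMap A E a)
    (O₁ O₂ : ValuationSubring E') (V₂₀ V₁₁ V₀₂ : ValuationSubring E) (X₁ Y₁ : E') (Z : E)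
    (hval : Val3Data α β O₁ O₂ V₂₀ V₁₁ V₀₂ q Y₁ Z)
    (hV20 : IsVertical A E ((q : ℕ) : A) y V₂₀) (hV11 : IsVertical A E ((q : ℕ) : A) y V₁₁)
    (hV02 : IsVertical A E ((q : ℕ) : A) y V₀₂)
    (hgauss : ∀ z : E, z ∈ V₂₀ → z ∈ V₁₁ → z ∈ V₀₂ → z ∈ gaussClosure A E ((q : ℕ) : A) y)
    (hfrac10 : ∀ z' ∈ O₁, ∃ d₁ d₂ : chartClosure A E' y',
      (d₂ : E') ∉ O₁.nonunits ∧ z' * (d₂ : E') = d₁)
    (hfrac01 : ∀ z' ∈ O₂, ∃ d₁ d₂ : chartClosure A E' y',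
      (d₂ : E') ∉ O₂.nonunits ∧ z' * (d₂ : E') = d₁)
    (𝔪 : Ideal (chartClosure A E y)) (h𝔪 : 𝔪.IsPrime)
    (hq𝔪 : algebraMap A (chartClosure A E y) ((q : ℕ) : A) ∈ 𝔪)
    (𝔪α 𝔪β : Ideal (chartClosure A E' y')) (h𝔪α : 𝔪α.IsPrime) (h𝔪β : 𝔪β.IsPrime)
    (hLα : LiesOverAlong A E E' α y' y 𝔪α 𝔪) (hLβ : LiesOverAlong A E E' β y' y 𝔪β 𝔪)
    (hregα : RegLAt A E' ((q : ℕ) : A) y' 𝔪α O₁ O₂ X₁ Y₁)
    (hregβ : RegLAt A E' ((q : ℕ) : A) y' 𝔪β O₁ O₂ X₁ Y₁)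
    (hsmα : ¬ (Through A E' y' 𝔪α O₁ ∧ Through A E' y' 𝔪α O₂))
    (hsmβ : ¬ (Through A E' y' 𝔪β O₁ ∧ Through A E' y' 𝔪β O₂))
    (h11 : Through A E y 𝔪 V₁₁ → ¬ Through A E y 𝔪 V₂₀ → ¬ Through A E y 𝔪 V₀₂ →
      Through A E' y' 𝔪α O₁ → ¬ Through A E' y' 𝔪α O₂ →
      Through A E' y' 𝔪β O₂ → ¬ Through A E' y' 𝔪β O₁ →
      ∃ x₁ x₂ : E, IsRegPoint A E ((q : ℕ) : A) y 𝔪 V₁₁ x₁ x₂) :
    AsmPt A E' E q α β O₁ O₂ V₂₀ V₁₁ V₀₂ y 𝔪 := by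
  have hclass := classRegSm_val3 hinj' hinj q hq hy' hfd' hy α β hα hβ O₁ O₂ V₂₀ V₁₁ V₀₂ Y₁ Z
    hval hV20 hV11 hV02 hgauss hfrac10 hfrac01 𝔪 h𝔪 hq𝔪 𝔪α 𝔪β h𝔪α h𝔪β hLα hLβ
    X₁ Y₁ hregα hregβ (fun h1 h2 => absurd ⟨h1, h2⟩ hsmα) (fun h1 h2 => absurd ⟨h1, h2⟩ hsmβ)
  exact asmPt_of_class hclass (fun _ _ _ a1 a2 _ _ => absurd ⟨a1, a2⟩ hsmα) h11

/-- **The per-point theorem with the points below constructed** (`𝔪α = α⁻¹ (𝔪)`,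
`𝔪β = β⁻¹ (𝔪)`): chart with nodes, `RegLAtOne` at every closed point of level `L`. -/
theorem asmPt_val3_below (hH : Fermat.Agent.H45.LocalHartogsStatement)
    (hinj' : Function.Injective (algebraMap A E'))
    (hinj : Function.Injective (algebraMap A E))
    (q : ℕ) (hq2 : 2 ≤ q) (hq : Irreducible ((q : ℕ) : A))
    {y' : E'} (hy' : Transcendental A y')
    (hfd' : ∃ n : ℕ, Nonempty (Module.Basis (Fin n) (chartField A E' y') E'))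
    {y : E} (hy : Transcendental A y)
    (hfd : ∃ n : ℕ, Nonempty (Module.Basis (Fin n) (chartField A E y) E))
    (α β : E' →+* E) (hα : ∀ a : A, α (algebraMap A E' a) = algebraMap A E a)
    (hβ : ∀ a : A, β (algebraMap A E' a) = algebraMap A E a)
    (hcα : chartClosure A E (α y') = chartClosure A E y)
    (hcβ : chartClosure A E (β y') = chartClosure A E y)
    (O₁ O₂ : ValuationSubring E') (V₂₀ V₁₁ V₀₂ : ValuationSubring E) (X₁ Y₁ : E') (Z : E)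
    (hval : Val3Data α β O₁ O₂ V₂₀ V₁₁ V₀₂ q Y₁ Z)
    (hV20 : IsVertical A E ((q : ℕ) : A) y V₂₀) (hV11 : IsVertical A E ((q : ℕ) : A) y V₁₁)
    (hV02 : IsVertical A E ((q : ℕ) : A) y V₀₂)
    (hgauss : ∀ z : E, z ∈ V₂₀ → z ∈ V₁₁ → z ∈ V₀₂ → z ∈ gaussClosure A E ((q : ℕ) : A) y)
    (hfrac10 : ∀ z' ∈ O₁, ∃ d₁ d₂ : chartClosure A E' y',
      (d₂ : E') ∉ O₁.nonunits ∧ z' * (d₂ : E') = d₁)
    (hfrac01 : ∀ z' ∈ O₂, ∃ d₁ d₂ : chartClosure A E' y',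
      (d₂ : E') ∉ O₂.nonunits ∧ z' * (d₂ : E') = d₁)
    (hregL : ∀ 𝔪' : Ideal (chartClosure A E' y'), 𝔪'.IsMaximal →
      algebraMap A (chartClosure A E' y') ((q : ℕ) : A) ∈ 𝔪' →
      RegLAtOne A E' ((q : ℕ) : A) y' 𝔪' O₁ O₂ X₁ Y₁)
    (hX₂ : β X₁ = Z + α Y₁) (hZ : Z ∈ chartClosure A E y)
    (Gα Gβ : E)
    (hGα : ∀ 𝔫 : Ideal (chartClosure A E y), 𝔫.IsMaximal →
      algebraMap A (chartClosure A E y) ((q : ℕ) : A) ∈ 𝔫 →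
      Fermat.Agent.H11.SS2.InLoc A E y 𝔫 Gα)
    (hrelα : Z ^ (q - 1) * (Z + α Y₁) - α X₁ + algebraMap A E ((q : ℕ) : A) * Gα = 0)
    (hGβ : ∀ 𝔫 : Ideal (chartClosure A E y), 𝔫.IsMaximal →
      algebraMap A (chartClosure A E y) ((q : ℕ) : A) ∈ 𝔫 →
      Fermat.Agent.H11.SS2.InLoc A E y 𝔫 Gβ)
    (hrelβ : (-Z) ^ (q - 1) * (-Z + β X₁) - β Y₁ + algebraMap A E ((q : ℕ) : A) * Gβ = 0)
    (𝔪 : Ideal (chartClosure A E y)) (h𝔪 : 𝔪.IsMaximal)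
    (hq𝔪 : algebraMap A (chartClosure A E y) ((q : ℕ) : A) ∈ 𝔪)
    (h11 : ∀ 𝔪α 𝔪β : Ideal (chartClosure A E' y'), 𝔪α.IsMaximal → 𝔪β.IsMaximal →
      LiesOverAlong A E E' α y' y 𝔪α 𝔪 → LiesOverAlong A E E' β y' y 𝔪β 𝔪 →
      Through A E y 𝔪 V₁₁ → ¬ Through A E y 𝔪 V₂₀ → ¬ Through A E y 𝔪 V₀₂ →
      Through A E' y' 𝔪α O₁ → ¬ Through A E' y' 𝔪α O₂ →
      Through A E' y' 𝔪β O₂ → ¬ Through A E' y' 𝔪β O₁ →
      ∃ x₁ x₂ : E, IsRegPoint A E ((q : ℕ) : A) y 𝔪 V₁₁ x₁ x₂) :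
    AsmPt A E' E q α β O₁ O₂ V₂₀ V₁₁ V₀₂ y 𝔪 := by
  have h𝔪p : 𝔪.IsPrime := h𝔪.isPrime
  have hαB := map_mem_chartClosure_of_eq α hα hcα
  have hβB := map_mem_chartClosure_of_eq β hβ hcβ
  have hφα : ∀ s : chartClosure A E' y', Fermat.Agent.H99.SS2.InLoc A E y 𝔪 (α s) :=
    fun s => InLoc.of_mem h𝔪p (hαB s s.2)
  have hφβ : ∀ s : chartClosure A E' y', Fermat.Agent.H99.SS2.InLoc A E y 𝔪 (β s) :=
    fun s => InLoc.of_mem h𝔪p (hβB s s.2)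
  have hmα := pointBelow_isMaximal hinj hq hy hfd α hα y' 𝔪 h𝔪 hq𝔪 hφα
  have hmβ := pointBelow_isMaximal hinj hq hy hfd β hβ y' 𝔪 h𝔪 hq𝔪 hφβ
  have hqα := pi_mem_pointBelow α hα y' y 𝔪 h𝔪p hφα hq𝔪
  have hqβ := pi_mem_pointBelow β hβ y' y 𝔪 h𝔪p hφβ hq𝔪
  have hLα := liesOverAlong_pointBelow α y' y 𝔪 h𝔪p hφα
  have hLβ := liesOverAlong_pointBelow β y' y 𝔪 h𝔪p hφβ
  have hq𝔫 : ∀ (φ : E' →+* E) (hφ : ∀ a : A, φ (algebraMap A E' a) = algebraMap A E a)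
      (hφB : ∀ z ∈ chartClosure A E' y', φ z ∈ chartClosure A E y)
      (𝔪' : Ideal (chartClosure A E' y'))
      (hq' : algebraMap A (chartClosure A E' y') ((q : ℕ) : A) ∈ 𝔪')
      (𝔫 : Ideal (chartClosure A E y)),
      (∀ s : chartClosure A E' y', s ∈ 𝔪' →
        (⟨φ s, hφB s s.2⟩ : chartClosure A E y) ∈ 𝔫) →
      algebraMap A (chartClosure A E y) ((q : ℕ) : A) ∈ 𝔫 := by
    intro φ hφ hφB 𝔪' hq' 𝔫 h
    have h1 := h _ hq'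
    have e : (⟨φ ((algebraMap A (chartClosure A E' y') ((q : ℕ) : A) :
        chartClosure A E' y') : E'), hφB _ (algebraMap A (chartClosure A E' y')
          ((q : ℕ) : A)).2⟩ : chartClosure A E y)
        = algebraMap A (chartClosure A E y) ((q : ℕ) : A) := Subtype.ext (hφ _)
    rwa [e] at h1
  exact asmPt_val3 hH hinj' hinj q hq2 hq hy' hfd' hy hfd α β hα hβ hcα hcβ O₁ O₂ V₂₀ V₁₁ V₀₂
    X₁ Y₁ Z hval hV20 hV11 hV02 hgauss hfrac10 hfrac01 hX₂ hZ 𝔪 h𝔪 hq𝔪 _ _ hmα hmβ hqα hqβ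
    hLα hLβ (hregL _ hmα hqα) (hregL _ hmβ hqβ) Gα Gβ
    (fun 𝔫 h𝔫 h => hGα 𝔫 h𝔫 (hq𝔫 α hα hαB _ hqα 𝔫 h)) hrelα
    (fun 𝔫 h𝔫 h => hGβ 𝔫 h𝔫 (hq𝔫 β hβ hβB _ hqβ 𝔫 h)) hrelβ
    (h11 _ _ hmα hmβ hLα hLβ)

/-- **The per-point theorem at a cusp, with the points below constructed**: chart `y` (`= x⁻¹`),
`y ∈ 𝔪`; `α y' = y`, `β y' ∈ 𝔪 B_𝔪`, the charts of level `L` map into `B_𝔪`, and the cusps of
level `L` (`y' ∈ 𝔪'`) are not nodes. -/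
theorem asmPt_val3_cusp_below (hinj' : Function.Injective (algebraMap A E'))
    (hinj : Function.Injective (algebraMap A E))
    (q : ℕ) (hq : Irreducible ((q : ℕ) : A))
    {y' : E'} (hy' : Transcendental A y')
    (hfd' : ∃ n : ℕ, Nonempty (Module.Basis (Fin n) (chartField A E' y') E'))
    {y : E} (hy : Transcendental A y)
    (hfd : ∃ n : ℕ, Nonempty (Module.Basis (Fin n) (chartField A E y) E))
    (α β : E' →+* E) (hα : ∀ a : A, α (algebraMap A E' a) = algebraMap A E a)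
    (hβ : ∀ a : A, β (algebraMap A E' a) = algebraMap A E a)
    (O₁ O₂ : ValuationSubring E') (V₂₀ V₁₁ V₀₂ : ValuationSubring E) (X₁ Y₁ : E') (Z : E)
    (hval : Val3Data α β O₁ O₂ V₂₀ V₁₁ V₀₂ q Y₁ Z)
    (hV20 : IsVertical A E ((q : ℕ) : A) y V₂₀) (hV11 : IsVertical A E ((q : ℕ) : A) y V₁₁)
    (hV02 : IsVertical A E ((q : ℕ) : A) y V₀₂)
    (hgauss : ∀ z : E, z ∈ V₂₀ → z ∈ V₁₁ → z ∈ V₀₂ → z ∈ gaussClosure A E ((q : ℕ) : A) y)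
    (hfrac10 : ∀ z' ∈ O₁, ∃ d₁ d₂ : chartClosure A E' y',
      (d₂ : E') ∉ O₁.nonunits ∧ z' * (d₂ : E') = d₁)
    (hfrac01 : ∀ z' ∈ O₂, ∃ d₁ d₂ : chartClosure A E' y',
      (d₂ : E') ∉ O₂.nonunits ∧ z' * (d₂ : E') = d₁)
    (hregL : ∀ 𝔪' : Ideal (chartClosure A E' y'), 𝔪'.IsMaximal →
      algebraMap A (chartClosure A E' y') ((q : ℕ) : A) ∈ 𝔪' →
      RegLAt A E' ((q : ℕ) : A) y' 𝔪' O₁ O₂ X₁ Y₁)
    (hsmL : ∀ 𝔪' : Ideal (chartClosure A E' y'), 𝔪'.IsMaximal →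
      algebraMap A (chartClosure A E' y') ((q : ℕ) : A) ∈ 𝔪' →
      (∀ h : y' ∈ chartClosure A E' y', (⟨y', h⟩ : chartClosure A E' y') ∈ 𝔪') →
      ¬ (Through A E' y' 𝔪' O₁ ∧ Through A E' y' 𝔪' O₂))
    (𝔪 : Ideal (chartClosure A E y)) (h𝔪 : 𝔪.IsMaximal)
    (hq𝔪 : algebraMap A (chartClosure A E y) ((q : ℕ) : A) ∈ 𝔪)
    (hφα : ∀ s : chartClosure A E' y', Fermat.Agent.H99.SS2.InLoc A E y 𝔪 (α s))
    (hφβ : ∀ s : chartClosure A E' y', Fermat.Agent.H99.SS2.InLoc A E y 𝔪 (β s))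
    (hαy : InLocMax A E y 𝔪 (α y')) (hβy : InLocMax A E y 𝔪 (β y'))
    (h11 : ∀ 𝔪α 𝔪β : Ideal (chartClosure A E' y'), 𝔪α.IsMaximal → 𝔪β.IsMaximal →
      LiesOverAlong A E E' α y' y 𝔪α 𝔪 → LiesOverAlong A E E' β y' y 𝔪β 𝔪 →
      Through A E y 𝔪 V₁₁ → ¬ Through A E y 𝔪 V₂₀ → ¬ Through A E y 𝔪 V₀₂ →
      Through A E' y' 𝔪α O₁ → ¬ Through A E' y' 𝔪α O₂ →
      Through A E' y' 𝔪β O₂ → ¬ Through A E' y' 𝔪β O₁ →
      ∃ x₁ x₂ : E, IsRegPoint A E ((q : ℕ) : A) y 𝔪 V₁₁ x₁ x₂) :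
    AsmPt A E' E q α β O₁ O₂ V₂₀ V₁₁ V₀₂ y 𝔪 := by
  have h𝔪p : 𝔪.IsPrime := h𝔪.isPrime
  have hmα := pointBelow_isMaximal hinj hq hy hfd α hα y' 𝔪 h𝔪 hq𝔪 hφα
  have hmβ := pointBelow_isMaximal hinj hq hy hfd β hβ y' 𝔪 h𝔪 hq𝔪 hφβ
  have hqα := pi_mem_pointBelow α hα y' y 𝔪 h𝔪p hφα hq𝔪
  have hqβ := pi_mem_pointBelow β hβ y' y 𝔪 h𝔪p hφβ hq𝔪
  have hLα := liesOverAlong_pointBelow α y' y 𝔪 h𝔪p hφα
  have hLβ := liesOverAlong_pointBelow β y' y 𝔪 h𝔪p hφβ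
  exact asmPt_val3_smooth hinj' hinj q hq hy' hfd' hy α β hα hβ O₁ O₂ V₂₀ V₁₁ V₀₂ X₁ Y₁ Z hval
    hV20 hV11 hV02 hgauss hfrac10 hfrac01 𝔪 h𝔪p hq𝔪 _ _ hmα.isPrime hmβ.isPrime hLα hLβ
    (hregL _ hmα hqα) (hregL _ hmβ hqβ) (hsmL _ hmα hqα (fun _ => hαy))
    (hsmL _ hmβ hqβ (fun _ => hβy)) (h11 _ _ hmα hmβ hLα hLβ)

end Main

end Fermat.Agent.H99.SS2
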