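import Mathlib
import Fermat.Agent.H99.SS2.ClassRegSm
import Fermat.Agent.H7.SS2.Vertical
import Fermat.Agent.H66.SS.FracVal
import Fermat.Agent.H66.SS.Final
import Fermat.Agent.H66.SS.ModelIntegral
import Fermat.Agent.H85.KLChart
import Fermat.Agent.H58.KL.ModelTr

/-!
# P-SS2 (helper99) : `hfrac` at level `L = M q`, concretely

The hypotheses `hfrac10`, `hfrac01` of `classRegSm` / `asmPt_val3` for the two vertical valuations
`V₁₀ = vInf`, `V₀₁ = vZero W` of the model field of level `M q` (helper7), in both charts `j`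
and `j⁻¹` : every element of `V` is a quotient `d₁ / d₂` of elements of `B` with `d₂` a unit of
`V`.

* `exists_pow_mul_mem_of_pir` : in a principal valuation subring the powers of a non-unit absorb
  every denominator.
* `exists_frac_two` : `hfrac` for two vertical valuations with a separating element.
* `frac_inv_chart` : `hfrac` in the chart `y` gives `hfrac` in the chart `y⁻¹` when `y` is a unit
  of `V`.
* `exists_sep_model` : the separating elements `u = x_q - x ^ q`, `u' = x - x_q ^ q`.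
* `modelFrac_vInf`, `modelFrac_vZero`, `modelFrac_vInf_inv`, `modelFrac_vZero_inv`.
-/

set_option autoImplicit false
set_option linter.unusedSectionVars false
set_option linter.unusedVariables false
set_option linter.style.haveILetI false

noncomputable section

namespace Fermat.Agent.H99.SS2

open Fermat.Agent.H22.KL

section Abstract

variable {E : Type} [Field E]

/-- In a principal valuation subring the powers of a non-unit absorb every denominator. -/
theorem exists_pow_mul_mem_of_pir (W : ValuationSubring E) (hW : IsPrincipalIdealRing W)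
    {t : E} (htW : t ∈ W.nonunits) (c : E) : ∃ N : ℕ, t ^ N * c ∈ W := by
  by_cases hc : c ∈ W
  · exact ⟨0, by simpa using hc⟩
  by_cases ht0 : t = 0
  · refine ⟨1, ?_⟩
    rw [ht0, pow_one, zero_mul]
    exact W.zero_mem
  have hc0 : c ≠ 0 := fun h => hc (h ▸ W.zero_mem)
  have hci : c⁻¹ ∈ W := (W.mem_or_inv_mem c).resolve_left hc
  have htW' : t ∈ W := mem_of_mem_nonunits W htW
  obtain ⟨_, htm⟩ := (ValuationSubring.mem_nonunits_iff_exists_mem_maximalIdeal).1 htW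
  have ha0 : (⟨t, htW'⟩ : W) ≠ 0 := fun h => ht0 (congrArg Subtype.val h)
  have hb0 : (⟨c⁻¹, hci⟩ : W) ≠ 0 := fun h => inv_ne_zero hc0 (congrArg Subtype.val h)
  haveI : IsDiscreteValuationRing W :=
    { toIsPrincipalIdealRing := hW
      toIsLocalRing := inferInstance
      not_a_field' := fun h => ha0 (by
        have h1 : (⟨t, htW'⟩ : W) ∈ IsLocalRing.maximalIdeal W := htm
        rw [h] at h1
        exact (Submodule.mem_bot _).1 h1) }
  obtain ⟨ϖ, hϖ⟩ := IsDiscreteValuationRing.exists_irreducible W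
  obtain ⟨j, u₁, ha⟩ := IsDiscreteValuationRing.eq_unit_mul_pow_irreducible ha0 hϖ
  obtain ⟨k, u₂, hb⟩ := IsDiscreteValuationRing.eq_unit_mul_pow_irreducible hb0 hϖ
  have hj : j ≠ 0 := by
    rintro rfl
    have h1 : IsUnit (⟨t, htW'⟩ : W) := by
      rw [ha, pow_zero, mul_one]
      exact u₁.isUnit
    exact (IsLocalRing.mem_maximalIdeal _).1 htm h1
  obtain ⟨j', rfl⟩ := Nat.exists_eq_succ_of_ne_zero hj
  have hd : (⟨t, htW'⟩ : W) ^ k
      = ((↑(u₁ ^ k * u₂⁻¹) : W) * ϖ ^ (j' * k)) * (⟨c⁻¹, hci⟩ : W) := by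
    rw [ha, hb, mul_pow, ← pow_mul, Units.val_mul, Units.val_pow_eq_pow_val]
    have h1 : (j' + 1) * k = j' * k + k := by ring
    rw [h1, pow_add]
    have h2 : (↑u₂⁻¹ : W) * ↑u₂ = 1 := Units.inv_mul u₂
    calc (↑u₁ : W) ^ k * (ϖ ^ (j' * k) * ϖ ^ k)
        = (↑u₁ : W) ^ k * ϖ ^ (j' * k) * ϖ ^ k * ((↑u₂⁻¹ : W) * ↑u₂) := by rw [h2, mul_one]; ring
      _ = (↑u₁ : W) ^ k * ↑u₂⁻¹ * ϖ ^ (j' * k) * (↑u₂ * ϖ ^ k) := by ring
  refine ⟨k, ?_⟩
  have h3 := congrArg (Subtype.val : W → E) hd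
  have h4 : t ^ k = (((↑(u₁ ^ k * u₂⁻¹) : W) * ϖ ^ (j' * k) : W) : E) * c⁻¹ := by
    simpa using h3
  rw [h4, mul_assoc, inv_mul_cancel₀ hc0, mul_one]
  exact Subtype.mem _

end Abstract

section Two

variable {A : Type} [CommRing A] [IsDomain A] [IsDiscreteValuationRing A]
variable {E : Type} [Field E] [Algebra A E]

/-- **`hfrac` for two vertical valuations** `V`, `W` cutting out the Gauss closure, with a
separating element `t ∈ B` (a unit of `V`, a non-unit of `W`). -/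
theorem exists_frac_two {ϖ : A} (hϖ : Irreducible ϖ) {y : E} (hy : Transcendental A y)
    (V W : ValuationSubring E) (hCV : ∀ z ∈ gaussClosure A E ϖ y, z ∈ V)
    (hCW : ∀ z ∈ gaussClosure A E ϖ y, z ∈ W) (hWp : IsPrincipalIdealRing W)
    (hC : ∀ z : E, z ∈ V → z ∈ W → z ∈ gaussClosure A E ϖ y)
    (t : E) (htB : t ∈ chartClosure A E y) (htV : t ∉ V.nonunits) (htW : t ∈ W.nonunits)
    (z : E) (hz : z ∈ V) :
    ∃ d₁ d₂ : chartClosure A E y, (d₂ : E) ∉ V.nonunits ∧ z * (d₂ : E) = d₁ := by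
  classical
  refine exists_frac_of_sep hϖ hy V hCV {W}
    (fun z hzV hS => hC z hzV (hS W (Finset.mem_singleton_self W))) ?_ ?_ z hz
  · intro W' hW' z hz
    rw [Finset.mem_singleton] at hW'
    subst hW'
    exact hCW z (Fermat.Agent.H89.klg_chartClosure_le_gaussClosure hϖ hy hz)
  · intro W' hW'
    rw [Finset.mem_singleton] at hW'
    subst hW'
    exact ⟨t, htB, htV, exists_pow_mul_mem_of_pir W' hWp htW⟩

end Two

section Chart

variable {A : Type} [CommRing A] {E : Type} [Field E] [Algebra A E]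

theorem self_mem_chartClosure (y : E) : y ∈ chartClosure A E y := by
  apply Fermat.Agent.H89.klg_chartRing_le_chartClosure y
  show y ∈ Algebra.adjoin A ({y} : Set E)
  exact Algebra.subset_adjoin (Set.mem_singleton y)

/-- **`hfrac` in the chart `y⁻¹`** from `hfrac` in the chart `y`, when `y` is a unit of `V`. -/
theorem frac_inv_chart {y : E} (hy0 : y ≠ 0) (V : ValuationSubring E)
    (hBV : ∀ z ∈ chartClosure A E y, z ∈ V) (hyV' : y⁻¹ ∈ V)
    (h : ∀ z ∈ V, ∃ d₁ d₂ : chartClosure A E y, (d₂ : E) ∉ V.nonunits ∧ z * (d₂ : E) = d₁)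
    (z : E) (hz : z ∈ V) :
    ∃ d₁ d₂ : chartClosure A E y⁻¹, (d₂ : E) ∉ V.nonunits ∧ z * (d₂ : E) = d₁ := by
  obtain ⟨d₁, d₂, hd₂, hzd⟩ := h z hz
  obtain ⟨k₁, hk₁⟩ := Fermat.Agent.H85.klc_overlap (A := A) hy0 (d₁ : E) d₁.2
  obtain ⟨k₂, hk₂⟩ := Fermat.Agent.H85.klc_overlap (A := A) hy0 (d₂ : E) d₂.2
  have hyV : y ∈ V := hBV y (self_mem_chartClosure y)
  have hinv : y⁻¹ ∉ V.nonunits := by
    rw [mem_nonunits_iff_inv_not_mem V (inv_ne_zero hy0), inv_inv, not_not]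
    exact hyV
  have hself : ∀ n : ℕ, y⁻¹ ^ n ∈ chartClosure A E y⁻¹ := fun n =>
    Subalgebra.pow_mem _ (self_mem_chartClosure y⁻¹) n
  have h1 : y⁻¹ ^ (k₁ + k₂) * (d₁ : E) ∈ chartClosure A E y⁻¹ := by
    have e : y⁻¹ ^ (k₁ + k₂) * (d₁ : E) = y⁻¹ ^ k₂ * (y⁻¹ ^ k₁ * d₁) := by ring
    rw [e]
    exact Subalgebra.mul_mem _ (hself k₂) hk₁
  have h2 : y⁻¹ ^ (k₁ + k₂) * (d₂ : E) ∈ chartClosure A E y⁻¹ := by
    have e : y⁻¹ ^ (k₁ + k₂) * (d₂ : E) = y⁻¹ ^ k₁ * (y⁻¹ ^ k₂ * d₂) := by ring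
    rw [e]
    exact Subalgebra.mul_mem _ (hself k₁) hk₂
  refine ⟨⟨_, h1⟩, ⟨_, h2⟩, ?_, ?_⟩
  · exact mul_not_mem_nonunits (V.pow_mem hyV' _) (hBV _ d₂.2)
      (pow_not_mem_nonunits hyV' hinv _) hd₂
  · show z * (y⁻¹ ^ (k₁ + k₂) * (d₂ : E)) = y⁻¹ ^ (k₁ + k₂) * (d₁ : E)
    rw [← hzd]
    ring

end Chart

section Model

open ModularCurve Fermat.Agent.H48.QExp Fermat.Agent.H82.SS Fermat.Agent.H7.SS
  Fermat.Agent.H7.SS2 Fermat.Agent.H11.SS2 Fermat.Agent.H66.SS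

variable (M q : ℕ) [NeZero M] [NeZero q]
  (K₁ : Type) [Field K₁] [Algebra ℚ K₁] [FiniteDimensional ℚ K₁]
  (A₀ : Type) [CommRing A₀] [IsDomain A₀] [IsDiscreteValuationRing A₀]
  [Algebra A₀ K₁] [IsFractionRing A₀ K₁]
  [Algebra A₀ (ModelField K₁ (M * q))] [IsScalarTower A₀ K₁ (ModelField K₁ (M * q))]

/-- **The separating elements at level `M q`** : `u = x_q - x ^ q ∈ B` vanishes on `V_∞` and is
a unit of `V_0`; `u' = x - x_q ^ q ∈ B` vanishes on `V_0` and is a unit of `V_∞`; moreover `x`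
is a unit of `V_∞` and of `V_0`. -/
theorem exists_sep_model (hq : q.Prime) (hqA : ¬ IsUnit ((q : ℕ) : A₀))
    (x : ModelField K₁ (M * q)) (hx : (x : LaurentSeries K₁) = coeffEmb K₁ jq)
    (W : ModelField K₁ (M * q) ≃ₐ[K₁] ModelField K₁ (M * q)) (hW : IsAtkinLehnerModel K₁ M q W) :
    ∃ u u' : ModelField K₁ (M * q),
      u ∈ chartClosure A₀ (ModelField K₁ (M * q)) x ∧
      u' ∈ chartClosure A₀ (ModelField K₁ (M * q)) x ∧
      u ∈ (vInf K₁ A₀ (M * q)).nonunits ∧ u' ∉ (vInf K₁ A₀ (M * q)).nonunits ∧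
      u' ∈ (vZero K₁ A₀ (M * q) W).nonunits ∧ u ∉ (vZero K₁ A₀ (M * q) W).nonunits ∧
      x⁻¹ ∈ vInf K₁ A₀ (M * q) ∧ x⁻¹ ∈ vZero K₁ A₀ (M * q) W := by
  classical
  have hxM : jqModC K₁ ∈ laurentBaseChange K₁ (modularFunctionFieldFull M) := by
    rw [← Fermat.Agent.H27.KLGB.coeffEmb_jq]
    exact coeffEmb_mem_laurentBaseChange K₁ (jqModC_mem_full ℚ M)
  obtain ⟨xu, xv, hxu, hxv, hWxu, hWxv⟩ := ssa_exists_pair M q K₁ W hW _ hxM
  have hxxu : x = xu := by
    apply Subtype.ext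
    rw [hx, hxu, Fermat.Agent.H27.KLGB.coeffEmb_jq]
  subst hxxu
  have hchar : CharP (IsLocalRing.ResidueField A₀) q := ssa_charP q hq hqA
  have hfrobk : qExpand (IsLocalRing.ResidueField A₀) q (jqModC (IsLocalRing.ResidueField A₀)) =
      jqModC (IsLocalRing.ResidueField A₀) ^ q := by
    have h3 := Fermat.Agent.H57.SS.frob (IsLocalRing.ResidueField A₀) q hq hchar (jqModC ℤ)
    rwa [coeffMap_jqModC] at h3
  set u : ModelField K₁ (M * q) := xv - x ^ q with hu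
  set u' : ModelField K₁ (M * q) := x - xv ^ q with hu'
  have hWu : W u = u' := by rw [hu, map_sub, map_pow, hWxv, hWxu]
  have hWu' : W u' = u := by rw [hu', map_sub, map_pow, hWxv, hWxu]
  -- expansions
  set uA : LaurentSeries A₀ := qExpand A₀ q (jqModC A₀) - jqModC A₀ ^ q with huA
  set uA' : LaurentSeries A₀ := jqModC A₀ - qExpand A₀ q (jqModC A₀) ^ q with huA'
  have hucoe : (u : LaurentSeries K₁) = gIota K₁ A₀ uA := by
    rw [huA, map_sub, map_pow, coeffMap_qExpand, coeffMap_jqModC, hu]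
    show (xv : LaurentSeries K₁) - (x : LaurentSeries K₁) ^ q = _
    rw [hxv, hxu]
  have hu'coe : (u' : LaurentSeries K₁) = gIota K₁ A₀ uA' := by
    rw [huA', map_sub, map_pow, coeffMap_qExpand, coeffMap_jqModC, hu']
    show (x : LaurentSeries K₁) - (xv : LaurentSeries K₁) ^ q = _
    rw [hxv, hxu]
  have hur : gRho A₀ uA = 0 := by
    rw [huA, map_sub, map_pow, coeffMap_qExpand, coeffMap_jqModC, hfrobk, sub_self]
  have hm : ¬ (q : ℤ) ∣ (-1 : ℤ) := by
    intro hdvd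
    have h4 : (q : ℤ) ∣ 1 := (dvd_neg (a := (q : ℤ)) (b := 1)).mp hdvd
    have h5 : q ∣ 1 := by exact_mod_cast h4
    exact hq.one_lt.ne' (Nat.dvd_one.mp h5)
  have hu'r : gRho A₀ uA' ≠ 0 := by
    rw [huA', map_sub, map_pow, coeffMap_qExpand, coeffMap_jqModC]
    intro h0
    have h3 := congrArg (fun y : LaurentSeries (IsLocalRing.ResidueField A₀) => y.coeff (-1)) h0
    simp only [HahnSeries.coeff_sub, HahnSeries.coeff_zero] at h3
    rw [← map_pow, qExpand_coeff_of_not_dvd q _ hm, sub_zero,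
      ModularCurve.coeff_jqModC_neg_one] at h3
    exact one_ne_zero h3
  -- `x` and `x_q`
  have hxcoe : (x : LaurentSeries K₁) = gIota K₁ A₀ (jqModC A₀) := by
    rw [hxu]
    exact (coeffMap_jqModC (algebraMap A₀ K₁)).symm
  have hxr : gRho A₀ (jqModC A₀) ≠ 0 := by
    intro h0
    have h1 : jqModC (IsLocalRing.ResidueField A₀) = 0 := by
      rw [← h0]
      exact (coeffMap_jqModC (IsLocalRing.residue A₀)).symm
    have h3 := congrArg (fun y : LaurentSeries (IsLocalRing.ResidueField A₀) => y.coeff (-1)) h1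
    simp only [HahnSeries.coeff_zero] at h3
    rw [ModularCurve.coeff_jqModC_neg_one] at h3
    exact one_ne_zero h3
  have hxvcoe : (xv : LaurentSeries K₁) = gIota K₁ A₀ (qExpand A₀ q (jqModC A₀)) := by
    rw [hxv]
    show _ = coeffMap (algebraMap A₀ K₁) (qExpand A₀ q (jqModC A₀))
    rw [coeffMap_qExpand, coeffMap_jqModC]
  have hxvr : gRho A₀ (qExpand A₀ q (jqModC A₀)) ≠ 0 := by
    intro h0
    have h1 : qExpand (IsLocalRing.ResidueField A₀) q (jqModC (IsLocalRing.ResidueField A₀))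
        = 0 := by
      rw [← h0]
      show _ = coeffMap (IsLocalRing.residue A₀) (qExpand A₀ q (jqModC A₀))
      rw [coeffMap_qExpand, coeffMap_jqModC]
    rw [hfrobk] at h1
    have h2 : jqModC (IsLocalRing.ResidueField A₀) = 0 := pow_eq_zero_iff (hq.ne_zero) |>.1 h1
    have h3 := congrArg (fun y : LaurentSeries (IsLocalRing.ResidueField A₀) => y.coeff (-1)) h2
    simp only [HahnSeries.coeff_zero] at h3
    rw [ModularCurve.coeff_jqModC_neg_one] at h3
    exact one_ne_zero h3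
  -- integrality
  have hxB : x ∈ chartClosure A₀ (ModelField K₁ (M * q)) x := self_mem_chartClosure x
  have hxvB : xv ∈ chartClosure A₀ (ModelField K₁ (M * q)) x := by
    rw [Fermat.Agent.H87.KL.mem_chartClosure_iff]
    exact smi_gen x hx xv q hxv
  have huB : u ∈ chartClosure A₀ (ModelField K₁ (M * q)) x :=
    Subalgebra.sub_mem _ hxvB (Subalgebra.pow_mem _ hxB q)
  have hu'B : u' ∈ chartClosure A₀ (ModelField K₁ (M * q)) x :=
    Subalgebra.sub_mem _ hxB (Subalgebra.pow_mem _ hxvB q)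
  have huM : u ∈ (vInf K₁ A₀ (M * q)).nonunits := by
    rw [mem_nonunits_vInf_iff]
    exact fv_inM_of_lift _ u.2 uA hucoe hur
  have hu'M : u' ∉ (vInf K₁ A₀ (M * q)).nonunits := by
    rw [mem_nonunits_vInf_iff]
    exact fv_not_inM_of_lift _ uA' hu'coe hu'r
  refine ⟨u, u', huB, hu'B, huM, hu'M, ?_, ?_, ?_, ?_⟩
  · rw [mem_nonunits_vZero_iff, hWu']
    exact huM
  · rw [mem_nonunits_vZero_iff, hWu]
    exact hu'M
  · rw [mem_vInf_iff]
    have := fv_inV_inv_of_lift (A₀ := A₀) (laurentBaseChange K₁ (modularFunctionFieldFull (M * q)))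
      x.2 (jqModC A₀) hxcoe hxr
    exact this
  · rw [mem_vZero_iff, map_inv₀, hWxu, mem_vInf_iff]
    have := fv_inV_inv_of_lift (A₀ := A₀) (laurentBaseChange K₁ (modularFunctionFieldFull (M * q)))
      xv.2 (qExpand A₀ q (jqModC A₀)) hxvcoe hxvr
    exact this

variable (hq : q.Prime) (hqM : ¬ q ∣ M) (hqA : ¬ IsUnit ((q : ℕ) : A₀))
  (x : ModelField K₁ (M * q)) (hx : (x : LaurentSeries K₁) = coeffEmb K₁ jq)
  (W : ModelField K₁ (M * q) ≃ₐ[K₁] ModelField K₁ (M * q)) (hW : IsAtkinLehnerModel K₁ M q W)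

include hq hqM hqA hx hW

/-- **`hfrac10` in the chart `j`** : `V_∞ = B_{𝔭_∞}`. -/
theorem modelFrac_vInf (z : ModelField K₁ (M * q)) (hz : z ∈ vInf K₁ A₀ (M * q)) :
    ∃ d₁ d₂ : chartClosure A₀ (ModelField K₁ (M * q)) x,
      (d₂ : ModelField K₁ (M * q)) ∉ (vInf K₁ A₀ (M * q)).nonunits ∧
        z * (d₂ : ModelField K₁ (M * q)) = d₁ := by
  obtain ⟨ϖ, hϖ⟩ := IsDiscreteValuationRing.exists_irreducible A₀
  have hT : Transcendental A₀ x := Fermat.Agent.H58.modelTranscendental_jq (M * q) K₁ A₀ x hx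
  obtain ⟨u, u', -, hu'B, -, hu'M, hu'Z, -, -, -⟩ := exists_sep_model M q K₁ A₀ hq hqA x hx W hW
  obtain ⟨-, -, hC1, -⟩ := isVertical_vInf M q K₁ A₀ hqA ϖ hϖ x hx W hW
  obtain ⟨-, hP2, hC2, -⟩ := isVertical_vZero M q K₁ A₀ hqA ϖ hϖ x hx W hW
  exact exists_frac_two hϖ hT _ _ hC1 hC2 hP2
    (fun z h1 h2 => mem_gaussClosure_of_mem_vInf_vZero M q K₁ A₀ hqA ϖ hϖ x hx W hW hq hqM z
      h1 h2) u' hu'B hu'M hu'Z z hz

/-- **`hfrac01` in the chart `j`** : `V_0 = B_{𝔭_0}`. -/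
theorem modelFrac_vZero (z : ModelField K₁ (M * q)) (hz : z ∈ vZero K₁ A₀ (M * q) W) :
    ∃ d₁ d₂ : chartClosure A₀ (ModelField K₁ (M * q)) x,
      (d₂ : ModelField K₁ (M * q)) ∉ (vZero K₁ A₀ (M * q) W).nonunits ∧
        z * (d₂ : ModelField K₁ (M * q)) = d₁ := by
  obtain ⟨ϖ, hϖ⟩ := IsDiscreteValuationRing.exists_irreducible A₀
  have hT : Transcendental A₀ x := Fermat.Agent.H58.modelTranscendental_jq (M * q) K₁ A₀ x hx
  obtain ⟨u, u', huB, -, huM, -, -, huZ, -, -⟩ := exists_sep_model M q K₁ A₀ hq hqA x hx W hW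
  obtain ⟨-, hP1, hC1, -⟩ := isVertical_vInf M q K₁ A₀ hqA ϖ hϖ x hx W hW
  obtain ⟨-, -, hC2, -⟩ := isVertical_vZero M q K₁ A₀ hqA ϖ hϖ x hx W hW
  exact exists_frac_two hϖ hT _ _ hC2 hC1 hP1
    (fun z h2 h1 => mem_gaussClosure_of_mem_vInf_vZero M q K₁ A₀ hqA ϖ hϖ x hx W hW hq hqM z
      h1 h2) u huB huZ huM z hz

/-- **`hfrac10` in the chart `j⁻¹`.** -/
theorem modelFrac_vInf_inv (z : ModelField K₁ (M * q)) (hz : z ∈ vInf K₁ A₀ (M * q)) :
    ∃ d₁ d₂ : chartClosure A₀ (ModelField K₁ (M * q)) x⁻¹,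
      (d₂ : ModelField K₁ (M * q)) ∉ (vInf K₁ A₀ (M * q)).nonunits ∧
        z * (d₂ : ModelField K₁ (M * q)) = d₁ := by
  obtain ⟨ϖ, hϖ⟩ := IsDiscreteValuationRing.exists_irreducible A₀
  have hT : Transcendental A₀ x := Fermat.Agent.H58.modelTranscendental_jq (M * q) K₁ A₀ x hx
  have hx0 : x ≠ 0 := fun h => hT (h ▸ isAlgebraic_zero)
  obtain ⟨_, _, -, -, -, -, -, -, hxi, -⟩ := exists_sep_model M q K₁ A₀ hq hqA x hx W hW
  obtain ⟨-, -, hC1, -⟩ := isVertical_vInf M q K₁ A₀ hqA ϖ hϖ x hx W hW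
  exact frac_inv_chart hx0 _
    (fun z hz => hC1 z (Fermat.Agent.H89.klg_chartClosure_le_gaussClosure hϖ hT hz)) hxi
    (modelFrac_vInf M q K₁ A₀ hq hqM hqA x hx W hW) z hz

/-- **`hfrac01` in the chart `j⁻¹`.** -/
theorem modelFrac_vZero_inv (z : ModelField K₁ (M * q)) (hz : z ∈ vZero K₁ A₀ (M * q) W) :
    ∃ d₁ d₂ : chartClosure A₀ (ModelField K₁ (M * q)) x⁻¹,
      (d₂ : ModelField K₁ (M * q)) ∉ (vZero K₁ A₀ (M * q) W).nonunits ∧
        z * (d₂ : ModelField K₁ (M * q)) = d₁ := by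
  obtain ⟨ϖ, hϖ⟩ := IsDiscreteValuationRing.exists_irreducible A₀
  have hT : Transcendental A₀ x := Fermat.Agent.H58.modelTranscendental_jq (M * q) K₁ A₀ x hx
  have hx0 : x ≠ 0 := fun h => hT (h ▸ isAlgebraic_zero)
  obtain ⟨_, _, -, -, -, -, -, -, -, hxi⟩ := exists_sep_model M q K₁ A₀ hq hqA x hx W hW
  obtain ⟨-, -, hC2, -⟩ := isVertical_vZero M q K₁ A₀ hqA ϖ hϖ x hx W hW
  exact frac_inv_chart hx0 _
    (fun z hz => hC2 z (Fermat.Agent.H89.klg_chartClosure_le_gaussClosure hϖ hT hz)) hxi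
    (modelFrac_vZero M q K₁ A₀ hq hqM hqA x hx W hW) z hz

end Model

end Fermat.Agent.H99.SS2
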