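import Mathlib
import Fermat.Agent.H99.SS2.FracL
import Fermat.Agent.H99.SS2.AsmPt
import Fermat.Agent.H62.SS2.PhiSharp

/-!
# P-SS2 (helper99) : the chart `j⁻¹` at the cusps, along `β`  (item (M4) of (P) POINTS)

`ξ = x⁻¹` the chart coordinate, `η = x_q⁻¹ = β (x'⁻¹)`.  From the shape of the modular equation
(`Fermat.Agent.H62.SS2.phiSharp`) : `(1 + ξ p(ξ)) η ^ (q + 1) = ξ r(ξ, η)` with `deg_η r ≤ q`.
Hence at every prime ideal `𝔪 ∋ ξ` of `B(ξ)` :

* `η ∈ 𝔪 B_𝔪`  (`inLocMax_of_rel`),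
* `β (B'(x'⁻¹)) ⊆ B_𝔪`  (`inLoc_of_mem_chartClosure`).
-/

set_option autoImplicit false
set_option linter.unusedSectionVars false
set_option linter.unusedVariables false
set_option linter.style.haveILetI false

noncomputable section

namespace Fermat.Agent.H99.SS2

open Fermat.Agent.H22.KL Polynomial

section Core

variable {A : Type} [CommRing A] {E : Type} [Field E] [Algebra A E]

/-- `B(ξ)` is integrally closed in `E`. -/
theorem mem_chartClosure_of_poly (ξ : E) (Q : E[X]) (hQ : Q.Monic)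
    (hcoeff : ∀ i, Q.coeff i ∈ chartClosure A E ξ) (z : E) (hz : Q.eval z = 0) :
    z ∈ chartClosure A E ξ := by
  have hint : IsIntegral (integralClosure (chartRing A E ξ) E) z :=
    Fermat.Agent.H85.klc_isIntegral_of_poly (A := chartRing A E ξ)
      (integralClosure (chartRing A E ξ) E) Q hQ hcoeff z hz
  have h3 : z ∈ integralClosure (integralClosure (chartRing A E ξ) E) E := hint
  rw [integralClosure_idem] at h3
  obtain ⟨b, hb⟩ := Algebra.mem_bot.mp h3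
  rw [← hb]
  exact b.2

/-- **The cusp relation gives `η ∈ 𝔪 B_𝔪`.** -/
theorem inLocMax_of_rel {ξ η : E} (n : ℕ) (hn : 0 < n) (p : E) (hp : p ∈ chartClosure A E ξ)
    (c : ℕ → E) (hc : ∀ a, c a ∈ chartClosure A E ξ)
    (hrel : (1 + ξ * p) * η ^ n = ξ * ∑ a ∈ Finset.range n, c a * η ^ (n - 1 - a))
    (𝔪 : Ideal (chartClosure A E ξ)) (h𝔪 : 𝔪.IsPrime)
    (hξ : (⟨ξ, self_mem_chartClosure ξ⟩ : chartClosure A E ξ) ∈ 𝔪) :
    ∃ b : chartClosure A E ξ, b ∉ 𝔪 ∧ ∃ w : chartClosure A E ξ, w ∈ 𝔪 ∧ (b : E) * η = w := by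
  classical
  have hξB : ξ ∈ chartClosure A E ξ := self_mem_chartClosure ξ
  set b₀ : E := 1 + ξ * p with hb₀
  have hb₀B : b₀ ∈ chartClosure A E ξ :=
    Subalgebra.add_mem _ (Subalgebra.one_mem _) (Subalgebra.mul_mem _ hξB hp)
  set w : E := b₀ * η with hw
  -- the key identity
  have hkey : w ^ n = ξ * ∑ a ∈ Finset.range n, c a * b₀ ^ a * w ^ (n - 1 - a) := by
    obtain ⟨m, rfl⟩ := Nat.exists_eq_succ_of_ne_zero hn.ne'
    have h1 : w ^ (m + 1) = b₀ ^ m * (b₀ * η ^ (m + 1)) := by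
      rw [hw, mul_pow, pow_succ b₀]
      ring
    rw [h1, hrel, Finset.mul_sum, Finset.mul_sum, Finset.mul_sum]
    refine Finset.sum_congr rfl fun a ha => ?_
    have ha' : a ≤ m := Nat.lt_succ_iff.1 (Finset.mem_range.1 ha)
    have h2 : b₀ ^ m = b₀ ^ a * b₀ ^ (m - a) := by rw [← pow_add, Nat.add_sub_cancel' ha']
    have h3 : m + 1 - 1 - a = m - a := by omega
    rw [h3, hw, mul_pow, h2]
    ring
  -- the monic polynomial
  set S : E[X] := ∑ a ∈ Finset.range n, C (ξ * (c a * b₀ ^ a)) * X ^ (n - 1 - a) with hS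
  have hSdeg : S.degree < (n : WithBot ℕ) := by
    refine lt_of_le_of_lt (Polynomial.degree_sum_le _ _) ?_
    rw [Finset.sup_lt_iff (WithBot.bot_lt_coe _)]
    intro a ha
    refine lt_of_le_of_lt (Polynomial.degree_C_mul_X_pow_le _ _) ?_
    have : n - 1 - a < n := by omega
    exact_mod_cast this
  have hQ : (X ^ n - S).Monic := Polynomial.monic_X_pow_sub hSdeg
  have hScoeff : ∀ i, S.coeff i ∈ chartClosure A E ξ := by
    intro i
    rw [hS, Polynomial.finsetSum_coeff]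
    refine Subalgebra.sum_mem _ fun a _ => ?_
    rw [Polynomial.coeff_C_mul_X_pow]
    split_ifs
    · exact Subalgebra.mul_mem _ hξB (Subalgebra.mul_mem _ (hc a) (Subalgebra.pow_mem _ hb₀B a))
    · exact Subalgebra.zero_mem _
  have hQcoeff : ∀ i, (X ^ n - S).coeff i ∈ chartClosure A E ξ := by
    intro i
    rw [Polynomial.coeff_sub, Polynomial.coeff_X_pow]
    refine Subalgebra.sub_mem _ ?_ (hScoeff i)
    split_ifs
    · exact Subalgebra.one_mem _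
    · exact Subalgebra.zero_mem _
  have hQw : (X ^ n - S).eval w = 0 := by
    rw [Polynomial.eval_sub, Polynomial.eval_pow, Polynomial.eval_X, hS,
      Polynomial.eval_finsetSum, hkey, Finset.mul_sum, sub_eq_zero]
    refine Finset.sum_congr rfl fun a _ => ?_
    rw [Polynomial.eval_mul, Polynomial.eval_C, Polynomial.eval_pow, Polynomial.eval_X]
    ring
  have hwB : w ∈ chartClosure A E ξ := mem_chartClosure_of_poly ξ _ hQ hQcoeff w hQw
  have hb₀𝔪 : (⟨b₀, hb₀B⟩ : chartClosure A E ξ) ∉ 𝔪 := by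
    intro h
    apply h𝔪.ne_top
    rw [Ideal.eq_top_iff_one]
    have h1 : (1 : chartClosure A E ξ) = ⟨b₀, hb₀B⟩ - ⟨ξ, hξB⟩ * ⟨p, hp⟩ := by
      apply Subtype.ext
      show (1 : E) = b₀ - ξ * p
      rw [hb₀]
      ring
    rw [h1]
    exact 𝔪.sub_mem h (𝔪.mul_mem_right _ hξ)
  have hsumB : (∑ a ∈ Finset.range n, c a * b₀ ^ a * w ^ (n - 1 - a)) ∈ chartClosure A E ξ :=
    Subalgebra.sum_mem _ fun a _ => Subalgebra.mul_mem _
      (Subalgebra.mul_mem _ (hc a) (Subalgebra.pow_mem _ hb₀B a)) (Subalgebra.pow_mem _ hwB _)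
  have hw𝔪 : (⟨w, hwB⟩ : chartClosure A E ξ) ∈ 𝔪 := by
    apply h𝔪.mem_of_pow_mem n
    have h1 : (⟨w, hwB⟩ : chartClosure A E ξ) ^ n = ⟨ξ, hξB⟩ * ⟨_, hsumB⟩ := by
      apply Subtype.ext
      show w ^ n = ξ * _
      exact hkey
    rw [h1]
    exact 𝔪.mul_mem_right _ hξ
  exact ⟨⟨b₀, hb₀B⟩, hb₀𝔪, ⟨w, hwB⟩, hw𝔪, rfl⟩

/-- Elements of `A[η]` have bounded denominators when `b₀ η ∈ B`. -/
theorem exists_pow_mul_mem_of_mem_chartRing {ξ η : E} (b₀ : E) (hb₀ : b₀ ∈ chartClosure A E ξ)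
    (hw : b₀ * η ∈ chartClosure A E ξ) (a : E) (ha : a ∈ chartRing A E η) :
    ∃ k : ℕ, ∀ m, k ≤ m → b₀ ^ m * a ∈ chartClosure A E ξ := by
  have ha' : a ∈ Algebra.adjoin A ({η} : Set E) := ha
  clear ha
  induction ha' using Algebra.adjoin_induction with
  | mem x hx =>
    rw [Set.mem_singleton_iff] at hx
    subst hx
    refine ⟨1, fun m hm => ?_⟩
    obtain ⟨m', rfl⟩ := Nat.exists_eq_add_of_le hm
    have : b₀ ^ (1 + m') * x = b₀ ^ m' * (b₀ * x) := by ring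
    rw [this]
    exact Subalgebra.mul_mem _ (Subalgebra.pow_mem _ hb₀ _) hw
  | algebraMap r =>
    exact ⟨0, fun m _ => Subalgebra.mul_mem _ (Subalgebra.pow_mem _ hb₀ _)
      (Subalgebra.algebraMap_mem _ r)⟩
  | add x y _ _ hx hy =>
    obtain ⟨k₁, h₁⟩ := hx
    obtain ⟨k₂, h₂⟩ := hy
    refine ⟨max k₁ k₂, fun m hm => ?_⟩
    rw [mul_add]
    exact Subalgebra.add_mem _ (h₁ m (le_trans (le_max_left _ _) hm))
      (h₂ m (le_trans (le_max_right _ _) hm))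
  | mul x y _ _ hx hy =>
    obtain ⟨k₁, h₁⟩ := hx
    obtain ⟨k₂, h₂⟩ := hy
    refine ⟨k₁ + k₂, fun m hm => ?_⟩
    obtain ⟨m', rfl⟩ := Nat.exists_eq_add_of_le hm
    have : b₀ ^ (k₁ + k₂ + m') * (x * y) = (b₀ ^ k₁ * x) * (b₀ ^ (k₂ + m') * y) := by ring
    rw [this]
    exact Subalgebra.mul_mem _ (h₁ k₁ le_rfl) (h₂ (k₂ + m') (Nat.le_add_right _ _))

/-- **`B(η) ⊆ B(ξ)_𝔪`** when `b₀ η ∈ B(ξ)` for some `b₀ ∈ B(ξ) ∖ 𝔪`. -/
theorem inLoc_of_mem_chartClosure {ξ η : E} (𝔪 : Ideal (chartClosure A E ξ)) (h𝔪 : 𝔪.IsPrime)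
    (b₀ : chartClosure A E ξ) (hb₀ : b₀ ∉ 𝔪) (hw : (b₀ : E) * η ∈ chartClosure A E ξ)
    (z : E) (hz : z ∈ chartClosure A E η) :
    ∃ b : chartClosure A E ξ, b ∉ 𝔪 ∧ (b : E) * z ∈ chartClosure A E ξ := by
  classical
  have hz' : IsIntegral (chartRing A E η) z := hz
  obtain ⟨P, hPm, hPz⟩ := hz'
  set PE : E[X] := P.map (algebraMap (chartRing A E η) E) with hPE
  have hPEm : PE.Monic := hPm.map _
  have hPEz : PE.eval z = 0 := by
    rw [hPE, ← Polynomial.eval₂_eq_eval_map]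
    exact hPz
  have hcoef : ∀ i, ∃ k : ℕ, ∀ m, k ≤ m → (b₀ : E) ^ m * PE.coeff i ∈ chartClosure A E ξ := by
    intro i
    refine exists_pow_mul_mem_of_mem_chartRing (b₀ : E) b₀.2 hw _ ?_
    rw [hPE, Polynomial.coeff_map]
    exact (P.coeff i).2
  choose k hk using hcoef
  set K : ℕ := ∑ i ∈ Finset.range (PE.natDegree + 1), k i with hK
  have hKi : ∀ i ∈ Finset.range (PE.natDegree + 1), k i ≤ K := fun i hi =>
    Finset.single_le_sum (f := k) (fun _ _ => Nat.zero_le _) hi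
  set b : E := (b₀ : E) ^ K with hb
  have hbB : b ∈ chartClosure A E ξ := Subalgebra.pow_mem _ b₀.2 K
  have hQm : (Polynomial.scaleRoots PE b).Monic := (Polynomial.monic_scaleRoots_iff b).2 hPEm
  have hQz : (Polynomial.scaleRoots PE b).eval (b * z) = 0 := by
    have h := Polynomial.scaleRoots_eval₂_eq_zero (RingHom.id E) (p := PE) (s := b) (r := z)
      (by rw [Polynomial.eval₂_id]; exact hPEz)
    rw [Polynomial.eval₂_id] at h
    exact h
  have hQc : ∀ i, (Polynomial.scaleRoots PE b).coeff i ∈ chartClosure A E ξ := by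
    intro i
    rw [Polynomial.coeff_scaleRoots]
    rcases lt_trichotomy i PE.natDegree with hi | hi | hi
    · obtain ⟨d, hd⟩ := Nat.exists_eq_add_of_lt hi
      have hd' : PE.natDegree - i = d + 1 := by omega
      rw [hd', pow_succ]
      have : PE.coeff i * (b ^ d * b) = b ^ d * (b * PE.coeff i) := by ring
      rw [this]
      refine Subalgebra.mul_mem _ (Subalgebra.pow_mem _ hbB _) ?_
      exact hk i K (hKi i (Finset.mem_range.2 (by omega)))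
    · rw [hi, Nat.sub_self, pow_zero, mul_one, hPEm.coeff_natDegree]
      exact Subalgebra.one_mem _
    · rw [Polynomial.coeff_eq_zero_of_natDegree_lt hi, zero_mul]
      exact Subalgebra.zero_mem _
  refine ⟨b₀ ^ K, fun h => hb₀ (h𝔪.mem_of_pow_mem K h), ?_⟩
  have hcoe : ((b₀ ^ K : chartClosure A E ξ) : E) = b := by
    rw [hb]
    rfl
  rw [hcoe]
  exact mem_chartClosure_of_poly ξ _ hQm hQc (b * z) hQz

end Core

section Reflect

variable {E : Type} [Field E]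

theorem pow_mul_inv_pow_of_le {x : E} (hx : x ≠ 0) {i n : ℕ} (hi : i ≤ n) :
    x ^ i * x⁻¹ ^ n = x⁻¹ ^ (n - i) := by
  obtain ⟨k, rfl⟩ := Nat.exists_eq_add_of_le hi
  rw [Nat.add_sub_cancel_left, pow_add, ← mul_assoc, ← mul_pow, mul_inv_cancel₀ hx, one_pow,
    one_mul]

/-- **The modular equation at the cusp** : a relation `Φ(u, v) = 0` with `Φ` monic of degree `N`
in the outer variable and all coefficients of degree at most `N` in the inner variable gives,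
for `η = u⁻¹`, `ξ = v⁻¹`, a relation `(1 + ξ p(ξ)) η ^ N = ξ ∑_{a < N} c_a(ξ) η ^ (N - 1 - a)`. -/
theorem cusp_rel_of_modular (N : ℕ) (Φ : Polynomial (Polynomial ℤ)) (hΦd : Φ.natDegree ≤ N)
    (hΦN : Φ.coeff N = 1) (hcoef : ∀ b, (Φ.coeff b).natDegree ≤ N) (u v : E) (hu : u ≠ 0)
    (hv : v ≠ 0)
    (hrel : (Φ.map (Polynomial.eval₂RingHom (Int.castRingHom E) u)).eval v = 0) :
    (1 + v⁻¹ * ∑ b ∈ Finset.range N, (((Φ.coeff b).coeff 0 : ℤ) : E) * v⁻¹ ^ (N - 1 - b))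
        * u⁻¹ ^ N
      = v⁻¹ * ∑ a ∈ Finset.range N,
          (-(∑ b ∈ Finset.range N, (((Φ.coeff b).coeff (a + 1) : ℤ) : E) * v⁻¹ ^ (N - 1 - b)))
            * u⁻¹ ^ (N - 1 - a) := by
  classical
  -- step 1 : the double sum
  have h1 : ∑ b ∈ Finset.range (N + 1),
      (∑ a ∈ Finset.range (N + 1), (((Φ.coeff b).coeff a : ℤ) : E) * u ^ a) * v ^ b = 0 := by
    rw [← hrel, Polynomial.eval_eq_sum_range'
      (lt_of_le_of_lt (Polynomial.natDegree_map_le) (Nat.lt_succ_of_le hΦd))]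
    refine Finset.sum_congr rfl fun b _ => ?_
    rw [Polynomial.coeff_map, Polynomial.coe_eval₂RingHom,
      Polynomial.eval₂_eq_sum_range' _ (Nat.lt_succ_of_le (hcoef b))]
    rfl
  -- step 2 : multiply by `η ^ N ξ ^ N`
  have h2 : ∑ b ∈ Finset.range (N + 1),
      (∑ a ∈ Finset.range (N + 1), (((Φ.coeff b).coeff a : ℤ) : E) * u⁻¹ ^ (N - a))
        * v⁻¹ ^ (N - b) = 0 := by
    have h : ∑ b ∈ Finset.range (N + 1),
        (∑ a ∈ Finset.range (N + 1), (((Φ.coeff b).coeff a : ℤ) : E) * u ^ a) * v ^ b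
          * (u⁻¹ ^ N * v⁻¹ ^ N) = 0 := by
      rw [← Finset.sum_mul, h1, zero_mul]
    refine Eq.trans (Eq.symm ?_) h
    refine Finset.sum_congr rfl fun b hb => ?_
    have hb' : b ≤ N := Nat.lt_succ_iff.1 (Finset.mem_range.1 hb)
    rw [← pow_mul_inv_pow_of_le hv hb']
    have e : (∑ a ∈ Finset.range (N + 1), (((Φ.coeff b).coeff a : ℤ) : E) * u ^ a) * v ^ b
        * (u⁻¹ ^ N * v⁻¹ ^ N)
        = ((∑ a ∈ Finset.range (N + 1), (((Φ.coeff b).coeff a : ℤ) : E) * u ^ a) * u⁻¹ ^ N)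
          * (v ^ b * v⁻¹ ^ N) := by ring
    rw [e, Finset.sum_mul]
    congr 1
    refine Finset.sum_congr rfl fun a ha => ?_
    have ha' : a ≤ N := Nat.lt_succ_iff.1 (Finset.mem_range.1 ha)
    rw [← pow_mul_inv_pow_of_le hu ha']
    ring
  -- step 3 : peel off `b = N`
  rw [Finset.sum_range_succ, Nat.sub_self, pow_zero, mul_one] at h2
  have h3 : ∑ a ∈ Finset.range (N + 1), (((Φ.coeff N).coeff a : ℤ) : E) * u⁻¹ ^ (N - a)
      = u⁻¹ ^ N := by
    rw [hΦN, Finset.sum_eq_single 0]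
    · rw [Polynomial.coeff_one_zero, Int.cast_one, one_mul, Nat.sub_zero]
    · intro a _ ha
      rw [Polynomial.coeff_one, if_neg ha, Int.cast_zero, zero_mul]
    · intro h
      exact absurd (Finset.mem_range.2 (Nat.succ_pos N)) h
  rw [h3] at h2
  -- step 4 : peel off `a = 0`
  have h4 : ∀ b ∈ Finset.range N,
      (∑ a ∈ Finset.range (N + 1), (((Φ.coeff b).coeff a : ℤ) : E) * u⁻¹ ^ (N - a))
        * v⁻¹ ^ (N - b)
      = v⁻¹ * ((∑ a ∈ Finset.range N, (((Φ.coeff b).coeff (a + 1) : ℤ) : E)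
          * v⁻¹ ^ (N - 1 - b) * u⁻¹ ^ (N - 1 - a))
        + (((Φ.coeff b).coeff 0 : ℤ) : E) * v⁻¹ ^ (N - 1 - b) * u⁻¹ ^ N) := by
    intro b hb
    have hb' : b < N := Finset.mem_range.1 hb
    have e1 : v⁻¹ ^ (N - b) = v⁻¹ * v⁻¹ ^ (N - 1 - b) := by
      rw [← pow_succ']
      congr 1
      omega
    rw [Finset.sum_range_succ', Nat.sub_zero, e1, mul_add, Finset.mul_sum, add_mul,
      Finset.sum_mul]
    congr 1
    · refine Finset.sum_congr rfl fun a _ => ?_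
      have e2 : N - (a + 1) = N - 1 - a := by omega
      rw [e2]
      ring
    · ring
  rw [Finset.sum_congr rfl h4, ← Finset.mul_sum, Finset.sum_add_distrib] at h2
  -- step 5 : conclude
  rw [Finset.sum_comm] at h2
  have hT : (∑ y ∈ Finset.range N, ∑ x ∈ Finset.range N,
        (((Φ.coeff x).coeff (y + 1) : ℤ) : E) * v⁻¹ ^ (N - 1 - x) * u⁻¹ ^ (N - 1 - y))
      = ∑ a ∈ Finset.range N,
          (∑ b ∈ Finset.range N, (((Φ.coeff b).coeff (a + 1) : ℤ) : E) * v⁻¹ ^ (N - 1 - b))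
            * u⁻¹ ^ (N - 1 - a) :=
    Finset.sum_congr rfl fun a _ => (Finset.sum_mul _ _ _).symm
  have hS : (∑ x ∈ Finset.range N,
        (((Φ.coeff x).coeff 0 : ℤ) : E) * v⁻¹ ^ (N - 1 - x) * u⁻¹ ^ N)
      = (∑ b ∈ Finset.range N, (((Φ.coeff b).coeff 0 : ℤ) : E) * v⁻¹ ^ (N - 1 - b))
          * u⁻¹ ^ N := (Finset.sum_mul _ _ _).symm
  have hneg : (∑ a ∈ Finset.range N,
        (-(∑ b ∈ Finset.range N, (((Φ.coeff b).coeff (a + 1) : ℤ) : E) * v⁻¹ ^ (N - 1 - b)))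
          * u⁻¹ ^ (N - 1 - a))
      = -(∑ a ∈ Finset.range N,
          (∑ b ∈ Finset.range N, (((Φ.coeff b).coeff (a + 1) : ℤ) : E) * v⁻¹ ^ (N - 1 - b))
            * u⁻¹ ^ (N - 1 - a)) := by
    rw [← Finset.sum_neg_distrib]
    exact Finset.sum_congr rfl fun a _ => neg_mul _ _
  rw [hT, hS] at h2
  rw [hneg]
  linear_combination h2

end Reflect

section Shape

/-- All coefficients of the modular polynomial have degree at most `q + 1` in the inner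
variable. -/
theorem phiSharp_coeff_natDegree_le (q : ℕ) (hq2 : 2 ≤ q) (Φ Ψ : Polynomial (Polynomial ℤ))
    (hΦ : Φ = (X - C (X ^ q)) * (X ^ q - C X) + C (C (q : ℤ)) * Ψ)
    (hΨ : ∀ b : ℕ, (Ψ.coeff b).natDegree ≤ q) (b : ℕ) : (Φ.coeff b).natDegree ≤ q + 1 := by
  rw [hΦ, Polynomial.coeff_add, Polynomial.coeff_C_mul]
  refine (Polynomial.natDegree_add_le _ _).trans (max_le ?_ ?_)
  · rcases Nat.eq_zero_or_pos b with hb | hb
    · subst hb
      rw [Fermat.Agent.H62.SS2.phs_kron_coeff_zero q hq2, Polynomial.natDegree_X_pow]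
    · exact (Fermat.Agent.H62.SS2.phs_kron_coeff_natDegree q b hq2 hb).trans (Nat.le_succ q)
  · exact (Polynomial.natDegree_C_mul_le _ _).trans ((hΨ b).trans (Nat.le_succ q))

end Shape

section Model

open ModularCurve Fermat.Agent.H27

variable (N : ℕ) [NeZero N] (q : ℕ) [NeZero q]
  (K₁ : Type) [Field K₁] [Algebra ℚ K₁]
  (A₀ : Type) [CommRing A₀] [Algebra A₀ (ModelField K₁ N)]

theorem model_ne_zero_of_jq (x : ModelField K₁ N) (hx : (x : LaurentSeries K₁) = jqModC K₁) :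
    x ≠ 0 := by
  intro h
  have h1 : jqModC K₁ = 0 := by
    rw [← hx, h]
    rfl
  have h3 := congrArg (fun y : LaurentSeries K₁ => y.coeff (-1)) h1
  simp only [HahnSeries.coeff_zero] at h3
  rw [ModularCurve.coeff_jqModC_neg_one] at h3
  exact one_ne_zero h3

theorem model_ne_zero_of_jq_q (xq : ModelField K₁ N)
    (hxq : (xq : LaurentSeries K₁) = qExpand K₁ q (jqModC K₁)) : xq ≠ 0 := by
  intro h
  have h1 : qExpand K₁ q (jqModC K₁) = 0 := by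
    rw [← hxq, h]
    rfl
  have h2 : jqModC K₁ = 0 := by
    apply qExpand_injective (R := K₁) q
    rw [h1, map_zero]
  have h3 := congrArg (fun y : LaurentSeries K₁ => y.coeff (-1)) h2
  simp only [HahnSeries.coeff_zero] at h3
  rw [ModularCurve.coeff_jqModC_neg_one] at h3
  exact one_ne_zero h3

/-- **The cusp relation in the model field** : for `ξ = x⁻¹`, `η = x_q⁻¹`,
`(1 + ξ p) η ^ (q + 1) = ξ ∑_{a ≤ q} c_a η ^ (q - a)` with `p`, `c_a ∈ ℤ[ξ]`. -/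
theorem modelCusp_rel (hq : q.Prime) (x xq : ModelField K₁ N)
    (hx : (x : LaurentSeries K₁) = jqModC K₁)
    (hxq : (xq : LaurentSeries K₁) = qExpand K₁ q (jqModC K₁)) :
    ∃ (p : ModelField K₁ N) (c : ℕ → ModelField K₁ N),
      p ∈ chartClosure A₀ (ModelField K₁ N) x⁻¹ ∧
      (∀ a, c a ∈ chartClosure A₀ (ModelField K₁ N) x⁻¹) ∧
      (1 + x⁻¹ * p) * xq⁻¹ ^ (q + 1)
        = x⁻¹ * ∑ a ∈ Finset.range (q + 1), c a * xq⁻¹ ^ (q + 1 - 1 - a) := by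
  classical
  haveI : CharZero K₁ := algebraRat.charZero K₁
  obtain ⟨Φ, Ψ, hΦm, hΦd, hΦ, -, hΨ, -, hrel⟩ := Fermat.Agent.H62.SS2.phiSharp q hq
  have hcoef := phiSharp_coeff_natDegree_le q hq.two_le Φ Ψ hΦ hΨ
  have hΦN : Φ.coeff (q + 1) = 1 := by
    have h := hΦm.coeff_natDegree
    rwa [hΦd] at h
  have hx0 := model_ne_zero_of_jq N K₁ x hx
  have hxq0 := model_ne_zero_of_jq_q N q K₁ xq hxq
  -- the relation in the model field
  set ι : ModelField K₁ N →+* LaurentSeries K₁ :=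
    algebraMap (ModelField K₁ N) (LaurentSeries K₁) with hι
  have hιinj : Function.Injective ι := FaithfulSMul.algebraMap_injective _ _
  have hιx : ι x = jqModC K₁ := hx
  have hιxq : ι xq = baseS K₁ q := hxq
  have hrelE : (Φ.map (Polynomial.eval₂RingHom (Int.castRingHom (ModelField K₁ N)) xq)).eval x
      = 0 := by
    apply hιinj
    rw [map_zero, ← Polynomial.eval₂_at_apply, ← Polynomial.eval_map, Polynomial.map_map]
    have hcomp : ι.comp (Polynomial.eval₂RingHom (Int.castRingHom (ModelField K₁ N)) xq)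
        = evalAt (baseS K₁ q) := by
      rw [← hιxq]
      exact evalAtR_comp ι xq
    rw [hcomp, hιx]
    exact (hrel K₁).1
  have hmain := cusp_rel_of_modular (q + 1) Φ (le_of_eq hΦd) hΦN hcoef xq x hxq0 hx0 hrelE
  have hξB : x⁻¹ ∈ chartClosure A₀ (ModelField K₁ N) x⁻¹ := self_mem_chartClosure x⁻¹
  have hsum : ∀ a : ℕ, (∑ b ∈ Finset.range (q + 1),
      (((Φ.coeff b).coeff a : ℤ) : ModelField K₁ N) * x⁻¹ ^ (q + 1 - 1 - b))
        ∈ chartClosure A₀ (ModelField K₁ N) x⁻¹ := fun a =>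
    Subalgebra.sum_mem _ fun b _ =>
      Subalgebra.mul_mem _ (intCast_mem _ _) (Subalgebra.pow_mem _ hξB _)
  exact ⟨_, _, hsum 0, fun a => Subalgebra.neg_mem _ (hsum (a + 1)), hmain⟩

/-- **(M4, a)** : `x_q⁻¹ ∈ 𝔪 B_𝔪` at every prime ideal `𝔪 ∋ x⁻¹` of `B(x⁻¹)`. -/
theorem modelCusp_inLocMax (hq : q.Prime) (x xq : ModelField K₁ N)
    (hx : (x : LaurentSeries K₁) = jqModC K₁)
    (hxq : (xq : LaurentSeries K₁) = qExpand K₁ q (jqModC K₁))
    (𝔪 : Ideal (chartClosure A₀ (ModelField K₁ N) x⁻¹)) (h𝔪 : 𝔪.IsPrime)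
    (hξ : ∀ h : x⁻¹ ∈ chartClosure A₀ (ModelField K₁ N) x⁻¹,
      (⟨x⁻¹, h⟩ : chartClosure A₀ (ModelField K₁ N) x⁻¹) ∈ 𝔪) :
    InLocMax A₀ (ModelField K₁ N) x⁻¹ 𝔪 xq⁻¹ := by
  obtain ⟨p, c, hp, hc, hrel⟩ := modelCusp_rel N q K₁ A₀ hq x xq hx hxq
  exact inLocMax_of_rel (q + 1) (Nat.succ_pos q) p hp c hc hrel 𝔪 h𝔪 (hξ _)

/-- **(M4, b)** : `B(x_q⁻¹) ⊆ B(x⁻¹)_𝔪` at every prime ideal `𝔪 ∋ x⁻¹` of `B(x⁻¹)`. -/
theorem modelCusp_inLoc (hq : q.Prime) (x xq : ModelField K₁ N)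
    (hx : (x : LaurentSeries K₁) = jqModC K₁)
    (hxq : (xq : LaurentSeries K₁) = qExpand K₁ q (jqModC K₁))
    (𝔪 : Ideal (chartClosure A₀ (ModelField K₁ N) x⁻¹)) (h𝔪 : 𝔪.IsPrime)
    (hξ : ∀ h : x⁻¹ ∈ chartClosure A₀ (ModelField K₁ N) x⁻¹,
      (⟨x⁻¹, h⟩ : chartClosure A₀ (ModelField K₁ N) x⁻¹) ∈ 𝔪)
    (z : ModelField K₁ N) (hz : z ∈ chartClosure A₀ (ModelField K₁ N) xq⁻¹) :
    InLoc A₀ (ModelField K₁ N) x⁻¹ 𝔪 z := by
  obtain ⟨b, hb, w, -, hbw⟩ := modelCusp_inLocMax N q K₁ A₀ hq x xq hx hxq 𝔪 h𝔪 hξ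
  exact inLoc_of_mem_chartClosure 𝔪 h𝔪 b hb (by rw [hbw]; exact w.2) z hz

end Model

section Beta

open ModularCurve

variable (N : ℕ) [NeZero N] (q : ℕ) [NeZero q]
  (K₁ : Type) [Field K₁] [Algebra ℚ K₁]
  (A₀ : Type) [CommRing A₀] [Algebra A₀ (ModelField K₁ N)]
  {E' : Type} [Field E'] [Algebra A₀ E']

/-- **(M4) along an embedding `β`** with `β x' = x_q` : `β (B'(x'⁻¹)) ⊆ B(x⁻¹)_𝔪` and
`β (x'⁻¹) ∈ 𝔪 B_𝔪` at every prime ideal `𝔪 ∋ x⁻¹` of `B(x⁻¹)`. -/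
theorem modelCusp_beta (hq : q.Prime) (x : ModelField K₁ N)
    (hx : (x : LaurentSeries K₁) = jqModC K₁)
    (β : E' →+* ModelField K₁ N)
    (hβ : ∀ a : A₀, β (algebraMap A₀ E' a) = algebraMap A₀ (ModelField K₁ N) a)
    (x' : E') (hβx : ((β x' : ModelField K₁ N) : LaurentSeries K₁) = qExpand K₁ q (jqModC K₁))
    (𝔪 : Ideal (chartClosure A₀ (ModelField K₁ N) x⁻¹)) (h𝔪 : 𝔪.IsPrime)
    (hξ : ∀ h : x⁻¹ ∈ chartClosure A₀ (ModelField K₁ N) x⁻¹,
      (⟨x⁻¹, h⟩ : chartClosure A₀ (ModelField K₁ N) x⁻¹) ∈ 𝔪) :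
    (∀ s : chartClosure A₀ E' x'⁻¹, InLoc A₀ (ModelField K₁ N) x⁻¹ 𝔪 (β s)) ∧
      InLocMax A₀ (ModelField K₁ N) x⁻¹ 𝔪 (β x'⁻¹) := by
  refine ⟨fun s => ?_, ?_⟩
  · refine modelCusp_inLoc N q K₁ A₀ hq x (β x') hx hβx 𝔪 h𝔪 hξ _ ?_
    have h := map_mem_chartClosure_self β hβ s.2
    rwa [map_inv₀] at h
  · rw [map_inv₀]
    exact modelCusp_inLocMax N q K₁ A₀ hq x (β x') hx hβx 𝔪 h𝔪 hξ

end Beta

end Fermat.Agent.H99.SS2
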